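import Mathlib
import Fermat.Prelude.Def_FLTPrelim_Ramification
import Fermat.Agent.Unram.Inertia

/-!
# S13 package MINK, part 1: valuation subrings of an algebraic extension of `ℚ` are
localisations of the ring of algebraic integers; criterion for membership in inertia.
-/

set_option autoImplicit false

namespace FA13

open Polynomial

section Horner

variable {K : Type*} [Field K] (A : ValuationSubring K)

theorem mem_of_isIntegral {x : K} (hx : IsIntegral ℤ x) : x ∈ A := by
  have h1 : IsIntegral A x := hx.tower_top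
  obtain ⟨y, hy⟩ := IsIntegrallyClosed.isIntegral_iff.mp h1
  rw [← hy]
  exact y.2

theorem nonunits_add {x y : K} (hx : x ∈ A.nonunits) (hy : y ∈ A.nonunits) :
    x + y ∈ A.nonunits := by
  rw [ValuationSubring.mem_nonunits_iff] at *
  exact lt_of_le_of_lt (A.valuation.map_add x y) (max_lt hx hy)

theorem nonunits_neg {x : K} (hx : x ∈ A.nonunits) : -x ∈ A.nonunits := by
  rw [ValuationSubring.mem_nonunits_iff] at *
  rwa [Valuation.map_neg]

theorem nonunits_sub {x y : K} (hx : x ∈ A.nonunits) (hy : y ∈ A.nonunits) :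
    x - y ∈ A.nonunits := by
  rw [sub_eq_add_neg]
  exact nonunits_add A hx (nonunits_neg A hy)

theorem nonunits_mul_mem {x y : K} (hx : x ∈ A.nonunits) (hy : y ∈ A) :
    x * y ∈ A.nonunits := by
  rw [ValuationSubring.mem_nonunits_iff] at *
  rw [map_mul]
  exact mul_lt_one_of_lt_of_le hx ((A.valuation_le_one_iff y).mpr hy)

theorem zero_mem_nonunits : (0 : K) ∈ A.nonunits := by
  rw [ValuationSubring.mem_nonunits_iff, map_zero]
  exact zero_lt_one

theorem valuation_eq_one_of {y : K} (hy : y ∈ A) (hy' : y ∉ A.nonunits) : A.valuation y = 1 := by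
  rw [ValuationSubring.mem_nonunits_iff, not_lt] at hy'
  exact le_antisymm ((A.valuation_le_one_iff y).mpr hy) hy'

/-- Horner trick. -/
theorem horner (a : K) (ha : a ∈ A) :
    ∀ (n : ℕ) (g : (integralClosure ℤ K)[X]), g.natDegree ≤ n → aeval a g = 0 →
      (∃ i, ((g.coeff i : integralClosure ℤ K) : K) ∉ A.nonunits) →
      ∃ y : K, IsIntegral ℤ y ∧ y ∉ A.nonunits ∧ IsIntegral ℤ (y * a) := by
  intro n
  induction n with
  | zero =>
    intro g hn hg ⟨i, hi⟩
    exfalso
    have h0 : g.natDegree = 0 := Nat.le_zero.mp hn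
    rw [eq_C_of_natDegree_eq_zero h0, aeval_C] at hg
    have h1 : g.coeff 0 = 0 := by
      apply Subtype.ext
      exact hg
    have h2 : g = 0 := by rw [eq_C_of_natDegree_eq_zero h0, h1, C_0]
    apply hi
    rw [h2]
    simp [zero_mem_nonunits A]
  | succ n ih =>
    intro g hn hg ⟨i, hi⟩
    by_cases hdeg : g.natDegree ≤ n
    · exact ih g hdeg hg ⟨i, hi⟩
    have hdeg' : g.natDegree = n + 1 := by omega
    have hint : IsIntegral ℤ ((g.leadingCoeff : K) * a) := by
      have h1 : IsIntegral (integralClosure ℤ K) (g.leadingCoeff • a) :=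
        isIntegral_leadingCoeff_smul g a hg
      have h2 : IsIntegral ℤ (g.leadingCoeff • a) := isIntegral_trans _ h1
      exact h2
    by_cases hlc : (g.leadingCoeff : K) ∈ A.nonunits
    · let b : integralClosure ℤ K := ⟨(g.leadingCoeff : K) * a, hint⟩
      have hb : (b : K) ∈ A.nonunits := nonunits_mul_mem A hlc ha
      refine ih (g.eraseLead + C b * X ^ n) ?_ ?_ ?_
      · refine (natDegree_add_le _ _).trans (max_le ?_ (natDegree_C_mul_X_pow_le _ _))
        have := eraseLead_natDegree_le g
        omega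
      · have h1 : aeval a g = aeval a g.eraseLead + (g.leadingCoeff : K) * a ^ (n + 1) := by
          conv_lhs => rw [← eraseLead_add_C_mul_X_pow g]
          rw [map_add, map_mul, aeval_C, map_pow, aeval_X, hdeg']
          rfl
        rw [map_add, map_mul, aeval_C, map_pow, aeval_X]
        have h2 : algebraMap (integralClosure ℤ K) K b = (g.leadingCoeff : K) * a := rfl
        rw [h2]
        rw [hg] at h1
        rw [h1]
        ring
      · have hin : i ≠ n + 1 := by
          rintro rfl
          apply hi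
          rw [← hdeg']
          exact hlc
        refine ⟨i, ?_⟩
        rw [coeff_add, eraseLead_coeff_of_ne _ (by rw [hdeg']; exact hin), coeff_C_mul_X_pow]
        split_ifs with h
        · intro hmem
          apply hi
          have := nonunits_sub A hmem hb
          simpa using this
        · simpa using hi
    · exact ⟨g.leadingCoeff, g.leadingCoeff.2, hlc, hint⟩

end Horner

section Frac

variable {K : Type*} [Field K] [Algebra ℚ K] [Algebra.IsAlgebraic ℚ K] (A : ValuationSubring K)

/-- Every element of a valuation subring above a prime `q` is a fraction of algebraic integers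
with unit denominator. -/
theorem exists_frac {q : ℕ} (hq : q.Prime) (hA : A.LiesOverPrime q) (a : K) (ha : a ∈ A) :
    ∃ y : K, IsIntegral ℤ y ∧ y ∉ A.nonunits ∧ IsIntegral ℤ (y * a) := by
  have : CharZero K := algebraRat.charZero K
  have halg : IsAlgebraic ℤ a :=
    (IsFractionRing.isAlgebraic_iff ℤ ℚ K).mpr (Algebra.IsAlgebraic.isAlgebraic a)
  obtain ⟨g₀, hg₀, hg₀a⟩ := halg
  have hc : g₀.content ≠ 0 := by rwa [Ne, content_eq_zero_iff]
  have h1 : aeval a g₀.primPart = 0 := by
    have h2 := hg₀a
    rw [eq_C_content_mul_primPart g₀, map_mul, aeval_C] at h2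
    rcases mul_eq_zero.mp h2 with h | h
    · exfalso
      apply hc
      have : ((g₀.content : ℤ) : K) = 0 := by simpa using h
      exact_mod_cast this
    · exact h
  have h3 : ∃ i, ¬ (q : ℤ) ∣ g₀.primPart.coeff i := by
    by_contra hcon
    push Not at hcon
    have h4 : C (q : ℤ) ∣ g₀.primPart := (C_dvd_iff_dvd_coeff _ _).mpr hcon
    have h5 : IsUnit (q : ℤ) := (isPrimitive_primPart g₀) _ h4
    exact (Nat.prime_iff_prime_int.mp hq).not_isUnit h5
  obtain ⟨i, hi⟩ := h3
  refine horner A a ha _ (g₀.primPart.map (algebraMap ℤ (integralClosure ℤ K))) le_rfl ?_ ⟨i, ?_⟩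
  · rw [aeval_map_algebraMap]
    exact h1
  · rw [coeff_map, ValuationSubring.mem_nonunits_iff]
    have h6 := FAUnram.valuation_intCast_eq_one A hq hA _ hi
    have h7 : ((algebraMap ℤ (integralClosure ℤ K) (g₀.primPart.coeff i) :
        integralClosure ℤ K) : K) = ((g₀.primPart.coeff i : ℤ) : K) := by
      simp
    rw [h7, h6]
    exact lt_irrefl _

omit [Algebra.IsAlgebraic ℚ K] in
theorem not_nonunits_apply {σ : K ≃ₐ[ℚ] K}
    (H : ∀ x : K, IsIntegral ℤ x → σ x - x ∈ A.nonunits) {y : K} (hy : IsIntegral ℤ y)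
    (hy' : y ∉ A.nonunits) : σ y ∉ A.nonunits := by
  intro h
  apply hy'
  have := nonunits_sub A h (H y hy)
  simpa using this

theorem apply_spec {q : ℕ} (hq : q.Prime) (hA : A.LiesOverPrime q) {σ : K ≃ₐ[ℚ] K}
    (H : ∀ x : K, IsIntegral ℤ x → σ x - x ∈ A.nonunits) (a : K) (ha : a ∈ A) :
    σ a ∈ A ∧ σ a - a ∈ A.nonunits := by
  obtain ⟨y, hy, hy', hya⟩ := exists_frac A hq hA a ha
  have hσy : IsIntegral ℤ (σ y) := hy.map σ
  have hσya : IsIntegral ℤ (σ (y * a)) := hya.map σ
  have h1 : A.valuation (σ y) = 1 :=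
    valuation_eq_one_of A (mem_of_isIntegral A hσy) (not_nonunits_apply A H hy hy')
  constructor
  · rw [← A.valuation_le_one_iff]
    have h2 : A.valuation (σ (y * a)) ≤ 1 :=
      (A.valuation_le_one_iff _).mpr (mem_of_isIntegral A hσya)
    rwa [map_mul, map_mul, h1, one_mul] at h2
  · have h3 : (σ a - a) * σ y = (σ (y * a) - y * a) - (σ y - y) * a := by
      rw [map_mul]; ring
    have h4 : (σ a - a) * σ y ∈ A.nonunits := by
      rw [h3]
      exact nonunits_sub A (H _ hya) (nonunits_mul_mem A (H _ hy) ha)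
    rw [ValuationSubring.mem_nonunits_iff] at h4 ⊢
    rwa [map_mul, h1, mul_one] at h4

open scoped Pointwise in
/-- An automorphism acting trivially on algebraic integers modulo the maximal ideal of `A`
lies in the inertia subgroup of `A`. -/
theorem mem_inertia_of_integral {q : ℕ} (hq : q.Prime) (hA : A.LiesOverPrime q) (σ : K ≃ₐ[ℚ] K)
    (H : ∀ x : K, IsIntegral ℤ x → σ x - x ∈ A.nonunits) : σ ∈ A.inertiaSubgroupIn ℚ := by
  have H' : ∀ x : K, IsIntegral ℤ x → σ.symm x - x ∈ A.nonunits := by
    intro x hx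
    have h1 := H (σ.symm x) (hx.map σ.symm)
    rw [AlgEquiv.apply_symm_apply] at h1
    have := nonunits_neg A h1
    simpa using this
  have hdec : σ ∈ A.decompositionSubgroup ℚ := by
    show σ • A = A
    ext x
    rw [ValuationSubring.mem_pointwise_smul_iff_inv_smul_mem]
    constructor
    · intro h
      have := (apply_spec A hq hA H _ h).1
      simpa using this
    · intro h
      exact (apply_spec A hq hA H' _ h).1
  refine ⟨⟨σ, hdec⟩, ?_, rfl⟩
  show MulSemiringAction.toRingAut (A.decompositionSubgroup ℚ) (IsLocalRing.ResidueField A)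
    ⟨σ, hdec⟩ = 1
  ext x
  obtain ⟨a, rfl⟩ := IsLocalRing.residue_surjective x
  show (⟨σ, hdec⟩ : A.decompositionSubgroup ℚ) • (IsLocalRing.residue A a) = IsLocalRing.residue A a
  rw [← IsLocalRing.ResidueField.residue_smul, ← sub_eq_zero, ← map_sub,
    IsLocalRing.residue_eq_zero_iff, ← ValuationSubring.coe_mem_nonunits_iff]
  exact (apply_spec A hq hA H a.1 a.2).2

end Frac

end FA13
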