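import Mathlib
import Fermat.Agent.Maz.ValInt
import Fermat.Agent.Frob.ExistsFrobenius

/-!
# S13 package MINK, part 2: a finite Galois extension of `ℚ` inside `ℚ̄` on which all absolute
inertia groups act trivially is `ℚ` (Minkowski), and the corollary for characters.
-/

set_option autoImplicit false
set_option linter.style.haveILetI false

namespace FA13

open scoped NumberField Pointwise

theorem exists_inertia_ne_one (L : Type*) [Field L] [NumberField L] [IsGalois ℚ L]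
    (H : 1 < Module.finrank ℚ L) :
    ∃ p : ℕ, p.Prime ∧ ∀ (P : Ideal (𝓞 L)), P.IsPrime → (p : 𝓞 L) ∈ P →
      ∃ σ : L ≃ₐ[ℚ] L, σ ≠ 1 ∧ ∀ x : 𝓞 L, σ • x - x ∈ P := by
  obtain ⟨p, hp, hP⟩ := NumberField.exists_not_isUnramifiedAt_int_of_isGalois (𝒪 := 𝓞 L) H
  refine ⟨p, hp, fun P hPp hpP => ?_⟩
  have h1 := hP P hPp hpP
  rw [← Ideal.ramificationIdx_eq_one_iff,
    ← Ideal.ramificationIdxIn_eq_ramificationIdx (P.under ℤ) P Gal(L/ℚ),
    ← Ideal.card_inertia_eq_ramificationIdxIn (G := Gal(L/ℚ)) (P.under ℤ) P,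
    Subgroup.card_eq_one, Subgroup.eq_bot_iff_forall] at h1
  push Not at h1
  obtain ⟨σ, hσ, hσ1⟩ := h1
  exact ⟨σ, hσ1, hσ⟩

section PrimeOf

variable {Ω : Type*} [Field Ω] (A : ValuationSubring Ω)

/-- The prime of the ring of algebraic integers cut out by a valuation subring. -/
def primeOf : Ideal (𝓞 Ω) where
  carrier := {b | algebraMap (𝓞 Ω) Ω b ∈ A.nonunits}
  add_mem' := fun {a b} ha hb => by
    show algebraMap (𝓞 Ω) Ω (a + b) ∈ A.nonunits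
    rw [map_add]
    exact nonunits_add A ha hb
  zero_mem' := by
    show algebraMap (𝓞 Ω) Ω 0 ∈ A.nonunits
    rw [map_zero]
    exact zero_mem_nonunits A
  smul_mem' := fun c x hx => by
    show algebraMap (𝓞 Ω) Ω (c • x) ∈ A.nonunits
    rw [smul_eq_mul, map_mul, mul_comm]
    exact nonunits_mul_mem A hx (mem_of_isIntegral A c.2)

theorem mem_primeOf {b : 𝓞 Ω} : b ∈ primeOf A ↔ algebraMap (𝓞 Ω) Ω b ∈ A.nonunits := Iff.rfl

instance primeOf_isPrime : (primeOf A).IsPrime where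
  ne_top' := by
    rw [Ideal.ne_top_iff_one, mem_primeOf, map_one, ValuationSubring.mem_nonunits_iff, map_one]
    exact lt_irrefl _
  mem_or_mem' := fun {x y} hxy => by
    rw [mem_primeOf, map_mul] at hxy
    rw [mem_primeOf, mem_primeOf]
    by_contra hcon
    push Not at hcon
    have h1 := valuation_eq_one_of A (mem_of_isIntegral A x.2) hcon.1
    have h2 := valuation_eq_one_of A (mem_of_isIntegral A y.2) hcon.2
    rw [ValuationSubring.mem_nonunits_iff, map_mul] at hxy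
    have h1' : A.valuation (algebraMap (𝓞 Ω) Ω x) = 1 := h1
    have h2' : A.valuation (algebraMap (𝓞 Ω) Ω y) = 1 := h2
    rw [h1', h2', one_mul] at hxy
    exact lt_irrefl _ hxy

end PrimeOf

section Lift

variable {F Ω : Type*} [Field F] [Field Ω] [Algebra F Ω] [IsGalois F Ω]

theorem lift_inertia (A : ValuationSubring Ω) (σ₁ : Ω ≃+* Ω) (σ₀ : F ≃+* F)
    (hcomp : ∀ x : F, σ₁ (algebraMap F Ω x) = algebraMap F Ω (σ₀ x))
    (hin : ∀ x : F, IsIntegral ℤ x → algebraMap F Ω (σ₀ x - x) ∈ A.nonunits) :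
    ∃ h : Ω ≃ₐ[F] Ω, ∀ x : Ω, IsIntegral ℤ x → h (σ₁ x) - x ∈ A.nonunits := by
  classical
  have hsmul : ∀ (τ : Ω ≃ₐ[F] Ω) (b : 𝓞 Ω), algebraMap (𝓞 Ω) Ω (τ • b) =
      τ (algebraMap (𝓞 Ω) Ω b) := fun τ b => rfl
  have halg : ∀ a : 𝓞 F, algebraMap (𝓞 Ω) Ω (algebraMap (𝓞 F) (𝓞 Ω) a) =
      algebraMap F Ω (algebraMap (𝓞 F) F a) := fun a => rfl
  haveI : SMulCommClass (Ω ≃ₐ[F] Ω) (𝓞 F) (𝓞 Ω) := ⟨fun τ a b => by
    apply NumberField.RingOfIntegers.ext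
    show algebraMap (𝓞 Ω) Ω (τ • a • b) = algebraMap (𝓞 Ω) Ω (a • τ • b)
    rw [Algebra.smul_def, Algebra.smul_def, hsmul, map_mul, map_mul, map_mul, hsmul, halg,
      AlgEquiv.commutes]⟩
  haveI : Algebra.IsInvariant (𝓞 F) (𝓞 Ω) (Ω ≃ₐ[F] Ω) := ⟨fun b hb => by
    have h1 : algebraMap (𝓞 Ω) Ω b ∈ Set.range (algebraMap F Ω) := by
      rw [InfiniteGalois.mem_range_algebraMap_iff_fixed]
      intro τ
      rw [← hsmul, hb τ]
    obtain ⟨a, ha⟩ := h1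
    have ha' : IsIntegral ℤ a := by
      have h2 : IsIntegral ℤ (algebraMap F Ω a) := by rw [ha]; exact b.2
      exact (isIntegral_algebraMap_iff (algebraMap F Ω).injective).mp h2
    exact ⟨⟨a, ha'⟩, NumberField.RingOfIntegers.ext ha⟩⟩
  letI : TopologicalSpace (𝓞 Ω) := ⊥
  haveI : DiscreteTopology (𝓞 Ω) := ⟨rfl⟩
  haveI : ContinuousSMul (Ω ≃ₐ[F] Ω) (𝓞 Ω) := by
    rw [continuousSMul_iff_stabilizer_isOpen]
    intro b
    have := stabilizer_isOpen_of_isIntegral (K := F) (L := Ω) (algebraMap (𝓞 Ω) Ω b)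
    convert this using 1
    ext τ
    simp only [SetLike.mem_coe, MulAction.mem_stabilizer_iff]
    constructor
    · intro h
      show τ (algebraMap (𝓞 Ω) Ω b) = _
      rw [← hsmul, h]
    · intro h; exact NumberField.RingOfIntegers.ext h
  have hcomp' : ∀ x : F, σ₁.symm (algebraMap F Ω x) = algebraMap F Ω (σ₀.symm x) := by
    intro x
    rw [RingEquiv.symm_apply_eq, hcomp, RingEquiv.apply_symm_apply]
  let e₁ : 𝓞 Ω ≃+* 𝓞 Ω := NumberField.RingOfIntegers.mapRingEquiv σ₁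
  let Q : Ideal (𝓞 Ω) := primeOf A
  let Q₁ : Ideal (𝓞 Ω) := Q.comap (e₁.symm : 𝓞 Ω →+* 𝓞 Ω)
  haveI : Q₁.IsPrime := Ideal.comap_isPrime _ _
  have hmemQ₁ : ∀ b : 𝓞 Ω, b ∈ Q₁ ↔ σ₁.symm (algebraMap (𝓞 Ω) Ω b) ∈ A.nonunits := fun b => Iff.rfl
  have hmemQ : ∀ b : 𝓞 Ω, b ∈ Q ↔ algebraMap (𝓞 Ω) Ω b ∈ A.nonunits := fun b => Iff.rfl
  have hunder : Q₁.under (𝓞 F) = Q.under (𝓞 F) := by
    ext a
    show algebraMap (𝓞 F) (𝓞 Ω) a ∈ Q₁ ↔ algebraMap (𝓞 F) (𝓞 Ω) a ∈ Q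
    rw [hmemQ₁, hmemQ, halg, hcomp']
    have h1 := hin (σ₀.symm (algebraMap (𝓞 F) F a)) (a.2.map σ₀.symm.toRingHom.toIntAlgHom)
    rw [RingEquiv.apply_symm_apply, map_sub] at h1
    constructor
    · intro h
      have := nonunits_add A h1 h
      simpa using this
    · intro h
      have := nonunits_sub A h h1
      simpa using this
  obtain ⟨h₁, hh₁⟩ := Algebra.IsInvariant.exists_smul_of_under_eq_of_profinite (A := 𝓞 F)
    (G := Ω ≃ₐ[F] Ω) Q₁ Q hunder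
  let σ₂ : Ω ≃+* Ω := σ₁.trans h₁.toRingEquiv
  have hσ₂ : ∀ x : Ω, σ₂ x = h₁ (σ₁ x) := fun x => rfl
  have hσ₂' : ∀ x : Ω, σ₂.symm x = σ₁.symm (h₁.symm x) := fun x => rfl
  let e₂ : 𝓞 Ω ≃+* 𝓞 Ω := NumberField.RingOfIntegers.mapRingEquiv σ₂
  have he₂ : ∀ b : 𝓞 Ω, algebraMap (𝓞 Ω) Ω (e₂ b) = σ₂ (algebraMap (𝓞 Ω) Ω b) := fun b => rfl
  have he₂' : ∀ b : 𝓞 Ω, algebraMap (𝓞 Ω) Ω (e₂.symm b) = σ₂.symm (algebraMap (𝓞 Ω) Ω b) :=
    fun b => rfl
  have hQ₂ : Q = Q.map (e₂ : 𝓞 Ω →+* 𝓞 Ω) := by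
    rw [Ideal.map_comap_of_equiv]
    ext b
    rw [Ideal.mem_comap]
    show b ∈ Q ↔ e₂.symm b ∈ Q
    conv_lhs => rw [hh₁]
    rw [Ideal.mem_pointwise_smul_iff_inv_smul_mem, hmemQ₁, hmemQ, he₂', hσ₂', hsmul]
    rfl
  let ē : (𝓞 Ω ⧸ Q) ≃+* (𝓞 Ω ⧸ Q) := Ideal.quotientEquiv Q Q e₂ hQ₂
  have hē : ∀ b : 𝓞 Ω, ē (Ideal.Quotient.mk Q b) = Ideal.Quotient.mk Q (e₂ b) := fun b => rfl
  let P : Ideal (𝓞 F) := Q.under (𝓞 F)
  haveI : Q.LiesOver P := ⟨rfl⟩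
  let E : (𝓞 Ω ⧸ Q) ≃ₐ[𝓞 F ⧸ P] (𝓞 Ω ⧸ Q) := AlgEquiv.ofRingEquiv (f := ē) (by
    intro r
    obtain ⟨a, rfl⟩ := Ideal.Quotient.mk_surjective r
    show ē (Ideal.Quotient.mk Q (algebraMap (𝓞 F) (𝓞 Ω) a)) =
      Ideal.Quotient.mk Q (algebraMap (𝓞 F) (𝓞 Ω) a)
    rw [hē, Ideal.Quotient.eq, hmemQ, map_sub, he₂, halg, hσ₂, hcomp, AlgEquiv.commutes, ← map_sub]
    exact hin _ a.2)
  have hE : ∀ b : 𝓞 Ω, E (Ideal.Quotient.mk Q b) = Ideal.Quotient.mk Q (e₂ b) := fun b => rfl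
  obtain ⟨⟨h₂, hh₂⟩, hh₂E⟩ := Ideal.Quotient.stabilizerHom_surjective_of_profinite
    (G := Ω ≃ₐ[F] Ω) P Q E.symm
  refine ⟨h₂ * h₁, fun x hx => ?_⟩
  have h3 := congrArg (fun e : (𝓞 Ω ⧸ Q) ≃ₐ[𝓞 F ⧸ P] (𝓞 Ω ⧸ Q) =>
    e (Ideal.Quotient.mk Q (e₂ ⟨x, hx⟩))) hh₂E
  simp only [Ideal.Quotient.stabilizerHom_apply] at h3
  rw [← hE ⟨x, hx⟩, AlgEquiv.symm_apply_apply] at h3
  have h4 := Ideal.Quotient.eq.mp h3
  rw [hmemQ] at h4
  exact h4

end Lift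

local instance isAlgebraicQbar_mk : Algebra.IsAlgebraic ℚ (AlgebraicClosure ℚ) :=
  AlgebraicClosure.isAlgebraic ℚ
local instance isAlgClosureQbar_mk : IsAlgClosure ℚ (AlgebraicClosure ℚ) :=
  ⟨inferInstance, inferInstance⟩
local instance normalQbar_mk : Normal ℚ (AlgebraicClosure ℚ) :=
  IsAlgClosure.normal ℚ (AlgebraicClosure ℚ)
local instance isGaloisQbar_mk : IsGalois ℚ (AlgebraicClosure ℚ) :=
  IsAlgClosure.isGalois ℚ (AlgebraicClosure ℚ)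

/-- **Minkowski, absolute-inertia form.**  A finite Galois extension of `ℚ` inside `ℚ̄` such that
for every prime `q` SOME inertia subgroup of `G_ℚ` above `q` acts trivially on it is `ℚ`. -/
theorem eq_bot_of_exists_inertia_le (L : IntermediateField ℚ (AlgebraicClosure ℚ))
    [FiniteDimensional ℚ L] [IsGalois ℚ L]
    (h : ∀ q : ℕ, q.Prime → ∃ A : ValuationSubring (AlgebraicClosure ℚ), A.LiesOverPrime q ∧
      A.inertiaSubgroupIn ℚ ≤ L.fixingSubgroup) : L = ⊥ := by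
  by_contra hL
  have hfin : 1 < Module.finrank ℚ L := by
    have h0 : 0 < Module.finrank ℚ L := Module.finrank_pos
    have h1 : Module.finrank ℚ L ≠ 1 := fun h1 => hL (IntermediateField.finrank_eq_one_iff.mp h1)
    omega
  haveI : NumberField L := ⟨⟩
  obtain ⟨p, hp, hP⟩ := exists_inertia_ne_one L hfin
  obtain ⟨A, hA, hAL⟩ := h p hp
  obtain ⟨σ₀, hσ₀, hσ₀P⟩ := hP ((primeOf A).under (𝓞 L)) inferInstance (by
    show algebraMap (𝓞 L) (𝓞 (AlgebraicClosure ℚ)) (p : 𝓞 L) ∈ primeOf A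
    rw [map_natCast, mem_primeOf, map_natCast]
    exact hA)
  obtain ⟨σ₁, hσ₁⟩ := AlgEquiv.restrictNormalHom_surjective (AlgebraicClosure ℚ) σ₀
  have hcomp : ∀ x : L, σ₁ (algebraMap L (AlgebraicClosure ℚ) x) =
      algebraMap L (AlgebraicClosure ℚ) (σ₀ x) := by
    intro x
    rw [← hσ₁]
    exact (AlgEquiv.restrictNormal_commutes σ₁ L x).symm
  obtain ⟨h', hh'⟩ := lift_inertia (F := L) A σ₁.toRingEquiv σ₀.toRingEquiv hcomp (by
    intro x hx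
    exact hσ₀P ⟨x, hx⟩)
  have h3 : (h'.restrictScalars ℚ) * σ₁ ∈ A.inertiaSubgroupIn ℚ :=
    mem_inertia_of_integral A hp hA _ hh'
  have h4 := hAL h3
  apply hσ₀
  ext x
  have h5 : ((h'.restrictScalars ℚ) * σ₁) (x : AlgebraicClosure ℚ) = x := h4 x
  have h6 : ((h'.restrictScalars ℚ) * σ₁) (x : AlgebraicClosure ℚ) =
      h' (σ₁ (algebraMap L (AlgebraicClosure ℚ) x)) := rfl
  rw [h6, hcomp, AlgEquiv.commutes] at h5
  exact h5

theorem eq_bot_of_forall_inertia_le (L : IntermediateField ℚ (AlgebraicClosure ℚ))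
    [FiniteDimensional ℚ L] [IsGalois ℚ L]
    (h : ∀ q : ℕ, q.Prime → ∀ A : ValuationSubring (AlgebraicClosure ℚ), A.LiesOverPrime q →
      A.inertiaSubgroupIn ℚ ≤ L.fixingSubgroup) : L = ⊥ := by
  refine eq_bot_of_exists_inertia_le L (fun q hq => ?_)
  obtain ⟨A, _, hA, _⟩ := FA_exists_isFrobeniusAt q hq
  exact ⟨A, hA, h q hq A hA⟩

/-- Minkowski for open normal subgroups of `G_ℚ`, EXISTS-form: it is enough that for every prime
`q` one inertia subgroup above `q` is contained in `H`. -/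
theorem minkowski_exists (H : Subgroup (AlgebraicClosure ℚ ≃ₐ[ℚ] AlgebraicClosure ℚ)) [H.Normal]
    (E : IntermediateField ℚ (AlgebraicClosure ℚ))
    [FiniteDimensional ℚ E] (hE : E.fixingSubgroup ≤ H)
    (hI : ∀ q : ℕ, q.Prime → ∃ A : ValuationSubring (AlgebraicClosure ℚ), A.LiesOverPrime q ∧
      A.inertiaSubgroupIn ℚ ≤ H) : H = ⊤ := by
  have hopen : IsOpen (H : Set (AlgebraicClosure ℚ ≃ₐ[ℚ] AlgebraicClosure ℚ)) :=
    Subgroup.isOpen_mono hE (IntermediateField.fixingSubgroup_isOpen E)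
  let H' : ClosedSubgroup (AlgebraicClosure ℚ ≃ₐ[ℚ] AlgebraicClosure ℚ) :=
    ⟨H, Subgroup.isClosed_of_isOpen _ hopen⟩
  let L : IntermediateField ℚ (AlgebraicClosure ℚ) := IntermediateField.fixedField H
  have hfix : L.fixingSubgroup = H := InfiniteGalois.fixingSubgroup_fixedField H'
  haveI : FiniteDimensional ℚ L := by
    rw [← InfiniteGalois.isOpen_iff_finite, hfix]
    exact hopen
  haveI : IsGalois ℚ L := by
    have h1 : L.fixingSubgroup.Normal := by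
      rw [hfix]
      infer_instance
    exact (InfiniteGalois.normal_iff_isGalois L).mp h1
  have hbot : L = ⊥ := eq_bot_of_exists_inertia_le L (by
    intro q hq
    obtain ⟨A, hA, hAH⟩ := hI q hq
    exact ⟨A, hA, by rw [hfix]; exact hAH⟩)
  rw [eq_top_iff]
  intro σ _
  rw [← hfix, hbot]
  intro x
  obtain ⟨y, hy⟩ := IntermediateField.mem_bot.mp x.2
  show σ (x : AlgebraicClosure ℚ) = x
  rw [← hy, AlgEquiv.commutes]

/-- Minkowski for open normal subgroups of `G_ℚ` (statement (D) of the S13 blueprint). -/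
theorem minkowski (H : Subgroup (AlgebraicClosure ℚ ≃ₐ[ℚ] AlgebraicClosure ℚ)) [H.Normal]
    (E : IntermediateField ℚ (AlgebraicClosure ℚ))
    [FiniteDimensional ℚ E] (hE : E.fixingSubgroup ≤ H)
    (hI : ∀ q : ℕ, q.Prime → ∀ A : ValuationSubring (AlgebraicClosure ℚ), A.LiesOverPrime q →
      A.inertiaSubgroupIn ℚ ≤ H) : H = ⊤ := by
  refine minkowski_exists H E hE (fun q hq => ?_)
  obtain ⟨A, _, hA, _⟩ := FA_exists_isFrobeniusAt q hq
  exact ⟨A, hA, hI q hq A hA⟩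

/-- A homomorphism from `G_ℚ` which factors through a finite quotient and kills all inertia
subgroups is trivial. -/
theorem hom_eq_one_of_unramified {M : Type*} [Group M]
    (χ : (AlgebraicClosure ℚ ≃ₐ[ℚ] AlgebraicClosure ℚ) →* M)
    (hfin : ∃ L₀ : IntermediateField ℚ (AlgebraicClosure ℚ), FiniteDimensional ℚ L₀ ∧
      ∀ σ : AlgebraicClosure ℚ ≃ₐ[ℚ] AlgebraicClosure ℚ, (∀ x ∈ L₀, σ x = x) → χ σ = 1)
    (hunr : ∀ q : ℕ, q.Prime → ∀ A : ValuationSubring (AlgebraicClosure ℚ), A.LiesOverPrime q →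
      ∀ σ ∈ A.inertiaSubgroupIn ℚ, χ σ = 1) :
    ∀ σ : AlgebraicClosure ℚ ≃ₐ[ℚ] AlgebraicClosure ℚ, χ σ = 1 := by
  obtain ⟨L₀, hL₀, hχ⟩ := hfin
  have hle : L₀.fixingSubgroup ≤ χ.ker := by
    intro σ hσ
    rw [MonoidHom.mem_ker]
    exact hχ σ (fun x hx => hσ ⟨x, hx⟩)
  have htop : χ.ker = ⊤ := minkowski χ.ker L₀ hle (by
    intro q hq A hA σ hσ
    rw [MonoidHom.mem_ker]
    exact hunr q hq A hA σ hσ)
  intro σ
  rw [← MonoidHom.mem_ker, htop]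
  exact Subgroup.mem_top σ

/-- EXISTS-form of `hom_eq_one_of_unramified`: one place above each prime suffices. -/
theorem hom_eq_one_of_unramified' {M : Type*} [Group M]
    (χ : (AlgebraicClosure ℚ ≃ₐ[ℚ] AlgebraicClosure ℚ) →* M)
    (hfin : ∃ L₀ : IntermediateField ℚ (AlgebraicClosure ℚ), FiniteDimensional ℚ L₀ ∧
      ∀ σ : AlgebraicClosure ℚ ≃ₐ[ℚ] AlgebraicClosure ℚ, (∀ x ∈ L₀, σ x = x) → χ σ = 1)
    (hunr : ∀ q : ℕ, q.Prime → ∃ A : ValuationSubring (AlgebraicClosure ℚ), A.LiesOverPrime q ∧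
      ∀ σ ∈ A.inertiaSubgroupIn ℚ, χ σ = 1) :
    ∀ σ : AlgebraicClosure ℚ ≃ₐ[ℚ] AlgebraicClosure ℚ, χ σ = 1 := by
  obtain ⟨L₀, hL₀, hχ⟩ := hfin
  have hle : L₀.fixingSubgroup ≤ χ.ker := by
    intro σ hσ
    rw [MonoidHom.mem_ker]
    exact hχ σ (fun x hx => hσ ⟨x, hx⟩)
  have htop : χ.ker = ⊤ := minkowski_exists χ.ker L₀ hle (by
    intro q hq
    obtain ⟨A, hA, hAχ⟩ := hunr q hq
    refine ⟨A, hA, fun σ hσ => ?_⟩
    rw [MonoidHom.mem_ker]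
    exact hAχ σ hσ)
  intro σ
  rw [← MonoidHom.mem_ker, htop]
  exact Subgroup.mem_top σ

end FA13
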