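/-
S13 (Frey curve: reducible mod p representation has a cofixed line): common definitions.
-/
import Fermat.Agent.Unram.Main
import Fermat.Agent.Unram.Inertia
import Fermat.Prelude.Def_FLTPrelim_CofixedLine
import Fermat.Prelude.Def_FLTPrelim_Ramification

set_option autoImplicit false

open WeierstrassCurve WeierstrassCurve.Affine WeierstrassCurve.Affine.Point

namespace FA13

/-- `ℚ̄`. -/
abbrev Qb : Type := AlgebraicClosure ℚ

/-- The absolute Galois group of `ℚ`. -/
abbrev GQ : Type := Qb ≃ₐ[ℚ] Qb

/-- The Frey curve over `ℚ̄`. -/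
noncomputable abbrev WF (P : FreyPackage) : WeierstrassCurve.Affine Qb := (P.freyCurve⁄Qb)

/-- The kernel of reduction at the place `A`: `T = 0` or `x(T) ∉ A`. -/
def InE1 (P : FreyPackage) (A : ValuationSubring Qb) (T : (WF P).Point) : Prop :=
  (FAUnram.kumSys (WF P) 0).E1 A.valuation T

end FA13
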