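import Fermat.Agent.Maz.Tors
import Fermat.Agent.Maz.Defs
import Fermat.Prelude.Def_FLTPrelim_FreyPackage
import Fermat.Prelude.Def_FLTPrelim_GaloisRep

/-!
# S13 package TORS, part 3: the statements for the Frey curve
-/

set_option autoImplicit false

open WeierstrassCurve WeierstrassCurve.Affine WeierstrassCurve.Affine.Point

namespace FA13

theorem freyCurve_Δ (P : FreyPackage) :
    P.freyCurve.Δ = ((P.a : ℚ) ^ P.p * (P.b : ℚ) ^ P.p * (P.c : ℚ) ^ P.p) ^ 2 / 256 := by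
  have h : (P.c : ℚ) ^ P.p = (P.a : ℚ) ^ P.p + (P.b : ℚ) ^ P.p := by
    exact_mod_cast P.hFLT.symm
  rw [h]
  simp only [FreyPackage.freyCurve, WeierstrassCurve.Δ, WeierstrassCurve.b₂, WeierstrassCurve.b₄,
    WeierstrassCurve.b₆, WeierstrassCurve.b₈]
  ring

theorem freyCurve_Δ_ne_zero (P : FreyPackage) : P.freyCurve.Δ ≠ 0 := by
  rw [freyCurve_Δ]
  have ha : (P.a : ℚ) ≠ 0 := by exact_mod_cast P.ha0
  have hb : (P.b : ℚ) ≠ 0 := by exact_mod_cast P.hb0
  have hc : (P.c : ℚ) ≠ 0 := by exact_mod_cast P.hc0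
  positivity

theorem freyCurve_bar_Δ_ne_zero (P : FreyPackage) :
    (P.freyCurve⁄(AlgebraicClosure ℚ)).Δ ≠ 0 := by
  have h : (P.freyCurve⁄(AlgebraicClosure ℚ)).Δ = algebraMap ℚ (AlgebraicClosure ℚ) P.freyCurve.Δ :=
    WeierstrassCurve.map_Δ _ _
  rw [h]
  exact (map_ne_zero _).mpr (freyCurve_Δ_ne_zero P)

theorem frey_nontrivial (P : FreyPackage) :
    Nontrivial (Submodule.torsionBy ℤ (P.freyCurve⁄(AlgebraicClosure ℚ)).Point P.p) :=
  nontrivial_torsionBy _ (freyCurve_bar_Δ_ne_zero P) P.p P.hp_odd (by have := P.hp5; omega)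
    (by exact_mod_cast P.hp0)

theorem frey_finite (P : FreyPackage) :
    Finite (Submodule.torsionBy ℤ (P.freyCurve⁄(AlgebraicClosure ℚ)).Point P.p) :=
  (card_torsionBy_le _ P.p P.hp_odd (by exact_mod_cast P.hp0)).1

theorem frey_card_le (P : FreyPackage) :
    Nat.card (Submodule.torsionBy ℤ (P.freyCurve⁄(AlgebraicClosure ℚ)).Point P.p) ≤ P.p ^ 2 :=
  (card_torsionBy_le _ P.p P.hp_odd (by exact_mod_cast P.hp0)).2

theorem frey_finrank_le (P : FreyPackage) :
    Module.finrank (ZMod P.p)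
      (Submodule.torsionBy ℤ (P.freyCurve⁄(AlgebraicClosure ℚ)).Point P.p) ≤ 2 := by
  have : Fact P.p.Prime := ⟨P.pp⟩
  have := frey_finite P
  exact finrank_le_two_of_card_le (frey_card_le P)

/-- a stable line from reducibility, with the two lattice facts. -/
theorem frey_exists_line (P : FreyPackage)
    (hred : ¬ GaloisRepIsIrreducible (K := AlgebraicClosure ℚ) ℚ P.freyCurve P.p) :
    ∃ N : Submodule (ZMod P.p)
        (Submodule.torsionBy ℤ (P.freyCurve⁄(AlgebraicClosure ℚ)).Point P.p),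
      IsGaloisStable ℚ N ∧ N ≠ ⊥ ∧ N ≠ ⊤ ∧
      (∀ C : Submodule (ZMod P.p) _, C ≤ N → C = ⊥ ∨ C = N) ∧
      (∀ C : Submodule (ZMod P.p) _, N ≤ C → C = N ∨ C = ⊤) := by
  have : Fact P.p.Prime := ⟨P.pp⟩
  have := frey_finite P
  unfold GaloisRepIsIrreducible at hred
  push Not at hred
  obtain ⟨N, hN, h0, h1⟩ := hred (frey_nontrivial P)
  exact ⟨N, hN, h0, h1, line_facts (frey_finrank_le P) h0 h1⟩

/-! ### the forms of `Maz/Stubs.lean` -/

theorem exists_torsion (P : FreyPackage) : ∃ T : (WF P).Point, T ≠ 0 ∧ P.p • T = 0 := by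
  obtain ⟨⟨T, hT⟩, hT0⟩ := @exists_ne _ (frey_nontrivial P) 0
  refine ⟨T, fun h => hT0 (Subtype.ext h), ?_⟩
  rwa [Submodule.mem_torsionBy_iff, natCast_zsmul] at hT

theorem finite_torsion (P : FreyPackage) : Finite {T : (WF P).Point // P.p • T = 0} := by
  obtain ⟨m, hm⟩ := P.hp_odd
  have := (torsion_finite_card_le (FAUnram.kumSys (WF P) 0) m
    (by rw [← hm]; exact_mod_cast P.hp0)).1
  rw [← hm] at this
  exact this

theorem card_torsion_le (P : FreyPackage) :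
    Nat.card {T : (WF P).Point // P.p • T = 0} ≤ P.p ^ 2 := by
  obtain ⟨m, hm⟩ := P.hp_odd
  have := (torsion_finite_card_le (FAUnram.kumSys (WF P) 0) m
    (by rw [← hm]; exact_mod_cast P.hp0)).2
  rw [← hm] at this
  exact this

end FA13
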