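/-
S13 package (C1): at the prime `p`, inertia moves the `p`-torsion of the Frey curve inside the
kernel of reduction.  (Refactoring of helper8's `Unram/Main.lean` and of `S05.lean`.)
-/
import Fermat.Agent.Maz.Defs

set_option autoImplicit false
set_option linter.unusedVariables false
set_option linter.unusedTactic false
set_option linter.unreachableTactic false

open WeierstrassCurve WeierstrassCurve.Affine

namespace FA13

open FAUnram

section generic

variable {K : Type*} [Field K] [DecidableEq K]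
  {Γ₀ : Type*} [LinearOrderedCommGroupWithZero Γ₀]

/-- (good reduction) inertia moves every point inside `E1`. -/
theorem sub_E1_of_good (W : WeierstrassCurve.Affine K) (v : Valuation K Γ₀)
    (h₁ : v W.a₁ ≤ 1) (h₂ : v W.a₂ ≤ 1) (h₃ : v W.a₃ ≤ 1) (h₄ : v W.a₄ ≤ 1) (h₆ : v W.a₆ ≤ 1)
    (hΔ : v W.Δ = 1)
    (σ : K →+* K) (hσ : ∀ z, v z ≤ 1 → v (σ z - z) < 1) (hσv : ∀ z, v (σ z) = v z)
    (φ : W.Point →+ W.Point)
    (hφ : ∀ x y h, ∃ h', φ (Point.some x y h) = Point.some (σ x) (σ y) h')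
    (P : W.Point) : (kumSys W 0).E1 v (φ P - P) := by
  have he : v (0 : K) ≤ 1 := by rw [map_zero]; exact zero_le
  have hInt := kumSys_isInt W v 0 he h₁ h₂ h₃ h₄ h₆
  cases P with
  | zero =>
    have : φ Point.zero - Point.zero = (0 : W.Point) := by
      rw [← Point.zero_def, map_zero, sub_zero]
    rw [this, KumSys.E1, (kumSys W 0).Z_zero, (kumSys W 0).X_zero, map_zero, map_one]
    exact zero_lt_one
  | some x y h =>
    obtain ⟨h', hφ'⟩ := hφ x y h
    by_cases hE : (kumSys W 0).E1 v (Point.some x y h)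
    · have hE' : (kumSys W 0).E1 v (φ (Point.some x y h)) := by
        rw [KumSys.E1, kumSys_X_some, kumSys_Z_some, map_one, sub_zero] at hE
        rw [hφ', KumSys.E1, kumSys_X_some, kumSys_Z_some, map_one, sub_zero, hσv]
        exact hE
      exact ((kumSys W 0).E1_add_sub v hInt hE' hE).2
    have hnE1 := hE
    have hx : v x ≤ 1 := by
      rw [KumSys.E1, kumSys_X_some, kumSys_Z_some, map_one, sub_zero, not_lt] at hnE1
      exact hnE1
    have hy : v y ≤ 1 := v_y_le_one W v h₁ h₂ h₃ h₄ h₆ h.1 hx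
    have hx' : x ∈ v.integer := hx
    have hy' : y ∈ v.integer := hy
    have h₁' : W.a₁ ∈ v.integer := h₁
    have h₂' : W.a₂ ∈ v.integer := h₂
    have h₃' : W.a₃ ∈ v.integer := h₃
    have h₄' : W.a₄ ∈ v.integer := h₄
    have h₆' : W.a₆ ∈ v.integer := h₆
    have hns : v (2 * y + W.a₁ * x + W.a₃) = 1 ∨
        v (F0 (kumSys W 0).b₄ (kumSys W 0).b₆ (kumSys W 0).b₈ (x - 0) 1 (x - 0) 1) = 1 := by
      by_cases hη : v (2 * y + W.a₁ * x + W.a₃) = 1
      · exact Or.inl hη
      · right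
        have hη1 : v (2 * y + W.a₁ * x + W.a₃) ≤ 1 := by
          show 2 * y + W.a₁ * x + W.a₃ ∈ v.integer
          repeat' first
            | assumption
            | exact ofNat_mem _ _
            | apply add_mem
            | apply sub_mem
            | apply mul_mem
            | apply neg_mem
            | apply pow_mem
        have hηlt : v (2 * y + W.a₁ * x + W.a₃) < 1 := lt_of_le_of_ne hη1 hη
        have eF : F0 (kumSys W 0).b₄ (kumSys W 0).b₆ (kumSys W 0).b₈ (x - 0) 1 (x - 0) 1 =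
            x ^ 4 - W.b₄ * x ^ 2 - 2 * W.b₆ * x - W.b₈ := by
          simp only [kumSys, F0]; ring
        rw [eF]
        have hid := disc_identity W x
        rw [← eta_sq_eq W h.1] at hid
        have hb₂ : W.b₂ ∈ v.integer := by
          unfold WeierstrassCurve.b₂
          repeat' first
            | assumption
            | exact ofNat_mem _ _
            | apply add_mem
            | apply sub_mem
            | apply mul_mem
            | apply neg_mem
            | apply pow_mem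
        have hb₄ : W.b₄ ∈ v.integer := by
          unfold WeierstrassCurve.b₄
          repeat' first
            | assumption
            | exact ofNat_mem _ _
            | apply add_mem
            | apply sub_mem
            | apply mul_mem
            | apply neg_mem
            | apply pow_mem
        have hb₆ : W.b₆ ∈ v.integer := by
          unfold WeierstrassCurve.b₆
          repeat' first
            | assumption
            | exact ofNat_mem _ _
            | apply add_mem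
            | apply sub_mem
            | apply mul_mem
            | apply neg_mem
            | apply pow_mem
        have hb₈ : W.b₈ ∈ v.integer := by
          unfold WeierstrassCurve.b₈
          repeat' first
            | assumption
            | exact ofNat_mem _ _
            | apply add_mem
            | apply sub_mem
            | apply mul_mem
            | apply neg_mem
            | apply pow_mem
        have c0 : v (-48 * x ^ 2 - 8 * W.b₂ * x + W.b₂ ^ 2 - 32 * W.b₄) ≤ 1 := by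
          show -48 * x ^ 2 - 8 * W.b₂ * x + W.b₂ ^ 2 - 32 * W.b₄ ∈ v.integer
          repeat' first
            | assumption
            | exact ofNat_mem _ _
            | apply add_mem
            | apply sub_mem
            | apply mul_mem
            | apply neg_mem
            | apply pow_mem
        have c1 : v (12 * x ^ 3 - W.b₂ * x ^ 2 - 10 * W.b₄ * x + W.b₂ * W.b₄ - 27 * W.b₆) ≤ 1 := by
          show 12 * x ^ 3 - W.b₂ * x ^ 2 - 10 * W.b₄ * x + W.b₂ * W.b₄ - 27 * W.b₆ ∈ v.integer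
          repeat' first
            | assumption
            | exact ofNat_mem _ _
            | apply add_mem
            | apply sub_mem
            | apply mul_mem
            | apply neg_mem
            | apply pow_mem
        have cF : v (x ^ 4 - W.b₄ * x ^ 2 - 2 * W.b₆ * x - W.b₈) ≤ 1 := by
          show x ^ 4 - W.b₄ * x ^ 2 - 2 * W.b₆ * x - W.b₈ ∈ v.integer
          repeat' first
            | assumption
            | exact ofNat_mem _ _
            | apply add_mem
            | apply sub_mem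
            | apply mul_mem
            | apply neg_mem
            | apply pow_mem
        by_contra hne
        have hlt : v (x ^ 4 - W.b₄ * x ^ 2 - 2 * W.b₆ * x - W.b₈) < 1 := lt_of_le_of_ne cF hne
        have : v W.Δ < 1 := by
          rw [← hid]
          refine Valuation.map_add_lt v ?_ ?_
          · rw [map_mul]
            exact mul_lt_one_of_nonneg_of_lt_one_right c0 zero_le hlt
          · rw [map_mul, map_pow]
            refine mul_lt_one_of_nonneg_of_lt_one_right c1 zero_le ?_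
            exact pow_lt_one₀ zero_le hηlt (by norm_num)
        exact absurd hΔ this.ne
    have hE1 := close_sub_E1 W v 0 he h₁ h₂ h₃ h₄ h₆ h h' hx hy (hσ x hx) (hσ y hy) hns
    rw [← hφ'] at hE1
    exact hE1

/-- (multiplicative reduction, `p ∣ v(Δ)`) inertia moves every `p`-torsion point inside `E1`. -/
theorem sub_E1_of_nodal [IsAlgClosed K] (W : WeierstrassCurve.Affine K) (v : Valuation K Γ₀)
    (h₁ : v W.a₁ ≤ 1) (h₂ : v W.a₂ ≤ 1) (h₃ : v W.a₃ ≤ 1) (h₄ : v W.a₄ ≤ 1) (h₆ : v W.a₆ ≤ 1)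
    (e a b w : K) (he : v e ≤ 1) (hN : (kumSys W e).IsNodal v a b)
    (σ : K →+* K) (hσ : ∀ z, v z ≤ 1 → v (σ z - z) < 1) (hσv : ∀ z, v (σ z) = v z)
    (hσ₁ : σ W.a₁ = W.a₁) (hσ₃ : σ W.a₃ = W.a₃) (hσe : σ e = e) (hσa : σ a = a) (hσb : σ b = b)
    (hσw : σ w = w)
    (φ : W.Point →+ W.Point)
    (hφ : ∀ x y h, ∃ h', φ (Point.some x y h) = Point.some (σ x) (σ y) h')
    (p : ℕ) (hodd : Odd p) (hw : v b = v w ^ p)
    (P : W.Point) (hP : p • P = 0) : (kumSys W e).E1 v (φ P - P) := by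
  have hInt := kumSys_isInt W v e he h₁ h₂ h₃ h₄ h₆
  have key : ∀ T : W.Point, (kumSys W e).E0 v T → (kumSys W e).E1 v (φ T - T) := fun T hT =>
    sub_E1_of_E0 W v h₁ h₂ h₃ h₄ h₆ e a b he hN σ hσ hσv hσe φ hφ hT
  by_cases hE0 : (kumSys W e).E0 v P
  · exact key P hE0
  obtain ⟨hb, j, hj⟩ := hN.torsion_val hodd hP hE0
  have hp0 : p ≠ 0 := by rintro rfl; exact absurd hodd (by decide)
  have hvb0 : v b ≠ 0 := (Valuation.ne_zero_iff v).2 hN.b0
  have hw0 : w ≠ 0 := by
    rintro rfl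
    rw [map_zero, zero_pow hp0] at hw
    exact hvb0 hw
  have hZ : (kumSys W e).Z P = 1 := KumSys.Z_eq_one_of_not_E0 hE0
  have hξ1 : v ((kumSys W e).X P) < 1 := by
    have := hE0
    rw [KumSys.E0, hZ, map_one, not_le] at this
    exact this
  -- the valuation of `ξ(P)` is that of `c₀ = w ^ (2 j)`
  set c₀ : K := w ^ (2 * j) with hc₀
  have hvc : v c₀ = v ((kumSys W e).X P) := by
    have h1 : v ((kumSys W e).X P) ^ p = (v c₀) ^ p := by
      rw [hj, hw, hc₀, map_zpow₀, ← zpow_natCast (v w) p, ← zpow_natCast (v w ^ (2 * j)) p,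
        ← zpow_mul, ← zpow_mul, mul_comm]
    exact ((pow_left_inj₀ zero_le zero_le hp0).1 h1).symm
  have hc0 : c₀ ≠ 0 := zpow_ne_zero _ hw0
  have hσc : σ c₀ = c₀ := by rw [hc₀, map_zpow₀, hσw]
  have h2ne : (2 : K) ≠ 0 := by
    intro h; have := hN.v2; rw [h, map_zero] at this; exact zero_ne_one this
  -- the square root
  set g₀ : K := c₀ + a + b / c₀ with hg₀
  have hvg : v g₀ = 1 := by
    have h1 : v (b / c₀) < 1 := by
      rw [map_div₀, hvc, div_lt_one₀ (lt_of_le_of_lt zero_le hb)]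
      exact hb
    have h2 : v (c₀ + a) = 1 := by
      rw [← hN.va]
      exact Valuation.map_add_eq_of_lt_right v (by rw [hN.va, hvc]; exact hξ1)
    rw [hg₀, ← h2]
    exact Valuation.map_add_eq_of_lt_left v (by rw [h2]; exact h1)
  obtain ⟨θ, hθ⟩ := IsAlgClosed.exists_pow_nat_eq g₀ (n := 2) (by norm_num)
  have hvθ : v θ = 1 := by
    have : v θ ^ 2 = 1 ^ 2 := by rw [← map_pow, hθ, hvg, one_pow]
    exact (pow_left_inj₀ zero_le zero_le (by norm_num)).1 this
  have hθ0 : θ ≠ 0 := by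
    rintro rfl; rw [map_zero] at hvθ; exact zero_ne_one hvθ
  have hσg : σ g₀ = g₀ := by rw [hg₀, map_add, map_add, map_div₀, hσc, hσa, hσb]
  have hσθ : σ θ = θ := by
    have h1 : σ θ ^ 2 = θ ^ 2 := by rw [← map_pow, hθ, hσg]
    rcases sq_eq_sq_iff_eq_or_eq_neg.1 h1 with h | h
    · exact h
    · exfalso
      have h2 := hσ θ hvθ.le
      rw [h, show -θ - θ = -(2 * θ) by ring, Valuation.map_neg, map_mul, hN.v2, hvθ, one_mul] at h2
      exact lt_irrefl _ h2
  -- the auxiliary point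
  set xR : K := e + c₀ with hxR
  set yR : K := c₀ * θ - (W.a₁ * xR + W.a₃) / 2 with hyR
  have hη : 2 * yR + W.a₁ * xR + W.a₃ = 2 * c₀ * θ := by
    rw [hyR]; field_simp; ring
  have hb₂ : W.b₂ + 12 * e = 4 * a := hN.hb₂
  have hb₄ : W.b₄ + e * W.b₂ + 6 * e ^ 2 = 2 * b := hN.hb₄
  have hb₆ : W.b₆ + 2 * e * W.b₄ + e ^ 2 * W.b₂ + 4 * e ^ 3 = 0 := hN.hb₆
  have hf : (2 * c₀ * θ) ^ 2 = 4 * xR ^ 3 + W.b₂ * xR ^ 2 + 2 * W.b₄ * xR + W.b₆ := by
    have h1 : c₀ * g₀ = c₀ ^ 2 + a * c₀ + b := by rw [hg₀]; field_simp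
    have h2 : (2 * c₀ * θ) ^ 2 = 4 * c₀ * (c₀ * g₀) := by rw [← hθ]; ring
    rw [h2, h1, hxR]
    linear_combination (-c₀ ^ 2) * hb₂ - 2 * c₀ * hb₄ - hb₆
  have hEq : W.Equation xR yR := by
    rw [W.equation_iff]
    rw [← hη] at hf
    simp only [WeierstrassCurve.b₂, WeierstrassCurve.b₄, WeierstrassCurve.b₆] at hf
    have h4 : (4 : K) ≠ 0 := by
      rw [show (4 : K) = 2 * 2 by norm_num]; exact mul_ne_zero h2ne h2ne
    apply mul_left_cancel₀ h4
    linear_combination hf
  have hNs : W.Nonsingular xR yR := by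
    rw [W.nonsingular_iff]
    refine ⟨hEq, Or.inr ?_⟩
    intro hcon
    have : 2 * yR + W.a₁ * xR + W.a₃ = 0 := by linear_combination hcon
    rw [hη] at this
    exact mul_ne_zero (mul_ne_zero h2ne hc0) hθ0 this
  set R : W.Point := Point.some xR yR hNs with hR
  have hσx : σ xR = xR := by rw [hxR, map_add, hσe, hσc]
  have hσy : σ yR = yR := by
    rw [hyR, map_sub, map_mul, map_div₀, map_add, map_mul, hσc, hσθ, hσ₁, hσ₃, hσx, map_ofNat]
  have hφR : φ R = R := by
    obtain ⟨h', hφ'⟩ := hφ xR yR hNs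
    rw [hR, hφ']
    exact some_eq_some W hNs h' hσx hσy
  have hXR : (kumSys W e).X R = c₀ := by rw [hR, kumSys_X_some, hxR]; ring
  rcases hN.E0_sub_or_add hE0 hb (Point.some_ne_zero hNs) (by rw [hXR, hvc]) with h | h
  · have := key _ h
    rwa [map_sub, hφR, sub_sub_sub_cancel_right] at this
  · have := key _ h
    rwa [map_add, hφR, add_sub_add_right_eq_sub] at this

/-- `E1` does not depend on the (integral) shift. -/
theorem E1_shift (W : WeierstrassCurve.Affine K) (v : Valuation K Γ₀) (e : K) (he : v e ≤ 1)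
    (T : W.Point) : (kumSys W e).E1 v T ↔ (kumSys W 0).E1 v T := by
  cases T with
  | zero =>
    have h0 : (Point.zero : W.Point) = 0 := rfl
    rw [h0, KumSys.E1, KumSys.E1, (kumSys W e).Z_zero, (kumSys W e).X_zero,
      (kumSys W 0).Z_zero, (kumSys W 0).X_zero]
  | some x y h =>
    rw [KumSys.E1, KumSys.E1, kumSys_X_some, kumSys_Z_some, kumSys_X_some, kumSys_Z_some, map_one,
      sub_zero]
    constructor
    · intro h1
      by_contra h2
      rw [not_lt] at h2
      exact absurd (Valuation.map_sub_le v h2 he) (not_le.2 h1)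
    · intro h1
      rw [Valuation.map_sub_eq_of_lt_left v (lt_of_le_of_lt he h1)]
      exact h1

end generic

/-! ### The Frey curve at an odd prime -/

section frey

open FreyPackage

variable (P : FreyPackage) (A : ValuationSubring Qb) {q : ℕ}

theorem frey_a₁ : (WF P).a₁ = 1 := by simp [freyCurve]
theorem frey_a₂ : (WF P).a₂ = (((P.b : ℤ) : Qb) ^ P.p - 1 - ((P.a : ℤ) : Qb) ^ P.p) / 4 := by
  simp [freyCurve]
theorem frey_a₃ : (WF P).a₃ = 0 := by simp [freyCurve]
theorem frey_a₄ : (WF P).a₄ = -(((P.a : ℤ) : Qb) ^ P.p) * ((P.b : ℤ) : Qb) ^ P.p / 16 := by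
  simp [freyCurve]
theorem frey_a₆ : (WF P).a₆ = 0 := by simp [freyCurve]

theorem val_two_eq_one (hq : q.Prime) (hq2 : q ≠ 2) (hA : A.LiesOverPrime q) :
    A.valuation (2 : Qb) = 1 := by
  have hq2' : ¬ (q : ℤ) ∣ 2 := by
    intro h
    have h1 : q ∣ 2 := by exact_mod_cast h
    exact hq2 ((Nat.prime_dvd_prime_iff_eq hq Nat.prime_two).mp h1)
  have := valuation_intCast_eq_one A hq hA 2 hq2'
  simpa using this

theorem frey_int_odd (hq : q.Prime) (hq2 : q ≠ 2) (hA : A.LiesOverPrime q) :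
    A.valuation (WF P).a₁ ≤ 1 ∧ A.valuation (WF P).a₂ ≤ 1 ∧ A.valuation (WF P).a₃ ≤ 1 ∧
      A.valuation (WF P).a₄ ≤ 1 ∧ A.valuation (WF P).a₆ ≤ 1 := by
  set v := A.valuation with hv
  have v2 : v 2 = 1 := val_two_eq_one A hq hq2 hA
  have v4 : v 4 = 1 := by
    have : (4 : Qb) = 2 * 2 := by norm_num
    rw [this, map_mul, v2, one_mul]
  have v16 : v 16 = 1 := by
    have : (16 : Qb) = 4 * 4 := by norm_num
    rw [this, map_mul, v4, one_mul]
  have vpow_le : ∀ n : ℤ, v ((n : Qb) ^ P.p) ≤ 1 := by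
    intro n
    rw [map_pow]
    exact pow_le_one₀ zero_le (valuation_intCast_le_one A n)
  refine ⟨?_, ?_, ?_, ?_, ?_⟩
  · rw [frey_a₁, map_one]
  · rw [frey_a₂, map_div₀, v4, div_one]
    exact v.map_sub_le (v.map_sub_le (vpow_le _) (by rw [map_one])) (vpow_le _)
  · rw [frey_a₃, map_zero]; exact zero_le_one
  · rw [frey_a₄, map_div₀, v16, div_one, map_mul, Valuation.map_neg]
    exact mul_le_one' (vpow_le _) (vpow_le _)
  · rw [frey_a₆, map_zero]; exact zero_le_one

theorem InE1.zero : InE1 P A 0 := by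
  rw [InE1, KumSys.E1, (kumSys (WF P) 0).Z_zero, (kumSys (WF P) 0).X_zero, map_zero, map_one]
  exact zero_lt_one

variable {P A}

theorem InE1.add_of_odd (hq : q.Prime) (hq2 : q ≠ 2) (hA : A.LiesOverPrime q)
    {S T : (WF P).Point} (hS : InE1 P A S) (hT : InE1 P A T) : InE1 P A (S + T) := by
  obtain ⟨h₁, h₂, h₃, h₄, h₆⟩ := frey_int_odd P A hq hq2 hA
  have hInt := kumSys_isInt (WF P) A.valuation 0 (by rw [map_zero]; exact zero_le_one)
    h₁ h₂ h₃ h₄ h₆
  exact ((kumSys (WF P) 0).E1_add_sub A.valuation hInt hS hT).1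

theorem p_ne_two (P : FreyPackage) : P.p ≠ 2 := by
  have := P.hp5
  omega

theorem InE1.add (hA : A.LiesOverPrime P.p)
    {S T : (WF P).Point} (hS : InE1 P A S) (hT : InE1 P A T) : InE1 P A (S + T) :=
  InE1.add_of_odd P.pp (p_ne_two P) hA hS hT

/-- Divisibility facts for a Frey package. -/
theorem not_dvd_of_dvd {a b : ℤ} (h : gcd a b = 1) {q : ℕ} (hq : q.Prime) (ha : (q : ℤ) ∣ a) :
    ¬ (q : ℤ) ∣ b := by
  intro hb
  have h1 : (q : ℤ) ∣ gcd a b := dvd_gcd ha hb
  rw [h] at h1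
  have := Int.natAbs_dvd_natAbs.mpr h1
  simp at this
  exact hq.one_lt.ne' this

/-- At every odd prime `q` (including `q = p`) inertia moves the `p`-torsion inside `E1`. -/
theorem sub_E1_of_odd (P : FreyPackage) (A : ValuationSubring Qb) {q : ℕ} (hq : q.Prime)
    (hq2 : q ≠ 2) (hA : A.LiesOverPrime q)
    (σ : GQ) (hσ : σ ∈ A.inertiaSubgroupIn ℚ) (T : (WF P).Point) (hT : P.p • T = 0) :
    InE1 P A (σ • T - T) := by
  have : Algebra.IsAlgebraic ℚ Qb := AlgebraicClosure.isAlgebraic ℚ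
  have hdec := inertia_le_decomposition A hσ
  unfold InE1
  revert T
  set v := A.valuation with hv
  set W : WeierstrassCurve.Affine Qb := WF P with hW
  intro T hT
  let φ : W.Point →+ W.Point := Point.map (W' := P.freyCurve) σ.toAlgHom
  let σ' : Qb →+* Qb := (σ : Qb →+* Qb)
  have hσ1 : ∀ z, v z ≤ 1 → v (σ' z - z) < 1 := fun z hz => inertia_spec A hσ z hz
  have hσv : ∀ z, v (σ' z) = v z := fun z => valuation_apply_of_mem_decomposition A hdec z
  have hφ : ∀ x y h, ∃ h', φ (Point.some x y h) = Point.some (σ' x) (σ' y) h' :=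
    fun x y h => ⟨_, Point.map_some (W' := P.freyCurve) σ.toAlgHom h⟩
  show (kumSys W 0).E1 v (φ T - T)
  -- numerics
  obtain ⟨α, hα⟩ : ∃ α : Qb, α = ((P.a : ℤ) : Qb) ^ P.p :=
    ⟨_, rfl⟩
  obtain ⟨β, hβ⟩ : ∃ β : Qb, β = ((P.b : ℤ) : Qb) ^ P.p :=
    ⟨_, rfl⟩
  obtain ⟨γ, hγ⟩ : ∃ γ : Qb, γ = ((P.c : ℤ) : Qb) ^ P.p :=
    ⟨_, rfl⟩
  have hαβγ : α + β = γ := by
    have := congrArg (fun z : ℤ => (z : Qb)) P.hFLT
    push_cast at this
    rw [hα, hβ, hγ]
    exact this
  have ha₁ : W.a₁ = 1 := by simp [hW, freyCurve]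
  have ha₂ : W.a₂ = (β - 1 - α) / 4 := by simp [hW, freyCurve, hα, hβ]
  have ha₃ : W.a₃ = 0 := by simp [hW, freyCurve]
  have ha₄ : W.a₄ = -α * β / 16 := by simp [hW, freyCurve, hα, hβ]
  have ha₆ : W.a₆ = 0 := by simp [hW, freyCurve]
  have hq2' : ¬ (q : ℤ) ∣ 2 := by
    intro h
    have h1 : q ∣ 2 := by exact_mod_cast h
    exact hq2 ((Nat.prime_dvd_prime_iff_eq hq Nat.prime_two).mp h1)
  have v2 : v 2 = 1 := by
    have := valuation_intCast_eq_one A hq hA 2 hq2'
    simpa using this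
  have v4 : v 4 = 1 := by
    have : (4 : Qb) = 2 * 2 := by norm_num
    rw [this, map_mul, v2, one_mul]
  have v16 : v 16 = 1 := by
    have : (16 : Qb) = 4 * 4 := by norm_num
    rw [this, map_mul, v4, one_mul]
  have vpow_le : ∀ n : ℤ, v ((n : Qb) ^ P.p) ≤ 1 := by
    intro n
    rw [map_pow]
    exact pow_le_one₀ zero_le (valuation_intCast_le_one A n)
  have vpow_eq : ∀ n : ℤ, ¬ (q : ℤ) ∣ n → v ((n : Qb) ^ P.p) = 1 := by
    intro n hn
    rw [map_pow, hv, valuation_intCast_eq_one A hq hA n hn, one_pow]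
  have vpow_lt : ∀ n : ℤ, (q : ℤ) ∣ n → v ((n : Qb) ^ P.p) < 1 := by
    intro n hn
    rw [map_pow]
    exact pow_lt_one₀ zero_le (valuation_intCast_lt_one A hA n hn) P.hp0
  have h₁ : v W.a₁ ≤ 1 := by rw [ha₁, map_one]
  have h₂ : v W.a₂ ≤ 1 := by
    rw [ha₂, map_div₀, v4, div_one]
    exact v.map_sub_le (v.map_sub_le (hβ ▸ vpow_le _) (by rw [map_one])) (hα ▸ vpow_le _)
  have h₃ : v W.a₃ ≤ 1 := by rw [ha₃, _root_.map_zero]; exact zero_le_one
  have h₄ : v W.a₄ ≤ 1 := by
    rw [ha₄, map_div₀, v16, div_one, map_mul, Valuation.map_neg]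
    exact mul_le_one' (hα ▸ vpow_le _) (hβ ▸ vpow_le _)
  have h₆ : v W.a₆ ≤ 1 := by rw [ha₆, _root_.map_zero]; exact zero_le_one
  have hσint : ∀ n : ℤ, σ' (n : Qb) = n := fun n => map_intCast σ' n
  have hσα : σ' α = α := by rw [hα, map_pow, hσint]
  have hσβ : σ' β = β := by rw [hβ, map_pow, hσint]
  have hσγ : σ' γ = γ := by rw [hγ, map_pow, hσint]
  have h20 : (2 : Qb) ≠ 0 := two_ne_zero
  by_cases hab : (q : ℤ) ∣ P.a * P.b
  · -- node at `x = 0`
    have hα0 : α ≠ 0 := by rw [hα]; exact pow_ne_zero _ (Int.cast_ne_zero.mpr P.ha0)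
    have hβ0 : β ≠ 0 := by rw [hβ]; exact pow_ne_zero _ (Int.cast_ne_zero.mpr P.hb0)
    have hsub : v (β - α) = 1 := by
      rcases (Nat.prime_iff_prime_int.mp hq).dvd_or_dvd hab with h | h
      · have vα : v α < 1 := hα ▸ vpow_lt _ h
        have vβ : v β = 1 := hβ ▸ vpow_eq _ (not_dvd_of_dvd P.hgcdab hq h)
        rw [v.map_sub_eq_of_lt_left (by rw [vβ]; exact vα), vβ]
      · have vβ : v β < 1 := hβ ▸ vpow_lt _ h
        have vα : v α = 1 := hα ▸ vpow_eq _ (not_dvd_of_dvd (gcd_comm P.a P.b ▸ P.hgcdab) hq h)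
        rw [v.map_sub_eq_of_lt_right (by rw [vα]; exact vβ), vα]
    have hw : v (-α * β / 16) = v (((P.a * P.b : ℤ) : Qb)) ^ P.p := by
      rw [map_div₀, v16, div_one, map_mul, Valuation.map_neg, hα, hβ]
      push_cast
      rw [map_mul, mul_pow, map_pow, map_pow]
    have hN : (kumSys W 0).IsNodal v ((β - α) / 4) (-α * β / 16) :=
      { hb₂ := by
          change W.b₂ + 12 * 0 = _
          rw [b₂, ha₁, ha₂]; field_simp; ring
        hb₄ := by
          change W.b₄ + 0 * W.b₂ + 6 * 0 ^ 2 = _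
          rw [b₂, b₄, ha₁, ha₂, ha₃, ha₄]; field_simp; ring
        hb₆ := by
          change W.b₆ + 2 * 0 * W.b₄ + 0 ^ 2 * W.b₂ + 4 * 0 ^ 3 = _
          rw [b₂, b₄, b₆, ha₁, ha₂, ha₃, ha₄, ha₆]; ring
        hb₈ := by
          change W.b₈ + 3 * 0 * W.b₆ + 3 * 0 ^ 2 * W.b₄ + 0 ^ 3 * W.b₂ + 3 * 0 ^ 4 = _
          rw [b₂, b₄, b₆, b₈, ha₁, ha₂, ha₃, ha₄, ha₆]; ring
        va := by rw [map_div₀, v4, div_one, hsub]
        v2 := v2
        vb := by
          rw [hw]
          exact pow_lt_one₀ zero_le (valuation_intCast_lt_one A hA _ hab) P.hp0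
        b0 := by
          refine div_ne_zero (mul_ne_zero (neg_ne_zero.mpr hα0) hβ0) (by norm_num) }
    refine sub_E1_of_nodal W v h₁ h₂ h₃ h₄ h₆ 0 ((β - α) / 4) (-α * β / 16)
      (((P.a * P.b : ℤ) : Qb)) (by rw [_root_.map_zero]; exact zero_le_one) hN σ' hσ1 hσv
      (by rw [ha₁, map_one]) (by rw [ha₃, _root_.map_zero]) (_root_.map_zero _)
      (by rw [map_div₀, map_sub, hσα, hσβ, map_ofNat])
      (by rw [map_div₀, map_mul, map_neg, hσα, hσβ, map_ofNat]) (hσint _) φ hφ P.p P.hp_odd hw T hT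
  · by_cases hc : (q : ℤ) ∣ P.c
    · -- node at `x = α / 4`
      have hα0 : α ≠ 0 := by rw [hα]; exact pow_ne_zero _ (Int.cast_ne_zero.mpr P.ha0)
      have hγ0 : γ ≠ 0 := by rw [hγ]; exact pow_ne_zero _ (Int.cast_ne_zero.mpr P.hc0)
      have vγ : v γ < 1 := hγ ▸ vpow_lt _ hc
      have vα : v α = 1 :=
        hα ▸ vpow_eq _ (not_dvd_of_dvd (gcd_comm P.a P.c ▸ P.hgcdac) hq hc)
      have hw : v (α * γ / 16) = v (((P.c : ℤ) : Qb)) ^ P.p := by
        rw [map_div₀, v16, div_one, map_mul, vα, one_mul, hγ, map_pow]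
      have hβ' : β = γ - α := by rw [← hαβγ]; ring
      have hN : (kumSys W (α / 4)).IsNodal v ((α + γ) / 4) (α * γ / 16) :=
        { hb₂ := by
            change W.b₂ + 12 * (α / 4) = _
            rw [b₂, ha₁, ha₂, hβ']; field_simp; ring
          hb₄ := by
            change W.b₄ + (α / 4) * W.b₂ + 6 * (α / 4) ^ 2 = _
            rw [b₂, b₄, ha₁, ha₂, ha₃, ha₄, hβ']; field_simp; ring
          hb₆ := by
            change W.b₆ + 2 * (α / 4) * W.b₄ + (α / 4) ^ 2 * W.b₂ + 4 * (α / 4) ^ 3 = _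
            rw [b₂, b₄, b₆, ha₁, ha₂, ha₃, ha₄, ha₆, hβ']; field_simp; ring
          hb₈ := by
            change W.b₈ + 3 * (α / 4) * W.b₆ + 3 * (α / 4) ^ 2 * W.b₄ + (α / 4) ^ 3 * W.b₂
              + 3 * (α / 4) ^ 4 = _
            rw [b₂, b₄, b₆, b₈, ha₁, ha₂, ha₃, ha₄, ha₆, hβ']; field_simp; ring
          va := by
            rw [map_div₀, v4, div_one, v.map_add_eq_of_lt_left (by rw [vα]; exact vγ), vα]
          v2 := v2
          vb := by
            rw [hw]
            exact pow_lt_one₀ zero_le (valuation_intCast_lt_one A hA _ hc) P.hp0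
          b0 := div_ne_zero (mul_ne_zero hα0 hγ0) (by norm_num) }
      refine (E1_shift W v (α / 4) (by rw [map_div₀, v4, div_one, vα]) _).1 ?_
      refine sub_E1_of_nodal W v h₁ h₂ h₃ h₄ h₆ (α / 4) ((α + γ) / 4) (α * γ / 16)
        (((P.c : ℤ) : Qb)) (by rw [map_div₀, v4, div_one, vα]) hN σ' hσ1 hσv
        (by rw [ha₁, map_one]) (by rw [ha₃, _root_.map_zero])
        (by rw [map_div₀, hσα, map_ofNat])
        (by rw [map_div₀, map_add, hσα, hσγ, map_ofNat])
        (by rw [map_div₀, map_mul, hσα, hσγ, map_ofNat]) (hσint _) φ hφ P.p P.hp_odd hw T hT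
    · -- good reduction
      have hna : ¬ (q : ℤ) ∣ P.a := fun h => hab (Dvd.dvd.mul_right h _)
      have hnb : ¬ (q : ℤ) ∣ P.b := fun h => hab (Dvd.dvd.mul_left h _)
      have hΔ : W.Δ = α ^ 2 * β ^ 2 * γ ^ 2 / 256 := by
        rw [WeierstrassCurve.Δ, b₂, b₄, b₆, b₈, ha₁, ha₂, ha₃, ha₄, ha₆, ← hαβγ]
        field_simp
        ring
      have v256 : v 256 = 1 := by
        have : (256 : Qb) = 16 * 16 := by norm_num
        rw [this, map_mul, v16, one_mul]
      have hvΔ : v W.Δ = 1 := by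
        have vα : v α = 1 := hα ▸ vpow_eq _ hna
        have vβ : v β = 1 := hβ ▸ vpow_eq _ hnb
        have vγ : v γ = 1 := hγ ▸ vpow_eq _ hc
        rw [hΔ, map_div₀, v256, div_one, map_mul, map_mul, map_pow, map_pow, map_pow, vα, vβ, vγ]
        simp
      exact sub_E1_of_good W v h₁ h₂ h₃ h₄ h₆ hvΔ σ' hσ1 hσv φ hφ T

theorem sub_E1_at_p (P : FreyPackage) (A : ValuationSubring Qb) (hA : A.LiesOverPrime P.p)
    (σ : GQ) (hσ : σ ∈ A.inertiaSubgroupIn ℚ) (T : (WF P).Point) (hT : P.p • T = 0) :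
    InE1 P A (σ • T - T) :=
  sub_E1_of_odd P A P.pp (p_ne_two P) hA σ hσ T hT

end frey

end FA13
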