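import Fermat.Agent.Unram.Main

/-!
# S13 package TWO: nodal reduction in arbitrary residue characteristic (only `v b₂ = 1`)

`E0` is a subgroup, inertia acts trivially on `V ∩ E0` and on `V / (V ∩ E0)`.
-/

set_option autoImplicit false
set_option linter.unusedVariables false
set_option linter.unusedTactic false
set_option linter.unreachableTactic false

namespace FA13

open FAUnram WeierstrassCurve WeierstrassCurve.Affine

variable {K : Type*} [Field K] {Γ₀ : Type*} [LinearOrderedCommGroupWithZero Γ₀]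

/-- A Kummer system coming from `η² = x (4 x² + b₂ x + 4 b)` with `b₂` a unit and `b` small. -/
structure IsNod {G : Type*} [AddCommGroup G] (S : KumSys G K) (v : Valuation K Γ₀) (b : K) :
    Prop where
  hb₂ : v S.b₂ = 1
  hb₄ : S.b₄ = 2 * b
  hb₆ : S.b₆ = 0
  hb₈ : S.b₈ = -b ^ 2
  vb : v b < 1
  b0 : b ≠ 0

/-- Gauss lemma for the quadratic form `(Z₃ t - X₃)(Z₄ t - X₄)`. -/
theorem gauss_le (v : Valuation K Γ₀) {X₃ Z₃ X₄ Z₄ c A0 A1 A2 : K} (hc : c ≠ 0) (hA0 : A0 ≠ 0)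
    (r0 : X₃ * X₄ = c * A0) (r1 : X₃ * Z₄ + X₄ * Z₃ = c * A1) (r2 : Z₃ * Z₄ = c * A2)
    (h1 : v A1 ≤ v A0) (h2 : v A2 ≤ v A0) : v Z₃ ≤ v X₃ ∧ v Z₄ ≤ v X₄ := by
  have hγ : 0 < v c := zero_lt_iff.2 ((Valuation.ne_zero_iff v).2 hc)
  have hA0' : 0 < v A0 := zero_lt_iff.2 ((Valuation.ne_zero_iff v).2 hA0)
  have e0 : v X₃ * v X₄ = v c * v A0 := by rw [← map_mul, r0, map_mul]
  have e2 : v Z₃ * v Z₄ = v c * v A2 := by rw [← map_mul, r2, map_mul]
  have e1 : v (X₃ * Z₄ + X₄ * Z₃) = v c * v A1 := by rw [r1, map_mul]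
  have hxx : 0 < v X₃ * v X₄ := by rw [e0]; exact mul_pos hγ hA0'
  have hx3 : 0 < v X₃ := pos_of_mul_pos_left hxx zero_le
  have hx4 : 0 < v X₄ := pos_of_mul_pos_right hxx zero_le
  have k2 : v Z₃ * v Z₄ ≤ v X₃ * v X₄ := by
    rw [e0, e2]; gcongr
  have k1 : v (X₃ * Z₄ + X₄ * Z₃) ≤ v X₃ * v X₄ := by
    rw [e0, e1]; gcongr
  constructor
  · by_contra hcon
    rw [not_le] at hcon
    have hz3 : 0 < v Z₃ := hx3.trans hcon
    have hz4 : v Z₄ < v X₄ := by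
      have : v Z₃ * v Z₄ < v Z₃ * v X₄ := k2.trans_lt (mul_lt_mul_of_pos_right hcon hx4)
      exact lt_of_mul_lt_mul_left this zero_le
    have hlt : v (X₃ * Z₄) < v (X₄ * Z₃) := by
      rw [map_mul, map_mul]
      calc v X₃ * v Z₄ ≤ v Z₃ * v Z₄ := by gcongr
        _ < v Z₃ * v X₄ := mul_lt_mul_of_pos_left hz4 hz3
        _ = v X₄ * v Z₃ := mul_comm _ _
    rw [Valuation.map_add_eq_of_lt_right v hlt, map_mul] at k1
    have : v X₃ * v X₄ < v X₄ * v Z₃ := by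
      rw [mul_comm]; exact mul_lt_mul_of_pos_left hcon hx4
    exact absurd k1 (not_le.2 this)
  · by_contra hcon
    rw [not_le] at hcon
    have hz4 : 0 < v Z₄ := hx4.trans hcon
    have hz3 : v Z₃ < v X₃ := by
      have : v Z₃ * v Z₄ < v X₃ * v Z₄ := k2.trans_lt (mul_lt_mul_of_pos_left hcon hx3)
      exact lt_of_mul_lt_mul_right this zero_le
    have hlt : v (X₄ * Z₃) < v (X₃ * Z₄) := by
      rw [map_mul, map_mul]
      calc v X₄ * v Z₃ ≤ v Z₄ * v Z₃ := by gcongr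
        _ < v Z₄ * v X₃ := mul_lt_mul_of_pos_left hz3 hz4
        _ = v X₃ * v Z₄ := mul_comm _ _
    rw [Valuation.map_add_eq_of_lt_left v hlt, map_mul] at k1
    have : v X₃ * v X₄ < v X₃ * v Z₄ := mul_lt_mul_of_pos_left hcon hx3
    exact absurd k1 (not_le.2 this)

section kum

variable {G : Type*} [AddCommGroup G]

theorem E0.X_pos {S : KumSys G K} {v : Valuation K Γ₀} {P : G} (h : S.E0 v P) : 0 < v (S.X P) := by
  rcases S.nrm P with ⟨hZ, hX⟩ | hZ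
  · rw [hX, map_one]; exact zero_lt_one
  · rw [KumSys.E0, hZ, map_one] at h
    exact zero_lt_one.trans_le h

/-- (2a) `E0` is closed under sums and differences. -/
theorem IsNod.E0_add_sub {S : KumSys G K} {v : Valuation K Γ₀} {b : K} (hS : IsNod S v b)
    {P Q : G} (hP : S.E0 v P) (hQ : S.E0 v Q) : S.E0 v (P + Q) ∧ S.E0 v (P - Q) := by
  obtain ⟨c, hc, r0, r1, r2⟩ := S.rel P Q
  have hx1 := E0.X_pos hP
  have hx2 := E0.X_pos hQ
  unfold KumSys.E0 at *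
  rw [hS.hb₄, hS.hb₆, hS.hb₈] at r0
  rw [hS.hb₄, hS.hb₆] at r1
  have hb2 := hS.hb₂
  have hvb := hS.vb
  generalize S.b₂ = b₂ at *
  generalize S.X (P + Q) = X₃ at *
  generalize S.Z (P + Q) = Z₃ at *
  generalize S.X (P - Q) = X₄ at *
  generalize S.Z (P - Q) = Z₄ at *
  generalize S.X P = X₁ at *
  generalize S.Z P = Z₁ at *
  generalize S.X Q = X₂ at *
  generalize S.Z Q = Z₂ at *
  have v2 : v (2 : K) ≤ 1 := v_two_le_one v
  have hpp : 0 < v X₁ * v X₂ := mul_pos hx1 hx2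
  have hzz : v (Z₁ * Z₂) ≤ v X₁ * v X₂ := by rw [map_mul]; gcongr
  have hbzz : v (b * (Z₁ * Z₂)) < v (X₁ * X₂) := by
    rw [map_mul, map_mul v X₁]
    calc v b * v (Z₁ * Z₂) ≤ v b * (v X₁ * v X₂) := by gcongr
      _ < v X₁ * v X₂ := mul_lt_of_lt_one_left hpp hvb
  have eF0 : F0 (2 * b) 0 (-b ^ 2) X₁ Z₁ X₂ Z₂ = (X₁ * X₂ - b * (Z₁ * Z₂)) ^ 2 := by
    unfold F0; ring
  have hvF0 : v (F0 (2 * b) 0 (-b ^ 2) X₁ Z₁ X₂ Z₂) = (v X₁ * v X₂) ^ 2 := by
    rw [eF0, map_pow, Valuation.map_sub_eq_of_lt_left v hbzz, map_mul]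
  have hF0ne : F0 (2 * b) 0 (-b ^ 2) X₁ Z₁ X₂ Z₂ ≠ 0 := by
    intro h0
    rw [h0, map_zero] at hvF0
    exact (pow_pos hpp 2).ne hvF0
  have hs : v (X₁ * Z₂ + X₂ * Z₁) ≤ v X₁ * v X₂ := by
    refine Valuation.map_add_le v ?_ ?_
    · rw [map_mul]; gcongr
    · rw [map_mul, mul_comm]; gcongr
  have hd : v (X₁ * Z₂ - X₂ * Z₁) ≤ v X₁ * v X₂ := by
    refine Valuation.map_sub_le v ?_ ?_
    · rw [map_mul]; gcongr
    · rw [map_mul, mul_comm]; gcongr
  have hvF1 : v (F1 b₂ (2 * b) 0 X₁ Z₁ X₂ Z₂) ≤ (v X₁ * v X₂) ^ 2 := by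
    unfold F1
    rw [sq (v X₁ * v X₂)]
    refine Valuation.map_add_le v (Valuation.map_add_le v (Valuation.map_add_le v ?_ ?_) ?_) ?_
    · rw [map_mul, map_mul, map_mul v X₁]
      calc v 2 * v (X₁ * Z₂ + X₂ * Z₁) * (v X₁ * v X₂)
          ≤ 1 * (v X₁ * v X₂) * (v X₁ * v X₂) := by gcongr
        _ = _ := by rw [one_mul]
    · rw [map_mul, map_mul, hb2, one_mul, map_mul v X₁]
      gcongr
    · rw [map_mul, map_mul, map_mul]
      calc v 2 * v b * v (X₁ * Z₂ + X₂ * Z₁) * v (Z₁ * Z₂)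
          ≤ 1 * 1 * (v X₁ * v X₂) * (v X₁ * v X₂) := by gcongr
        _ = _ := by rw [one_mul, one_mul]
    · rw [zero_mul, map_zero]; exact zero_le
  have hvF2 : v (F2 X₁ Z₁ X₂ Z₂) ≤ (v X₁ * v X₂) ^ 2 := by
    unfold F2
    rw [map_pow]
    gcongr
  exact gauss_le v hc hF0ne r0 r1 r2 (hvF0 ▸ hvF1) (hvF0 ▸ hvF2)

theorem E0_zero (S : KumSys G K) (v : Valuation K Γ₀) : S.E0 v 0 := by
  rw [KumSys.E0, S.Z_zero, S.X_zero, map_zero]; exact zero_le

theorem IsNod.E0_neg {S : KumSys G K} {v : Valuation K Γ₀} {b : K} (hS : IsNod S v b)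
    {P : G} (hP : S.E0 v P) : S.E0 v (-P) := by
  have := (hS.E0_add_sub (E0_zero S v) hP).2
  rwa [zero_sub] at this

theorem IsNod.E0_nsmul {S : KumSys G K} {v : Valuation K Γ₀} {b : K} (hS : IsNod S v b)
    {P : G} (hP : S.E0 v P) (n : ℕ) : S.E0 v (n • P) := by
  induction n with
  | zero => rw [zero_smul]; exact E0_zero S v
  | succ n ih => rw [succ_nsmul]; exact (hS.E0_add_sub ih hP).1

theorem E0_of_E1 {S : KumSys G K} {v : Valuation K Γ₀} {P : G} (h : S.E1 v P) : S.E0 v P :=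
  le_of_lt h

/-- If `x(T)` is at least as small as `b`, then `2 T ∈ E0`. -/
theorem IsNod.E0_two_nsmul {S : KumSys G K} {v : Valuation K Γ₀} {b : K} (hS : IsNod S v b)
    {T : G} (hT0 : T ≠ 0) (hT : v (S.X T) ≤ v b) : S.E0 v (2 • T) := by
  obtain ⟨c, hc, r0, r1, -⟩ := S.rel T T
  rw [hS.hb₄, hS.hb₆, hS.hb₈, sub_self, S.X_zero, mul_one, S.Z_of_ne T hT0] at r0
  rw [hS.hb₄, hS.hb₆, sub_self, S.X_zero, S.Z_zero, mul_zero, zero_add, one_mul,
    S.Z_of_ne T hT0] at r1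
  rw [two_nsmul, KumSys.E0, r0, r1, map_mul, map_mul]
  have hb2 := hS.hb₂
  have hvb := hS.vb
  have hb0 : 0 < v b := zero_lt_iff.2 ((Valuation.ne_zero_iff v).2 hS.b0)
  generalize S.b₂ = b₂ at *
  generalize S.X T = x at *
  have v2 : v (2 : K) ≤ 1 := v_two_le_one v
  have e0 : F0 (2 * b) 0 (-b ^ 2) x 1 x 1 = (x * x - b) ^ 2 := by unfold F0; ring
  have e1 : F1 b₂ (2 * b) 0 x 1 x 1 = x * (2 * (2 * (x * x)) + b₂ * x + 2 * (2 * b)) := by
    unfold F1; ring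
  have hxx : v (x * x) < v b := by
    rw [map_mul]
    calc v x * v x ≤ v b * v b := by gcongr
      _ < v b := mul_lt_of_lt_one_left hb0 hvb
  rw [e0, e1, map_pow, Valuation.map_sub_eq_of_lt_right v hxx, map_mul, sq]
  gcongr
  refine Valuation.map_add_le v (Valuation.map_add_le v ?_ ?_) ?_
  · rw [map_mul, map_mul]
    calc v 2 * (v 2 * v (x * x)) ≤ 1 * (1 * v b) := by gcongr
      _ = v b := by rw [one_mul, one_mul]
  · rw [map_mul, hb2, one_mul]; exact hT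
  · rw [map_mul, map_mul]
    calc v 2 * (v 2 * v b) ≤ 1 * (1 * v b) := by gcongr
      _ = v b := by rw [one_mul, one_mul]

/-- (1c) odd torsion points outside `E0` lie in the open middle annulus. -/
theorem IsNod.lt_of_torsion {S : KumSys G K} {v : Valuation K Γ₀} {b : K} (hS : IsNod S v b)
    {T : G} {p : ℕ} (hodd : Odd p) (hT : p • T = 0) (hE0 : ¬ S.E0 v T) : v b < v (S.X T) := by
  by_contra hcon
  rw [not_lt] at hcon
  have hT0 : T ≠ 0 := by
    rintro rfl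
    exact hE0 (E0_zero S v)
  obtain ⟨m, hm⟩ := hodd
  have h2 := hS.E0_nsmul (hS.E0_two_nsmul hT0 hcon) (m + 1)
  have : (m + 1) • (2 • T) = T := by
    rw [← mul_smul, show (m + 1) * 2 = p + 1 by omega, add_smul, hT, zero_add, one_smul]
  rw [this] at h2
  exact hE0 h2

end kum

section weier

variable [DecidableEq K]

theorem isNod_kumSys (W : WeierstrassCurve.Affine K) (v : Valuation K Γ₀)
    (h₁ : W.a₁ = 1) (h₃ : W.a₃ = 0) (h₆ : W.a₆ = 0) (hb₂ : v W.b₂ = 1) (h₄ : v W.a₄ < 1)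
    (h₄0 : W.a₄ ≠ 0) : IsNod (kumSys W 0) v W.a₄ where
  hb₂ := by
    show v (W.b₂ + 12 * 0) = 1
    rw [mul_zero, add_zero]; exact hb₂
  hb₄ := by
    show W.b₄ + 0 * W.b₂ + 6 * 0 ^ 2 = 2 * W.a₄
    rw [WeierstrassCurve.b₄, h₃]; ring
  hb₆ := by
    show W.b₆ + 2 * 0 * W.b₄ + 0 ^ 2 * W.b₂ + 4 * 0 ^ 3 = 0
    rw [WeierstrassCurve.b₆, h₃, h₆]; ring
  hb₈ := by
    show W.b₈ + 3 * 0 * W.b₆ + 3 * 0 ^ 2 * W.b₄ + 0 ^ 3 * W.b₂ + 3 * 0 ^ 4 = -W.a₄ ^ 2
    rw [WeierstrassCurve.b₈, h₃, h₆]; ring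
  vb := h₄
  b0 := h₄0

omit [DecidableEq K] in
/-- `η = 2y + x` has the valuation of `x` in the middle annulus. -/
theorem v_eta (W : WeierstrassCurve.Affine K) (v : Valuation K Γ₀)
    (h₁ : W.a₁ = 1) (h₃ : W.a₃ = 0) (h₆ : W.a₆ = 0) (hb₂ : v W.b₂ = 1)
    {x y : K} (h : W.Equation x y) (hb : v W.a₄ < v x) (hx1 : v x < 1) :
    v (2 * y + x) = v x := by
  have heq := (W.equation_iff x y).mp h
  rw [h₁, h₃, h₆] at heq
  have v2 : v (2 : K) ≤ 1 := v_two_le_one v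
  have hx0 : 0 < v x := lt_of_le_of_lt zero_le hb
  have e : (2 * y + x) ^ 2 = W.b₂ * (x * x) + (2 * (2 * (x * (x * x))) + 2 * (2 * (W.a₄ * x))) := by
    rw [WeierstrassCurve.b₂, h₁]
    linear_combination 4 * heq
  have hmain : v (W.b₂ * (x * x)) = v x * v x := by rw [map_mul, hb₂, one_mul, map_mul]
  have hsmall : v (2 * (2 * (x * (x * x))) + 2 * (2 * (W.a₄ * x))) < v x * v x := by
    refine Valuation.map_add_lt v ?_ ?_
    · rw [map_mul, map_mul, map_mul, map_mul]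
      calc v 2 * (v 2 * (v x * (v x * v x))) ≤ 1 * (1 * (v x * (v x * v x))) := by gcongr
        _ = v x * (v x * v x) := by rw [one_mul, one_mul]
        _ < v x * v x := mul_lt_of_lt_one_left (mul_pos hx0 hx0) hx1
    · rw [map_mul, map_mul, map_mul]
      calc v 2 * (v 2 * (v W.a₄ * v x)) ≤ 1 * (1 * (v W.a₄ * v x)) := by gcongr
        _ = v W.a₄ * v x := by rw [one_mul, one_mul]
        _ < v x * v x := mul_lt_mul_of_pos_right hb hx0
  have h2 : v (2 * y + x) ^ 2 = v x ^ 2 := by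
    rw [← map_pow, e, Valuation.map_add_eq_of_lt_left v (by rw [hmain]; exact hsmall), hmain, sq]
  exact (pow_left_inj₀ zero_le zero_le (by norm_num)).1 h2

omit [DecidableEq K] in
/-- the slope `y / x` is integral in the middle annulus. -/
theorem v_y_le (W : WeierstrassCurve.Affine K) (v : Valuation K Γ₀)
    (h₁ : W.a₁ = 1) (h₃ : W.a₃ = 0) (h₆ : W.a₆ = 0) (h₂ : v W.a₂ ≤ 1)
    {x y : K} (h : W.Equation x y) (hb : v W.a₄ < v x) (hx1 : v x < 1) :
    v y ≤ v x := by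
  have heq := (W.equation_iff x y).mp h
  rw [h₁, h₃, h₆] at heq
  have hx0 : 0 < v x := lt_of_le_of_lt zero_le hb
  by_contra hcon
  rw [not_le] at hcon
  have hy0 : 0 < v y := hx0.trans hcon
  have e : y * y + x * y = x * (x * x) + W.a₂ * (x * x) + W.a₄ * x := by
    linear_combination heq
  have hl : v (y * y + x * y) = v y * v y := by
    rw [Valuation.map_add_eq_of_lt_left v, map_mul]
    rw [map_mul, map_mul]
    exact mul_lt_mul_of_pos_right hcon hy0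
  have hr : v (x * (x * x) + W.a₂ * (x * x) + W.a₄ * x) ≤ v x * v x := by
    refine Valuation.map_add_le v (Valuation.map_add_le v ?_ ?_) ?_
    · rw [map_mul, map_mul]
      exact (mul_lt_of_lt_one_left (mul_pos hx0 hx0) hx1).le
    · rw [map_mul, map_mul]
      calc v W.a₂ * (v x * v x) ≤ 1 * (v x * v x) := by gcongr
        _ = _ := one_mul _
    · rw [map_mul]; gcongr
  rw [← e, hl] at hr
  exact absurd (mul_lt_mul'' hcon hcon zero_le zero_le) (not_lt.2 hr)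

/-- (2c) SLOPE LEMMA. -/
theorem slope_sub (W : WeierstrassCurve.Affine K) (v : Valuation K Γ₀)
    (h₁ : W.a₁ = 1) (h₃ : W.a₃ = 0) (h₆ : W.a₆ = 0) (h₂ : v W.a₂ ≤ 1) (hb₂ : v W.b₂ = 1)
    {x₁ y₁ x₂ y₂ : K} (hP₁ : W.Nonsingular x₁ y₁) (hP₂ : W.Nonsingular x₂ y₂)
    (hb : v W.a₄ < v x₁) (hx1 : v x₁ < 1) (hxx : v x₂ = v x₁)
    (hδ : v (y₁ * x₂ - y₂ * x₁) < v x₁ * v x₁) :
    (kumSys W 0).E0 v (Point.some x₁ y₁ hP₁ - Point.some x₂ y₂ hP₂) := by
  have v2 : v (2 : K) ≤ 1 := v_two_le_one v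
  have hx0 : 0 < v x₁ := lt_of_le_of_lt zero_le hb
  have hη := v_eta W v h₁ h₃ h₆ hb₂ hP₁.1 hb hx1
  by_cases hxe : x₁ = x₂
  · subst hxe
    rcases Y_eq_of_X_eq hP₁.1 hP₂.1 rfl with hy | hy
    · subst hy
      rw [sub_self]
      exact E0_zero _ v
    · exfalso
      have hη₂ := v_eta W v h₁ h₃ h₆ hb₂ hP₂.1 hb hx1
      have : y₁ * x₁ - y₂ * x₁ = -((2 * y₂ + x₁) * x₁) := by
        rw [hy, negY, h₁, h₃]; ring
      rw [this, Valuation.map_neg, map_mul, hη₂] at hδ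
      exact lt_irrefl _ hδ
  · have heq₁ := (W.equation_iff x₁ y₁).mp hP₁.1
    have heq₂ := (W.equation_iff x₂ y₂).mp hP₂.1
    rw [h₁, h₃, h₆] at heq₁ heq₂
    rw [sub_eq_add_neg, Point.neg_some, Point.add_of_X_ne hxe]
    simp only [KumSys.E0, kumSys_X_some, kumSys_Z_some, map_one]
    rw [slope_of_X_ne hxe, sub_zero]
    have hD : x₁ - x₂ ≠ 0 := sub_ne_zero.mpr hxe
    set x₃ := W.addX x₁ x₂ ((y₁ - W.negY x₂ y₂) / (x₁ - x₂)) with hx₃
    set M := 2 * (y₁ * y₂) + y₁ * x₂ + y₂ * x₁ + (1 + 2 * W.a₂) * (x₁ * x₂) with hM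
    have key : x₃ * (x₁ - x₂) ^ 2 = M + (x₁ * (x₁ * x₁) + W.a₄ * x₁ + x₂ * (x₂ * x₂) + W.a₄ * x₂
        - (x₁ + x₂) * ((x₁ - x₂) * (x₁ - x₂))) := by
      rw [hx₃, addX, negY, h₁, h₃, hM]
      field_simp
      linear_combination heq₁ + heq₂
    have keyM : x₁ * M = x₁ * x₂ * (W.b₂ * x₁ + 2 * (x₁ * x₁) + 2 * W.a₄)
        - (y₁ * x₂ - y₂ * x₁) * (2 * y₁ + x₁) := by
      rw [hM, WeierstrassCurve.b₂, h₁]
      linear_combination (2 * x₂) * heq₁
    have hin : v (W.b₂ * x₁ + 2 * (x₁ * x₁) + 2 * W.a₄) = v x₁ := by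
      have a1 : v (W.b₂ * x₁) = v x₁ := by rw [map_mul, hb₂, one_mul]
      have a2 : v (2 * (x₁ * x₁)) < v x₁ := by
        rw [map_mul, map_mul]
        calc v 2 * (v x₁ * v x₁) ≤ 1 * (v x₁ * v x₁) := by gcongr
          _ = v x₁ * v x₁ := one_mul _
          _ < v x₁ := mul_lt_of_lt_one_left hx0 hx1
      have a3 : v (2 * W.a₄) < v x₁ := by
        rw [map_mul]
        calc v 2 * v W.a₄ ≤ 1 * v W.a₄ := by gcongr
          _ = v W.a₄ := one_mul _
          _ < v x₁ := hb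
      rw [Valuation.map_add_eq_of_lt_left v, Valuation.map_add_eq_of_lt_left v, a1]
      · rw [a1]; exact a2
      · rw [Valuation.map_add_eq_of_lt_left v (by rw [a1]; exact a2), a1]; exact a3
    have hvM : v M = v x₁ * v x₁ := by
      have hA : v (x₁ * x₂ * (W.b₂ * x₁ + 2 * (x₁ * x₁) + 2 * W.a₄)) = v x₁ * v x₁ * v x₁ := by
        rw [map_mul, map_mul, hin, hxx]
      have hB : v ((y₁ * x₂ - y₂ * x₁) * (2 * y₁ + x₁)) < v x₁ * v x₁ * v x₁ := by
        rw [map_mul, hη]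
        exact mul_lt_mul_of_pos_right hδ hx0
      have : v x₁ * v M = v x₁ * (v x₁ * v x₁) := by
        rw [← map_mul, keyM, Valuation.map_sub_eq_of_lt_left v (by rw [hA]; exact hB), hA,
          mul_assoc]
      exact mul_left_cancel₀ hx0.ne' this
    have hd : v (x₁ - x₂) ≤ v x₁ := Valuation.map_sub_le v le_rfl hxx.le
    have hs : v (x₁ + x₂) ≤ v x₁ := Valuation.map_add_le v le_rfl hxx.le
    have hpp : 0 < v x₁ * v x₁ := mul_pos hx0 hx0
    have hR : v (x₁ * (x₁ * x₁) + W.a₄ * x₁ + x₂ * (x₂ * x₂) + W.a₄ * x₂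
        - (x₁ + x₂) * ((x₁ - x₂) * (x₁ - x₂))) < v x₁ * v x₁ := by
      refine Valuation.map_sub_lt v (Valuation.map_add_lt v (Valuation.map_add_lt v
        (Valuation.map_add_lt v ?_ ?_) ?_) ?_) ?_
      · rw [map_mul, map_mul]; exact mul_lt_of_lt_one_left hpp hx1
      · rw [map_mul]; exact mul_lt_mul_of_pos_right hb hx0
      · rw [map_mul, map_mul, hxx]; exact mul_lt_of_lt_one_left hpp hx1
      · rw [map_mul, hxx]; exact mul_lt_mul_of_pos_right hb hx0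
      · rw [map_mul, map_mul]
        calc v (x₁ + x₂) * (v (x₁ - x₂) * v (x₁ - x₂)) ≤ v x₁ * (v x₁ * v x₁) := by gcongr
          _ < v x₁ * v x₁ := mul_lt_of_lt_one_left hpp hx1
    have hfin : v x₃ * v (x₁ - x₂) ^ 2 = v x₁ * v x₁ := by
      rw [← map_pow, ← map_mul, key, Valuation.map_add_eq_of_lt_left v (by rw [hvM]; exact hR), hvM]
    by_contra hcon
    rw [not_le] at hcon
    have hd0 : 0 < v (x₁ - x₂) := zero_lt_iff.2 ((Valuation.ne_zero_iff v).2 hD)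
    have : v x₃ * v (x₁ - x₂) ^ 2 < v x₁ * v x₁ := by
      calc v x₃ * v (x₁ - x₂) ^ 2 < v (x₁ - x₂) ^ 2 := mul_lt_of_lt_one_left (pow_pos hd0 2) hcon
        _ = v (x₁ - x₂) * v (x₁ - x₂) := sq _
        _ ≤ v x₁ * v x₁ := by gcongr
    exact absurd hfin this.ne

/-- points of `E0` are moved by inertia inside `E1`. -/
theorem sub_E1_of_E0' (W : WeierstrassCurve.Affine K) (v : Valuation K Γ₀)
    (h₁ : W.a₁ = 1) (h₃ : W.a₃ = 0) (h₆ : W.a₆ = 0) (h₂ : v W.a₂ ≤ 1) (hb₂ : v W.b₂ = 1)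
    (h₄ : v W.a₄ < 1) (h₄0 : W.a₄ ≠ 0)
    (σ : K →+* K) (hσ : ∀ z, v z ≤ 1 → v (σ z - z) < 1) (hσv : ∀ z, v (σ z) = v z)
    (φ : W.Point →+ W.Point)
    (hφ : ∀ x y h, ∃ h', φ (Point.some x y h) = Point.some (σ x) (σ y) h')
    {T : W.Point} (hT : (kumSys W 0).E0 v T) : (kumSys W 0).E1 v (φ T - T) := by
  have he : v (0 : K) ≤ 1 := by rw [map_zero]; exact zero_le
  have i₁ : v W.a₁ ≤ 1 := by rw [h₁, map_one]
  have i₃ : v W.a₃ ≤ 1 := by rw [h₃]; exact he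
  have i₆ : v W.a₆ ≤ 1 := by rw [h₆]; exact he
  have hN := isNod_kumSys W v h₁ h₃ h₆ hb₂ h₄ h₄0
  have hInt := kumSys_isInt W v 0 he i₁ h₂ i₃ h₄.le i₆
  cases T with
  | zero =>
    have : φ Point.zero - Point.zero = (0 : W.Point) := by
      rw [← Point.zero_def, map_zero, sub_zero]
    rw [this, KumSys.E1, (kumSys W 0).Z_zero, (kumSys W 0).X_zero, map_zero, map_one]
    exact zero_lt_one
  | some x y h =>
    obtain ⟨h', hφ'⟩ := hφ x y h
    rw [KumSys.E0, kumSys_X_some, kumSys_Z_some, map_one, sub_zero] at hT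
    rcases hT.lt_or_eq with hlt | heq
    · have hE : (kumSys W 0).E1 v (Point.some x y h) := by
        rw [KumSys.E1, kumSys_X_some, kumSys_Z_some, map_one, sub_zero]; exact hlt
      have hE' : (kumSys W 0).E1 v (φ (Point.some x y h)) := by
        rw [hφ', KumSys.E1, kumSys_X_some, kumSys_Z_some, map_one, sub_zero, hσv]
        exact hlt
      exact ((kumSys W 0).E1_add_sub v hInt hE' hE).2
    · have hx : v x ≤ 1 := heq.symm.le
      have hy : v y ≤ 1 := v_y_le_one W v i₁ h₂ i₃ h₄.le i₆ h.1 hx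
      have hns : v (F0 (kumSys W 0).b₄ (kumSys W 0).b₆ (kumSys W 0).b₈ (x - 0) 1 (x - 0) 1) = 1 := by
        rw [hN.hb₄, hN.hb₆, hN.hb₈]
        have : F0 (2 * W.a₄) 0 (-W.a₄ ^ 2) (x - 0) 1 (x - 0) 1 = (x ^ 2 - W.a₄) ^ 2 := by
          unfold F0; ring
        rw [this, map_pow, Valuation.map_sub_eq_of_lt_left v (by
          rw [map_pow, ← heq, one_pow]; exact h₄), map_pow, ← heq, one_pow, one_pow]
      rw [hφ']
      exact close_sub_E1 W v 0 he i₁ h₂ i₃ h₄.le i₆ h h' hx hy (hσ x hx) (hσ y hy) (Or.inr hns)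

/-- S13-TWO, main statement. -/
theorem two_main (W : WeierstrassCurve.Affine K) (v : Valuation K Γ₀)
    (h₁ : W.a₁ = 1) (h₃ : W.a₃ = 0) (h₆ : W.a₆ = 0) (h₂ : v W.a₂ ≤ 1) (hb₂ : v W.b₂ = 1)
    (h₄ : v W.a₄ < 1) (h₄0 : W.a₄ ≠ 0)
    (σ : K →+* K) (hσ : ∀ z, v z ≤ 1 → v (σ z - z) < 1) (hσv : ∀ z, v (σ z) = v z)
    (φ : W.Point →+ W.Point)
    (hφ : ∀ x y h, ∃ h', φ (Point.some x y h) = Point.some (σ x) (σ y) h')
    (p : ℕ) (hodd : Odd p) (hp : v (p : K) = 1) :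
    (∀ T : W.Point, p • T = 0 → (kumSys W 0).E0 v (φ T - T)) ∧
    (∀ T : W.Point, p • T = 0 → (kumSys W 0).E0 v T → φ T = T) := by
  have he : v (0 : K) ≤ 1 := by rw [map_zero]; exact zero_le
  have i₁ : v W.a₁ ≤ 1 := by rw [h₁, map_one]
  have i₃ : v W.a₃ ≤ 1 := by rw [h₃]; exact he
  have i₆ : v W.a₆ ≤ 1 := by rw [h₆]; exact he
  have hN := isNod_kumSys W v h₁ h₃ h₆ hb₂ h₄ h₄0
  have hInt := kumSys_isInt W v 0 he i₁ h₂ i₃ h₄.le i₆
  have key : ∀ T : W.Point, (kumSys W 0).E0 v T → (kumSys W 0).E1 v (φ T - T) := fun T hT =>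
    sub_E1_of_E0' W v h₁ h₃ h₆ h₂ hb₂ h₄ h₄0 σ hσ hσv φ hφ hT
  refine ⟨fun T hT => ?_, fun T hT hE0 => ?_⟩
  · by_cases hE0 : (kumSys W 0).E0 v T
    · exact E0_of_E1 (key T hE0)
    · have hlt := hN.lt_of_torsion hodd hT hE0
      cases T with
      | zero => exact absurd (E0_zero _ v) hE0
      | some x y h =>
        obtain ⟨h', hφ'⟩ := hφ x y h
        rw [kumSys_X_some, sub_zero] at hlt
        rw [KumSys.E0, kumSys_X_some, kumSys_Z_some, map_one, sub_zero, not_le] at hE0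
        have hx0 : 0 < v x := lt_of_le_of_lt zero_le hlt
        have hxne : x ≠ 0 := (Valuation.ne_zero_iff v).1 hx0.ne'
        have hyx := v_y_le W v h₁ h₃ h₆ h₂ h.1 hlt hE0
        have hs : v (y / x) ≤ 1 := by
          rw [map_div₀]; exact div_le_one_of_le₀ hyx zero_le
        have hσs := hσ _ hs
        have hσx : σ x ≠ 0 := by
          intro h0
          have := hσv x
          rw [h0, map_zero] at this
          exact hx0.ne this
        rw [hφ']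
        refine slope_sub W v h₁ h₃ h₆ h₂ hb₂ h' h (by rw [hσv]; exact hlt) (by rw [hσv]; exact hE0)
          (hσv x).symm ?_
        have e : σ y * x - y * σ x = (σ (y / x) - y / x) * (σ x * x) := by
          rw [map_div₀]; field_simp
        rw [e, map_mul, map_mul, hσv]
        exact mul_lt_of_lt_one_left (mul_pos hx0 hx0) hσs
  · have hpQ : p • (φ T - T) = 0 := by
      rw [smul_sub, ← map_nsmul, hT, map_zero, sub_zero]
    exact sub_eq_zero.1 ((kumSys W 0).eq_zero_of_E1_of_nsmul v hInt (key T hE0) p hp hpQ)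

end weier

end FA13
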