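import Mathlib
import Fermat.Agent.Maz.Defs
import Fermat.Agent.Maz.Two

/-!
# S13: the Frey curve at the prime 2
-/

set_option autoImplicit false
set_option linter.unusedVariables false

open WeierstrassCurve WeierstrassCurve.Affine WeierstrassCurve.Affine.Point

namespace FA13

open FAUnram

/-- `4 ∣ b^p - 1 - a^p`. -/
theorem frey_four_dvd (P : FreyPackage) : (4 : ℤ) ∣ P.b ^ P.p - 1 - P.a ^ P.p := by
  have hb : (2 : ℤ) ∣ P.b := (ZMod.intCast_zmod_eq_zero_iff_dvd P.b 2).1 P.hb2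
  obtain ⟨b', hb'⟩ := hb
  obtain ⟨m, hm⟩ := P.hp_odd
  have hp5 := P.hp5
  have h1 : ((P.b ^ P.p - 1 - P.a ^ P.p : ℤ) : ZMod 4) = 0 := by
    push_cast
    rw [P.ha4]
    have hb4 : ((P.b : ZMod 4)) ^ P.p = 0 := by
      have : P.p = 2 + (P.p - 2) := by omega
      rw [this, pow_add, hb']
      push_cast
      have : ((2 : ZMod 4) * (b' : ZMod 4)) ^ 2 = 0 := by
        rw [mul_pow]
        have : (2 : ZMod 4) ^ 2 = 0 := by decide
        rw [this, zero_mul]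
      rw [this, zero_mul]
    have h3 : (3 : ZMod 4) ^ P.p = 3 := by
      rw [hm, pow_succ, pow_mul]
      have : (3 : ZMod 4) ^ 2 = 1 := by decide
      rw [this, one_pow, one_mul]
    rw [hb4, h3]
    decide
  exact (ZMod.intCast_zmod_eq_zero_iff_dvd _ 4).1 h1

/-- `32 ∣ b^p`. -/
theorem frey_dvd_b_pow (P : FreyPackage) : (32 : ℤ) ∣ P.b ^ P.p := by
  have hb : (2 : ℤ) ∣ P.b := (ZMod.intCast_zmod_eq_zero_iff_dvd P.b 2).1 P.hb2
  have h5 : (2 : ℤ) ^ 5 ∣ P.b ^ P.p :=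
    (pow_dvd_pow_of_dvd hb 5).trans (pow_dvd_pow _ P.hp5)
  norm_num at h5
  exact h5

theorem frey_a_odd (P : FreyPackage) : ¬ (2 : ℤ) ∣ P.a := by
  intro h
  obtain ⟨a', ha'⟩ := h
  have := P.ha4
  rw [ha'] at this
  push_cast at this
  have key : ∀ z : ZMod 4, (2 : ZMod 4) * z ≠ 3 := by decide
  exact key _ this

section data

variable (P : FreyPackage)

theorem WF_a₁ : (WF P).a₁ = 1 := by simp [WF, FreyPackage.freyCurve]
theorem WF_a₃ : (WF P).a₃ = 0 := by simp [WF, FreyPackage.freyCurve]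
theorem WF_a₆ : (WF P).a₆ = 0 := by simp [WF, FreyPackage.freyCurve]
theorem WF_a₂ : (WF P).a₂ = (((P.b : ℤ) : Qb) ^ P.p - 1 - ((P.a : ℤ) : Qb) ^ P.p) / 4 := by
  simp [WF, FreyPackage.freyCurve]
theorem WF_a₄ : (WF P).a₄ = -(((P.a : ℤ) : Qb) ^ P.p) * ((P.b : ℤ) : Qb) ^ P.p / 16 := by
  simp [WF, FreyPackage.freyCurve]

theorem WF_b₂ : (WF P).b₂ = ((P.b ^ P.p - P.a ^ P.p : ℤ) : Qb) := by
  rw [WeierstrassCurve.b₂, WF_a₁, WF_a₂]
  push_cast
  ring

theorem WF_a₄_ne : (WF P).a₄ ≠ 0 := by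
  rw [WF_a₄]
  refine div_ne_zero (mul_ne_zero (neg_ne_zero.mpr ?_) ?_) (by norm_num)
  · exact pow_ne_zero _ (Int.cast_ne_zero.mpr P.ha0)
  · exact pow_ne_zero _ (Int.cast_ne_zero.mpr P.hb0)

variable (A : ValuationSubring Qb) (hA : A.LiesOverPrime 2)

theorem v_WF_a₂_le : A.valuation (WF P).a₂ ≤ 1 := by
  obtain ⟨k, hk⟩ := frey_four_dvd P
  have : (WF P).a₂ = ((k : ℤ) : Qb) := by
    rw [WF_a₂]
    have h := congrArg (fun z : ℤ => (z : Qb)) hk
    push_cast at h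
    rw [h]
    field_simp
  rw [this]
  exact valuation_intCast_le_one A k

include hA in
theorem v_WF_a₄_lt : A.valuation (WF P).a₄ < 1 := by
  obtain ⟨k, hk⟩ := frey_dvd_b_pow P
  have : (WF P).a₄ = ((-(P.a ^ P.p) * (2 * k) : ℤ) : Qb) := by
    rw [WF_a₄]
    have h := congrArg (fun z : ℤ => (z : Qb)) hk
    push_cast at h
    rw [h]
    push_cast
    field_simp
    ring
  rw [this]
  exact valuation_intCast_lt_one A hA _ (Dvd.dvd.mul_left (Dvd.intro _ rfl) _)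

include hA in
theorem v_WF_b₂ : A.valuation (WF P).b₂ = 1 := by
  rw [WF_b₂]
  refine valuation_intCast_eq_one A Nat.prime_two hA _ ?_
  intro h
  have hb : (2 : ℤ) ∣ P.b ^ P.p :=
    Dvd.dvd.trans (by norm_num) (frey_dvd_b_pow P)
  have ha : (2 : ℤ) ∣ P.a ^ P.p := by
    have := dvd_sub hb (by exact_mod_cast h : (2 : ℤ) ∣ P.b ^ P.p - P.a ^ P.p)
    simpa using this
  exact frey_a_odd P (Int.prime_two.dvd_of_dvd_pow ha)

include hA in
theorem v_p_two : A.valuation ((P.p : ℕ) : Qb) = 1 := by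
  have := valuation_intCast_eq_one A Nat.prime_two hA (P.p : ℤ) (by
    intro h
    have h1 : 2 ∣ P.p := by exact_mod_cast h
    have := (Nat.prime_dvd_prime_iff_eq Nat.prime_two P.pp).mp h1
    have := P.hp5
    omega)
  simpa using this

include hA in
theorem isNod_WF : IsNod (kumSys (WF P) 0) A.valuation (WF P).a₄ :=
  isNod_kumSys (WF P) A.valuation (WF_a₁ P) (WF_a₃ P) (WF_a₆ P) (v_WF_b₂ P A hA)
    (v_WF_a₄_lt P A hA) (WF_a₄_ne P)

end data

/-- both halves of the analysis at 2. -/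
theorem at_two (P : FreyPackage) (A : ValuationSubring Qb) (hA : A.LiesOverPrime 2)
    (σ : GQ) (hσ : σ ∈ A.inertiaSubgroupIn ℚ) :
    (∀ T : (WF P).Point, P.p • T = 0 → (kumSys (WF P) 0).E0 A.valuation (σ • T - T)) ∧
    (∀ T : (WF P).Point, P.p • T = 0 → (kumSys (WF P) 0).E0 A.valuation T → σ • T = T) := by
  have hdec := inertia_le_decomposition A hσ
  have _ : Algebra.IsAlgebraic ℚ Qb := AlgebraicClosure.isAlgebraic ℚ
  let φ : (WF P).Point →+ (WF P).Point := Point.map (W' := P.freyCurve) σ.toAlgHom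
  let σ' : Qb →+* Qb := (σ : Qb →+* Qb)
  have hσ1 : ∀ z, A.valuation z ≤ 1 → A.valuation (σ' z - z) < 1 :=
    fun z hz => inertia_spec A hσ z hz
  have hσv : ∀ z, A.valuation (σ' z) = A.valuation z :=
    fun z => valuation_apply_of_mem_decomposition A hdec z
  have hφ : ∀ x y h, ∃ h', φ (Point.some x y h) = Point.some (σ' x) (σ' y) h' :=
    fun x y h => ⟨_, Point.map_some (W' := P.freyCurve) σ.toAlgHom h⟩
  exact two_main (WF P) A.valuation (WF_a₁ P) (WF_a₃ P) (WF_a₆ P) (v_WF_a₂_le P A)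
    (v_WF_b₂ P A hA) (v_WF_a₄_lt P A hA) (WF_a₄_ne P) σ' hσ1 hσv φ hφ P.p P.hp_odd
    (v_p_two P A hA)

theorem unipotent_at_two (P : FreyPackage) (A : ValuationSubring Qb) (hA : A.LiesOverPrime 2)
    (σ : GQ) (hσ : σ ∈ A.inertiaSubgroupIn ℚ) (T : (WF P).Point) (hT : P.p • T = 0) :
    σ • (σ • T - T) = σ • T - T := by
  obtain ⟨h1, h2⟩ := at_two P A hA σ hσ
  refine h2 _ ?_ (h1 T hT)
  have hσT : P.p • (σ • T) = 0 := by
    have := algEquiv_smul_zsmul (W' := P.freyCurve) σ (P.p : ℤ) T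
    rw [natCast_zsmul, natCast_zsmul, hT, smul_zero] at this
    exact this.symm
  rw [nsmul_sub, hσT, hT, sub_zero]

end FA13
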