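import Fermat.Agent.Unram.Inertia

/-!
# S13: valuations of rational numbers at a place of a field of characteristic zero
-/

set_option autoImplicit false

namespace FA13

open FAUnram

variable {L : Type*} [Field L] [CharZero L] (A : ValuationSubring L)

theorem val_prime_lt_one {q : ℕ} (hA : A.LiesOverPrime q) : A.valuation (q : L) < 1 :=
  (A.mem_nonunits_iff).mp hA

theorem val_prime_ne_zero {q : ℕ} (hq : q.Prime) : A.valuation (q : L) ≠ 0 := by
  rw [Valuation.ne_zero_iff]
  exact_mod_cast hq.ne_zero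

/-- the valuation of a nonzero integer is a power of `v(q)`. -/
theorem val_int_eq_pow {q : ℕ} (hq : q.Prime) (hA : A.LiesOverPrime q) (n : ℤ) (hn : n ≠ 0) :
    ∃ k : ℕ, A.valuation (n : L) = A.valuation (q : L) ^ k := by
  have hfin : FiniteMultiplicity (q : ℤ) n :=
    Int.finiteMultiplicity_iff.mpr ⟨by simpa using hq.ne_one, hn⟩
  obtain ⟨c, hc, hdvd⟩ := hfin.exists_eq_pow_mul_and_not_dvd
  refine ⟨multiplicity (q : ℤ) n, ?_⟩
  have h1 := valuation_intCast_eq_one A hq hA c hdvd
  conv_lhs => rw [hc]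
  push_cast
  rw [map_mul, map_pow, h1, mul_one]

/-- the valuation of a nonzero rational is an integral power of `v(q)`. -/
theorem val_rat_eq_zpow {q : ℕ} (hq : q.Prime) (hA : A.LiesOverPrime q) (r : ℚ) (hr : r ≠ 0) :
    ∃ j : ℤ, A.valuation (r : L) = A.valuation (q : L) ^ j := by
  obtain ⟨k₁, h₁⟩ := val_int_eq_pow A hq hA r.num (Rat.num_ne_zero.mpr hr)
  obtain ⟨k₂, h₂⟩ := val_int_eq_pow A hq hA (r.den : ℤ) (by exact_mod_cast r.den_ne_zero)
  refine ⟨(k₁ : ℤ) - k₂, ?_⟩
  have h3 : (r : L) = (r.num : L) / ((r.den : ℤ) : L) := by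
    conv_lhs => rw [← Rat.num_div_den r]
    push_cast
    rfl
  rw [h3, map_div₀, h₁, h₂, zpow_sub₀ (val_prime_ne_zero A hq), zpow_natCast, zpow_natCast]

/-- powers of `v(q)`: injectivity. -/
theorem zpow_val_eq_one {q : ℕ} (hq : q.Prime) (hA : A.LiesOverPrime q) {j : ℤ}
    (h : A.valuation (q : L) ^ j = 1) : j = 0 := by
  have h0 : 0 < A.valuation (q : L) := zero_lt_iff.mpr (val_prime_ne_zero A hq)
  have h1 := val_prime_lt_one A hA
  by_contra hj
  rcases lt_or_gt_of_ne hj with hj | hj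
  · have := one_lt_zpow_of_neg₀ h0 h1 hj
    exact this.ne' h
  · have := zpow_lt_one₀ h0 h1 hj
    exact this.ne h

/-- a rational number in the maximal ideal is divisible by `q`. -/
theorem val_rat_le_of_lt_one {q : ℕ} (hq : q.Prime) (hA : A.LiesOverPrime q) (r : ℚ)
    (h : A.valuation (r : L) < 1) : A.valuation (r : L) ≤ A.valuation (q : L) := by
  by_cases hr : r = 0
  · simp [hr]
  obtain ⟨j, hj⟩ := val_rat_eq_zpow A hq hA r hr
  have h0 : 0 < A.valuation (q : L) := zero_lt_iff.mpr (val_prime_ne_zero A hq)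
  have h1 := val_prime_lt_one A hA
  rw [hj] at h ⊢
  have hj1 : 1 ≤ j := by
    by_contra hlt
    have : j ≤ 0 := by omega
    have := one_le_zpow_of_nonpos₀ h0 h1.le this
    exact absurd h (not_lt.mpr this)
  calc A.valuation (q : L) ^ j ≤ A.valuation (q : L) ^ (1 : ℤ) :=
        zpow_le_zpow_right_of_le_one₀ h0 h1.le hj1
    _ = _ := zpow_one _

/-- a rational `2`-adic unit is `≡ 1`. -/
theorem val_rat_sub_one_lt (hA : A.LiesOverPrime 2) (r : ℚ) (h : A.valuation (r : L) = 1) :
    A.valuation ((r : L) - 1) < 1 := by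
  have h3 : (r : L) = (r.num : L) / ((r.den : ℤ) : L) := by
    conv_lhs => rw [← Rat.num_div_den r]
    push_cast
    rfl
  have hden0 : ((r.den : ℤ) : L) ≠ 0 := by exact_mod_cast r.den_ne_zero
  have hcop : IsCoprime r.num (r.den : ℤ) := by
    rw [Int.isCoprime_iff_gcd_eq_one]
    exact r.reduced
  have hnd : A.valuation (r.num : L) = A.valuation ((r.den : ℤ) : L) := by
    rw [h3, map_div₀, div_eq_one_iff_eq ((Valuation.ne_zero_iff _).mpr hden0)] at h
    exact h
  have hden : ¬ ((2 : ℕ) : ℤ) ∣ (r.den : ℤ) := by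
    intro hd
    have hn : ¬ ((2 : ℕ) : ℤ) ∣ r.num := by
      intro hn
      have := hcop.isUnit_of_dvd' hn hd
      rw [Int.isUnit_iff] at this
      omega
    have h1 := valuation_intCast_eq_one A Nat.prime_two hA _ hn
    have h2 := valuation_intCast_lt_one A hA _ hd
    rw [← hnd, h1] at h2
    exact lt_irrefl _ h2
  have hnum : ¬ ((2 : ℕ) : ℤ) ∣ r.num := by
    intro hn
    have h1 := valuation_intCast_eq_one A Nat.prime_two hA _ hden
    have h2 := valuation_intCast_lt_one A hA _ hn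
    rw [hnd, h1] at h2
    exact lt_irrefl _ h2
  have hsub : ((2 : ℕ) : ℤ) ∣ r.num - (r.den : ℤ) := by
    push_cast at hden hnum ⊢
    omega
  have h4 : (r : L) - 1 = ((r.num - (r.den : ℤ) : ℤ) : L) / ((r.den : ℤ) : L) := by
    rw [h3]
    push_cast
    field_simp
  rw [h4, map_div₀, valuation_intCast_eq_one A Nat.prime_two hA _ hden, div_one]
  exact valuation_intCast_lt_one A hA _ hsub

end FA13
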