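import Fermat.Agent.Maz.FreyTors
import Fermat.Agent.Maz.RatVal

/-!
# S13 package NEWTON: not all of `E[p]` lies in the kernel of reduction at `p`
-/

set_option autoImplicit false

open Polynomial

namespace FA13

section abstract

variable {K : Type*} [Field K] {Γ₀ : Type*} [LinearOrderedCommGroupWithZero Γ₀]
  (v : Valuation K Γ₀)

/-- a product of `X - a` with all `v a > 1`: the constant coefficient dominates. -/
theorem coeff_lt_of_big (s : Multiset K) (hs : ∀ a ∈ s, 1 < v a) :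
    (s.map (fun a => X - C a)).prod.coeff 0 ≠ 0 ∧
      ∀ i, 1 ≤ i → v ((s.map (fun a => X - C a)).prod.coeff i) <
        v ((s.map (fun a => X - C a)).prod.coeff 0) := by
  induction s using Multiset.induction_on with
  | empty =>
    refine ⟨by simp, fun i hi => ?_⟩
    simp only [Multiset.map_zero, Multiset.prod_zero, coeff_one, if_neg (by omega : ¬ i = 0)]
    simp
  | cons a s ih =>
    obtain ⟨h0, hi⟩ := ih fun b hb => hs b (Multiset.mem_cons_of_mem hb)
    have ha : 1 < v a := hs a (Multiset.mem_cons_self a s)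
    have ha0 : a ≠ 0 := by
      intro h
      rw [h, map_zero] at ha
      exact absurd ha (by simp)
    set g := (s.map (fun a => X - C a)).prod with hg
    have hv0 : 0 < v (g.coeff 0) := zero_lt_iff.mpr ((Valuation.ne_zero_iff _).mpr h0)
    rw [Multiset.map_cons, Multiset.prod_cons, ← hg]
    have hc0 : ((X - C a) * g).coeff 0 = -(a * g.coeff 0) := by
      simp [sub_mul]
    refine ⟨by rw [hc0]; exact neg_ne_zero.mpr (mul_ne_zero ha0 h0), fun i h1 => ?_⟩
    obtain ⟨j, rfl⟩ : ∃ j, i = j + 1 := ⟨i - 1, by omega⟩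
    have hcj : ((X - C a) * g).coeff (j + 1) = g.coeff j - a * g.coeff (j + 1) := by
      simp [sub_mul, coeff_X_mul]
    rw [hc0, hcj, Valuation.map_neg, map_mul]
    have hle : v (g.coeff j) ≤ v (g.coeff 0) := by
      rcases Nat.eq_zero_or_pos j with rfl | hj
      · exact le_rfl
      · exact (hi j hj).le
    have h2 : v (g.coeff j) < v a * v (g.coeff 0) :=
      lt_of_le_of_lt hle (lt_mul_of_one_lt_left hv0 ha)
    have h3 : v (a * g.coeff (j + 1)) < v a * v (g.coeff 0) := by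
      rw [map_mul]
      exact mul_lt_mul_of_pos_left (hi (j + 1) (by omega)) (lt_trans zero_lt_one ha)
    exact lt_of_le_of_lt (Valuation.map_sub _ _ _) (max_lt h2 h3)

/-- if all roots of a split polynomial are non-integral, the constant coefficient dominates. -/
theorem coeff_lt_of_roots_big [IsAlgClosed K] (f : K[X]) (hf : f ≠ 0)
    (hr : ∀ a, f.eval a = 0 → 1 < v a) (i : ℕ) (hi : 1 ≤ i) : v (f.coeff i) < v (f.coeff 0) := by
  have h := (IsAlgClosed.splits f).eq_prod_roots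
  obtain ⟨h0, h1⟩ := coeff_lt_of_big v f.roots fun a ha => hr a (by
    rw [mem_roots hf] at ha; exact ha)
  have hl : 0 < v f.leadingCoeff :=
    zero_lt_iff.mpr ((Valuation.ne_zero_iff _).mpr (leadingCoeff_ne_zero.mpr hf))
  rw [h, coeff_C_mul, coeff_C_mul, map_mul, map_mul]
  exact mul_lt_mul_of_pos_left (h1 i hi) hl

/-- **Newton polygon**: `f = f₀ + … + f_d X^d` with `v f_d = v π`, integral coefficients which are
units or divisible by `π`, all roots non-integral. Then every root has `v π * v ξ ^ d = 1`. -/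
theorem newton [IsAlgClosed K] (f : K[X]) (d : ℕ) (hd : 1 ≤ d) (hdeg : f.natDegree ≤ d) (π : K)
    (hπ0 : π ≠ 0) (htop : v (f.coeff d) = v π) (hint : ∀ i, v (f.coeff i) ≤ 1)
    (hrat : ∀ i, v (f.coeff i) < 1 → v (f.coeff i) ≤ v π)
    (hr : ∀ a, f.eval a = 0 → 1 < v a) (ξ : K) (hξ : f.eval ξ = 0) : v π * v ξ ^ d = 1 := by
  have hvπ : 0 < v π := zero_lt_iff.mpr ((Valuation.ne_zero_iff _).mpr hπ0)
  have hf : f ≠ 0 := by
    intro h
    rw [h, coeff_zero, map_zero] at htop
    exact hvπ.ne htop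
  have hlt := coeff_lt_of_roots_big v f hf hr
  have h0 : v (f.coeff 0) = 1 := by
    refine le_antisymm (hint 0) ?_
    by_contra hc
    push Not at hc
    have h1 := hrat 0 hc
    have h2 := hlt d hd
    rw [htop] at h2
    exact absurd h1 (not_le.mpr h2)
  have hmid : ∀ i, 1 ≤ i → v (f.coeff i) ≤ v π := fun i hi => hrat i (by
    have := hlt i hi
    rwa [h0] at this)
  have hξ1 : 1 < v ξ := hr ξ hξ
  have hξ0 : 0 < v ξ := lt_trans zero_lt_one hξ1
  obtain ⟨e, rfl⟩ : ∃ e, d = e + 1 := ⟨d - 1, by omega⟩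
  rw [eval_eq_sum_range' (Nat.lt_succ_of_le hdeg), Finset.sum_range_succ,
    Finset.sum_range_succ'] at hξ
  simp only [pow_zero, mul_one] at hξ
  -- the middle terms are smaller than the top term
  have htopv : v (f.coeff (e + 1) * ξ ^ (e + 1)) = v π * v ξ ^ (e + 1) := by
    rw [map_mul, map_pow, htop]
  have hpos : 0 < v π * v ξ ^ (e + 1) := mul_pos hvπ (pow_pos hξ0 _)
  have hsum : v (∑ i ∈ Finset.range e, f.coeff (i + 1) * ξ ^ (i + 1)) < v π * v ξ ^ (e + 1) := by
    refine Valuation.map_sum_lt' v hpos fun i hi => ?_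
    rw [Finset.mem_range] at hi
    rw [map_mul, map_pow]
    calc v (f.coeff (i + 1)) * v ξ ^ (i + 1) ≤ v π * v ξ ^ (i + 1) :=
          mul_le_mul_left (hmid (i + 1) (by omega)) _
      _ < v π * v ξ ^ (e + 1) :=
          mul_lt_mul_of_pos_left (pow_lt_pow_right₀ hξ1 (by omega)) hvπ
  have hsplit : f.coeff 0 = -(∑ i ∈ Finset.range e, f.coeff (i + 1) * ξ ^ (i + 1) +
      f.coeff (e + 1) * ξ ^ (e + 1)) := by
    linear_combination hξ
  have := congrArg v hsplit
  rw [h0, Valuation.map_neg, Valuation.map_add_eq_of_lt_right v (by rw [htopv]; exact hsum),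
    htopv] at this
  exact this.symm

end abstract

section curve

open WeierstrassCurve WeierstrassCurve.Affine FAUnram

variable {K : Type*} [Field K] [DecidableEq K] (W : WeierstrassCurve.Affine K)

/-- every root of `ψ_{2m+1}` is the `x`-coordinate of a torsion point. -/
theorem exists_point_of_root [IsAlgClosed K] (hΔ : W.Δ ≠ 0) (m : ℕ) (x : K)
    (hx : (LS W.b₂ W.b₄ W.b₆ W.b₈ m).eval x = 0) :
    ∃ (y : K) (h : W.Nonsingular x y), (2 * m + 1) • (Point.some x y h) = 0 := by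
  let q : K[X] := X ^ 2 + C (W.a₁ * x + W.a₃) * X - C (x ^ 3 + W.a₂ * x ^ 2 + W.a₄ * x + W.a₆)
  have hq : q.natDegree = 2 := by
    simp only [q]
    compute_degree!
  obtain ⟨y, hy⟩ := IsAlgClosed.exists_root q (by
    rw [degree_eq_natDegree (by intro h0; rw [h0] at hq; simp at hq), hq]
    norm_num)
  have heq : W.Equation x y := by
    rw [Affine.equation_iff]
    simp only [q, IsRoot.def, eval_sub, eval_add, eval_pow, eval_X, eval_mul, eval_C] at hy
    linear_combination hy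
  have hns : W.Nonsingular x y := (W.equation_iff_nonsingular_of_Δ_ne_zero hΔ).mp heq
  exact ⟨y, hns, (odd_nsmul_some_eq_zero_iff W hns m).mpr hx⟩

omit [DecidableEq K] in
/-- integrality of the coefficients of `ψ`. -/
theorem coeff_LS_mem (A : ValuationSubring K) {b₂ b₄ b₆ b₈ : K} (h₂ : b₂ ∈ A) (h₄ : b₄ ∈ A)
    (h₆ : b₆ ∈ A) (h₈ : b₈ ∈ A) (m i : ℕ) : (LS b₂ b₄ b₆ b₈ m).coeff i ∈ A := by
  have := map_LS (⟨b₂, h₂⟩ : A) ⟨b₄, h₄⟩ ⟨b₆, h₆⟩ ⟨b₈, h₈⟩ A.subtype m
  simp only [ValuationSubring.subtype_apply] at this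
  rw [← this, coeff_map]
  exact Subtype.mem _

end curve

section frey

open WeierstrassCurve WeierstrassCurve.Affine WeierstrassCurve.Affine.Point FAUnram

theorem isGalois_Qb : IsGalois ℚ Qb :=
  have : Algebra.IsAlgebraic ℚ Qb := AlgebraicClosure.isAlgebraic ℚ
  have : IsAlgClosure ℚ Qb := ⟨inferInstance, inferInstance⟩
  IsAlgClosure.isGalois ℚ Qb

/-- an element of `ℚ̄` fixed by the Galois group is rational. -/
theorem exists_rat_of_fixed (z : Qb) (hz : ∀ σ : GQ, σ z = z) : ∃ r : ℚ, (r : Qb) = z := by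
  have hgal : IsGalois ℚ Qb := isGalois_Qb
  obtain ⟨r, hr⟩ := (InfiniteGalois.mem_range_algebraMap_iff_fixed z).mpr hz
  exact ⟨r, by rw [← hr, eq_ratCast]⟩

theorem X_smul (P : FreyPackage) (σ : GQ) (R : (WF P).Point) :
    (kumSys (WF P) 0).X (σ • R) = σ ((kumSys (WF P) 0).X R) := by
  cases R with
  | zero =>
    have h0 : σ • (0 : (WF P).Point) = 0 := smul_zero (A := (P.freyCurve⁄Qb).Point) σ
    change (kumSys (WF P) 0).X (σ • (0 : (WF P).Point)) = σ ((kumSys (WF P) 0).X 0)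
    rw [h0, (kumSys (WF P) 0).X_zero, map_one]
  | some x y h =>
    obtain ⟨h', h1⟩ : ∃ h' : (WF P).Nonsingular (σ x) (σ y),
        σ • (Point.some x y h : (WF P).Point) = Point.some (σ x) (σ y) h' :=
      ⟨_, Point.map_some (W' := P.freyCurve) σ.toAlgHom h⟩
    rw [h1, kumSys_X_some, kumSys_X_some, sub_zero, sub_zero]

theorem smul_nsmul_comm (P : FreyPackage) (σ : GQ) (k : ℕ) (T : (WF P).Point) :
    σ • (k • T) = k • (σ • T) :=
  map_nsmul (Point.map (W' := P.freyCurve) σ.toAlgHom) k T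

theorem inv_smul_smul' (P : FreyPackage) (σ : GQ) (T : (WF P).Point) : σ⁻¹ • σ • T = T :=
  inv_smul_smul (α := (P.freyCurve⁄Qb).Point) σ T

theorem smul_inv_smul' (P : FreyPackage) (σ : GQ) (T : (WF P).Point) : σ • σ⁻¹ • T = T :=
  smul_inv_smul (α := (P.freyCurve⁄Qb).Point) σ T

/-- integrality of the Frey curve at an odd prime. -/
theorem frey_isInt_of_odd (P : FreyPackage) (A : ValuationSubring Qb) {q : ℕ} (hq : q.Prime)
    (hq2 : q ≠ 2) (hA : A.LiesOverPrime q) : (kumSys (WF P) 0).IsInt A.valuation := by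
  have h2 : ¬ (q : ℤ) ∣ 2 := by
    intro h
    have := (Nat.prime_dvd_prime_iff_eq hq Nat.prime_two).mp (by exact_mod_cast h)
    exact hq2 this
  have hpr : Prime (q : ℤ) := Nat.prime_iff_prime_int.mp hq
  have h4 : A.valuation (4 : Qb) = 1 := by
    have := valuation_intCast_eq_one A hq hA 4 (by
      intro h
      have : (q : ℤ) ∣ 2 * 2 := by norm_num; exact h
      rcases hpr.dvd_or_dvd this with h | h <;> exact h2 h)
    exact_mod_cast this
  have h16 : A.valuation (16 : Qb) = 1 := by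
    have : (16 : Qb) = 4 * 4 := by norm_num
    rw [this, map_mul, h4, one_mul]
  have ha₁ : (WF P).a₁ = 1 := by simp [WF, FreyPackage.freyCurve]
  have ha₂ : (WF P).a₂ = (((P.b ^ P.p - 1 - P.a ^ P.p : ℤ) : Qb)) / 4 := by
    simp [WF, FreyPackage.freyCurve]
  have ha₃ : (WF P).a₃ = 0 := by simp [WF, FreyPackage.freyCurve]
  have ha₄ : (WF P).a₄ = (((-(P.a ^ P.p) * P.b ^ P.p : ℤ) : Qb)) / 16 := by
    simp [WF, FreyPackage.freyCurve]
  have ha₆ : (WF P).a₆ = 0 := by simp [WF, FreyPackage.freyCurve]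
  refine kumSys_isInt (WF P) A.valuation 0 (by simp) ?_ ?_ ?_ ?_ ?_
  · rw [ha₁, map_one]
  · rw [ha₂, map_div₀, h4, div_one]; exact valuation_intCast_le_one A _
  · rw [ha₃, _root_.map_zero]; exact zero_le_one
  · rw [ha₄, map_div₀, h16, div_one]; exact valuation_intCast_le_one A _
  · rw [ha₆, _root_.map_zero]; exact zero_le_one

/-- rationality of the coefficients of `ψ` for the Frey curve. -/
theorem frey_coeff_LS_rat (P : FreyPackage) (m i : ℕ) :
    ∃ r : ℚ, (LS (WF P).b₂ (WF P).b₄ (WF P).b₆ (WF P).b₈ m).coeff i = (r : Qb) := by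
  have := map_LS P.freyCurve.b₂ P.freyCurve.b₄ P.freyCurve.b₆ P.freyCurve.b₈
    (algebraMap ℚ Qb) m
  have e₂ : (WF P).b₂ = algebraMap ℚ Qb P.freyCurve.b₂ := WeierstrassCurve.map_b₂ _ _
  have e₄ : (WF P).b₄ = algebraMap ℚ Qb P.freyCurve.b₄ := WeierstrassCurve.map_b₄ _ _
  have e₆ : (WF P).b₆ = algebraMap ℚ Qb P.freyCurve.b₆ := WeierstrassCurve.map_b₆ _ _
  have e₈ : (WF P).b₈ = algebraMap ℚ Qb P.freyCurve.b₈ := WeierstrassCurve.map_b₈ _ _
  rw [e₂, e₄, e₆, e₈, ← this, coeff_map]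
  exact ⟨_, eq_ratCast _ _⟩

theorem not_all_E1 (P : FreyPackage) (A : ValuationSubring Qb) (hA : A.LiesOverPrime P.p)
    (T : (WF P).Point) (hT0 : T ≠ 0) (hT : P.p • T = 0) (hst : ∀ σ : GQ, ∃ k : ℕ, σ • T = k • T)
    (hall : ∀ R : (WF P).Point, P.p • R = 0 → InE1 P A R) : False := by
  classical
  have : Fact P.p.Prime := ⟨P.pp⟩
  obtain ⟨m, hm⟩ := P.hp_odd
  have hm2 : 2 ≤ m := by have := P.hp5; omega
  set v := A.valuation with hv
  set S := kumSys (WF P) 0 with hS
  set f := LS (WF P).b₂ (WF P).b₄ (WF P).b₆ (WF P).b₈ m with hf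
  set d := 2 * m * (m + 1) with hd
  have hp0 : (P.p : Qb) ≠ 0 := by exact_mod_cast P.hp0
  have hp2 : P.p ≠ 2 := by have := P.hp5; omega
  have hInt := frey_isInt_of_odd P A P.pp hp2 hA
  -- all roots are non-integral
  have hroots : ∀ a, f.eval a = 0 → 1 < v a := by
    intro a ha
    obtain ⟨y, h, hR⟩ := exists_point_of_root (WF P) (freyCurve_bar_Δ_ne_zero P) m a ha
    rw [← hm] at hR
    have := hall _ hR
    simpa [InE1, KumSys.E1] using this
  have hnewton : ∀ ξ, f.eval ξ = 0 → v (P.p : Qb) * v ξ ^ d = 1 := by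
    refine newton v f d (by rw [hd]; nlinarith) (natDegree_LS_le _ _ _ _ m) (P.p : Qb) hp0
      ?_ ?_ ?_ hroots
    · rw [hf, hd, coeff_LS, Valuation.map_neg, ← hm]
    · intro i
      rw [hv, A.valuation_le_one_iff]
      obtain ⟨i₂, i₄, i₆, i₈⟩ := hInt
      simp only [kumSys_zero_b₂, kumSys_zero_b₄, kumSys_zero_b₆, kumSys_zero_b₈,
        A.valuation_le_one_iff] at i₂ i₄ i₆ i₈
      exact coeff_LS_mem A i₂ i₄ i₆ i₈ m i
    · intro i hi
      obtain ⟨r, hr⟩ := frey_coeff_LS_rat P m i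
      rw [← hf] at hr
      rw [hr] at hi ⊢
      exact val_rat_le_of_lt_one A P.pp hA r hi
  -- the points of the line
  have hord : addOrderOf T = P.p := addOrderOf_eq_prime hT hT0
  let N₀ : Finset (WF P).Point := (Finset.Ico 1 P.p).image (fun k => k • T)
  have hN0 : ∀ R ∈ N₀, R ≠ 0 ∧ P.p • R = 0 := by
    intro R hR
    obtain ⟨k, hk, rfl⟩ := Finset.mem_image.mp hR
    rw [Finset.mem_Ico] at hk
    refine ⟨fun h0 => ?_, by rw [nsmul_left_comm, hT, nsmul_zero]⟩
    rw [← addOrderOf_dvd_iff_nsmul_eq_zero, hord] at h0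
    have := Nat.le_of_dvd (by omega) h0
    omega
  have hmem : ∀ n : ℕ, n • T ≠ 0 → n • T ∈ N₀ := by
    intro n hn
    refine Finset.mem_image.mpr ⟨n % P.p, ?_, ?_⟩
    · rw [Finset.mem_Ico]
      refine ⟨?_, Nat.mod_lt _ P.hppos⟩
      by_contra h0
      have h0' : n % P.p = 0 := by omega
      apply hn
      rw [← mod_addOrderOf_nsmul, hord, h0', zero_nsmul]
    · rw [← hord, mod_addOrderOf_nsmul]
  have hσN : ∀ σ : GQ, ∀ R ∈ N₀, σ • R ∈ N₀ := by
    intro σ R hR
    have hR0 := (hN0 R hR).1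
    obtain ⟨k, -, rfl⟩ := Finset.mem_image.mp hR
    obtain ⟨k', hk'⟩ := hst σ
    have h1 : σ • (k • T) = (k * k') • T := by
      rw [smul_nsmul_comm, hk', mul_nsmul']
    rw [h1]
    apply hmem
    rw [← h1]
    intro h0
    apply hR0
    have := congrArg (fun Q => σ⁻¹ • Q) h0
    simp only [inv_smul_smul'] at this
    rw [this]
    exact smul_zero (A := (P.freyCurve⁄Qb).Point) σ⁻¹
  let z : Qb := ∏ R ∈ N₀, S.X R
  have hz : ∀ σ : GQ, σ z = z := by
    intro σ
    simp only [z, map_prod]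
    refine Finset.prod_nbij' (fun R => σ • R) (fun R => σ⁻¹ • R) (hσN σ) (hσN σ⁻¹)
      (fun R _ => inv_smul_smul' P σ R) (fun R _ => smul_inv_smul' P σ R)
      (fun R _ => (X_smul P σ R).symm)
  obtain ⟨r, hr⟩ := exists_rat_of_fixed z hz
  have hXroot : ∀ R ∈ N₀, v (P.p : Qb) * v (S.X R) ^ d = 1 := by
    intro R hR
    obtain ⟨hR0, hRp⟩ := hN0 R hR
    apply hnewton
    rw [hm] at hRp
    have := (odd_nsmul_eq_zero_iff S hR0 m).mp hRp
    simpa [hS] using this
  have hprod : v (P.p : Qb) ^ N₀.card * v z ^ d = 1 := by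
    have : ∏ R ∈ N₀, (v (P.p : Qb) * v (S.X R) ^ d) = 1 := Finset.prod_eq_one hXroot
    rw [Finset.prod_mul_distrib, Finset.prod_const, Finset.prod_pow, ← map_prod] at this
    exact this
  have hz0 : z ≠ 0 := by
    intro h0
    rw [h0, _root_.map_zero, zero_pow (by rw [hd]; positivity), mul_zero] at hprod
    exact zero_ne_one hprod
  have hr0 : r ≠ 0 := by
    rintro rfl
    apply hz0
    rw [← hr, Rat.cast_zero]
  obtain ⟨j, hj⟩ := val_rat_eq_zpow A P.pp hA r hr0
  rw [hr] at hj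
  rw [← hv] at hj
  rw [hj, ← zpow_natCast, ← zpow_natCast, ← zpow_mul,
    ← zpow_add₀ (val_prime_ne_zero A P.pp)] at hprod
  have hsum := zpow_val_eq_one A P.pp hA hprod
  have hc1 : 1 ≤ N₀.card := by
    rw [Nat.succ_le_iff, Finset.card_pos]
    exact ⟨T, by simpa using hmem 1 (by simpa using hT0)⟩
  have hc2 : N₀.card ≤ 2 * m := by
    refine Finset.card_image_le.trans ?_
    rw [Nat.card_Ico]
    omega
  have hd' : 2 * m < d := by
    rw [hd]
    nlinarith
  have hj1 : j ≤ -1 := by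
    by_contra hcon
    have hj0 : 0 ≤ j := by omega
    have : 0 ≤ j * (d : ℤ) := by positivity
    omega
  have : j * (d : ℤ) ≤ -(d : ℤ) := by nlinarith
  omega

end frey

end FA13
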