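import Fermat.Agent.Maz.Two

/-!
# S13 (B1): port of `Unram/Nodal.lean` to arbitrary residue characteristic

Only `v b₂ = 1` is used (no assumption on `v 2`): the valuation of the `x`-coordinate of an odd
torsion point with singular reduction.
-/

set_option autoImplicit false
set_option linter.unusedVariables false
set_option linter.unusedTactic false
set_option linter.unreachableTactic false

namespace FA13

open FAUnram FAUnram.KumSys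

variable {K : Type*} [Field K] {Γ₀ : Type*} [LinearOrderedCommGroupWithZero Γ₀]

theorem v2mul (v : Valuation K Γ₀) (x y : K) : v (2 * x * y) ≤ v x * v y := by
  rw [map_mul, map_mul]
  calc v 2 * v x * v y ≤ 1 * v x * v y := by
        gcongr
        exact v_two_le_one v
    _ = _ := by rw [one_mul]

theorem v2mul3 (v : Valuation K Γ₀) (x y z : K) : v (2 * x * y * z) ≤ v x * v y * v z := by
  rw [map_mul, map_mul, map_mul]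
  calc v 2 * v x * v y * v z ≤ 1 * v x * v y * v z := by
        gcongr
        exact v_two_le_one v
    _ = _ := by rw [one_mul]

section cases

variable (v : Valuation K Γ₀) {B b : K}

/-- `T × Mid`. -/
theorem case_TM (vB : v B = 1) (vb : v b < 1) (b0 : b ≠ 0)
    {ξ₁ ξ₂ X₃ Z₃ X₄ Z₄ c : K} (n3 : Nrm X₃ Z₃) (n4 : Nrm X₄ Z₄) (hc : c ≠ 0)
    (h1 : v ξ₁ ≤ v b) (h2 : v b < v ξ₂) (h2' : v ξ₂ < 1)
    (r0 : X₃ * X₄ = c * (ξ₁ * ξ₂ - b) ^ 2)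
    (r1 : X₃ * Z₄ + X₄ * Z₃ =
      c * (2 * (ξ₁ + ξ₂) * (ξ₁ * ξ₂) + B * (ξ₁ * ξ₂) + 2 * b * (ξ₁ + ξ₂)))
    (r2 : Z₃ * Z₄ = c * (ξ₁ - ξ₂) ^ 2) :
    Dv v (v b) X₃ Z₃ * v ξ₂ = v b ∧ Dv v (v b) X₄ Z₄ * v ξ₂ = v b := by
  have hN0 : 0 < v b := zero_lt_iff.2 ((Valuation.ne_zero_iff v).2 b0)
  have hprod : v (ξ₁ * ξ₂) ≤ v b * v ξ₂ := by rw [map_mul]; gcongr
  have hNh : v b * v ξ₂ < v b := mul_lt_of_lt_one_right hN0 h2'
  have ea0 : v (ξ₁ * ξ₂ - b) = v b :=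
    Valuation.map_sub_eq_of_lt_right v (hprod.trans_lt hNh)
  have ea2 : v (ξ₁ - ξ₂) = v ξ₂ := Valuation.map_sub_eq_of_lt_right v (h1.trans_lt h2)
  have hsum : v (ξ₁ + ξ₂) ≤ v ξ₂ := Valuation.map_add_le v (h1.trans h2.le) le_rfl
  have hA1 : v (2 * (ξ₁ + ξ₂) * (ξ₁ * ξ₂) + B * (ξ₁ * ξ₂) + 2 * b * (ξ₁ + ξ₂)) ≤
      v b * v ξ₂ := by
    refine Valuation.map_add_le v (Valuation.map_add_le v ?_ ?_) ?_
    · refine (v2mul v _ _).trans ?_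
      calc v (ξ₁ + ξ₂) * v (ξ₁ * ξ₂) ≤ 1 * (v b * v ξ₂) := by
            gcongr
            exact hsum.trans h2'.le
        _ = _ := one_mul _
    · rw [map_mul, vB, one_mul]
      exact hprod
    · refine (v2mul v _ _).trans ?_
      gcongr
  obtain ⟨e3, e4⟩ := np_le v hc r0 r1 r2 (by rw [ea0, ea2]; exact hA1)
  rw [ea0, ea2] at e3 e4
  exact ⟨Dv_eq_mid v n3 hNh h2 e3, Dv_eq_mid v n4 hNh h2 e4⟩

/-- `T × T`. -/
theorem case_TT (vB : v B = 1) (vb : v b < 1) (b0 : b ≠ 0)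
    {ξ₁ ξ₂ X₃ Z₃ X₄ Z₄ c : K} (n3 : Nrm X₃ Z₃) (n4 : Nrm X₄ Z₄) (hc : c ≠ 0)
    (h1 : v ξ₁ ≤ v b) (h2 : v ξ₂ ≤ v b)
    (r0 : X₃ * X₄ = c * (ξ₁ * ξ₂ - b) ^ 2)
    (r1 : X₃ * Z₄ + X₄ * Z₃ =
      c * (2 * (ξ₁ + ξ₂) * (ξ₁ * ξ₂) + B * (ξ₁ * ξ₂) + 2 * b * (ξ₁ + ξ₂)))
    (r2 : Z₃ * Z₄ = c * (ξ₁ - ξ₂) ^ 2) :
    Dv v (v b) X₃ Z₃ = 1 ∧ Dv v (v b) X₄ Z₄ = 1 := by
  have hN0 : 0 < v b := zero_lt_iff.2 ((Valuation.ne_zero_iff v).2 b0)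
  have hprod : v (ξ₁ * ξ₂) ≤ v b * v b := by rw [map_mul]; gcongr
  have hNN : v b * v b < v b := mul_lt_of_lt_one_right hN0 vb
  have ea0 : v (ξ₁ * ξ₂ - b) = v b :=
    Valuation.map_sub_eq_of_lt_right v (hprod.trans_lt hNN)
  have ea2 : v (ξ₁ - ξ₂) ≤ v b := Valuation.map_sub_le v h1 h2
  have hsum : v (ξ₁ + ξ₂) ≤ v b := Valuation.map_add_le v h1 h2
  have hA1 : v (2 * (ξ₁ + ξ₂) * (ξ₁ * ξ₂) + B * (ξ₁ * ξ₂) + 2 * b * (ξ₁ + ξ₂)) ≤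
      v b * v b := by
    refine Valuation.map_add_le v (Valuation.map_add_le v ?_ ?_) ?_
    · refine (v2mul v _ _).trans ?_
      calc v (ξ₁ + ξ₂) * v (ξ₁ * ξ₂) ≤ 1 * (v b * v b) := by
            gcongr
            exact hsum.trans vb.le
        _ = _ := one_mul _
    · rw [map_mul, vB, one_mul]
      exact hprod
    · refine (v2mul v _ _).trans ?_
      gcongr
  set A1 := 2 * (ξ₁ + ξ₂) * (ξ₁ * ξ₂) + B * (ξ₁ * ξ₂) + 2 * b * (ξ₁ + ξ₂) with hA1def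
  rcases lt_or_ge (v (ξ₁ * ξ₂ - b) * v (ξ₁ - ξ₂)) (v A1) with hlt | hle
  · have hA0 : v A1 ≠ 0 := (lt_of_le_of_lt zero_le hlt).ne'
    have hα : v (ξ₁ - ξ₂) ^ 2 ≤ v A1 := by
      rw [ea0] at hlt
      refine le_trans ?_ hlt.le
      rw [sq]
      gcongr
    have hβ : v A1 ≤ v (ξ₁ * ξ₂ - b) ^ 2 := by rw [ea0, sq]; exact hA1
    have hb2 : v (ξ₁ * ξ₂ - b) ^ 2 ≠ 0 := by rw [ea0]; exact pow_ne_zero _ hN0.ne'
    rcases np_lt v hc r0 r1 r2 hlt with ⟨e3, e4⟩ | ⟨e4, e3⟩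
    · exact ⟨Dv_eq_one v vb n3 hA0 hα e3, Dv_eq_one v vb n4 hb2 hβ e4⟩
    · exact ⟨Dv_eq_one v vb n3 hb2 hβ e3, Dv_eq_one v vb n4 hA0 hα e4⟩
  · obtain ⟨e3, e4⟩ := np_le v hc r0 r1 r2 hle
    rw [ea0] at e3 e4
    exact ⟨Dv_eq_one v vb n3 hN0.ne' ea2 e3, Dv_eq_one v vb n4 hN0.ne' ea2 e4⟩

theorem case_MM_aux (vB : v B = 1) (vb : v b < 1) (b0 : b ≠ 0)
    {ξ₁ ξ₂ X₃ Z₃ X₄ Z₄ c : K} (n3 : Nrm X₃ Z₃) (n4 : Nrm X₄ Z₄) (hc : c ≠ 0)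
    (h1 : v b < v ξ₁) (h1' : v ξ₁ < 1) (h2 : v b < v ξ₂) (h2' : v ξ₂ < 1) (hle : v ξ₁ ≤ v ξ₂)
    (r0 : X₃ * X₄ = c * (ξ₁ * ξ₂ - b) ^ 2)
    (r1 : X₃ * Z₄ + X₄ * Z₃ =
      c * (2 * (ξ₁ + ξ₂) * (ξ₁ * ξ₂) + B * (ξ₁ * ξ₂) + 2 * b * (ξ₁ + ξ₂)))
    (r2 : Z₃ * Z₄ = c * (ξ₁ - ξ₂) ^ 2) :
    (BigS v (v b) ξ₁ ξ₂ X₃ Z₃ ∧ SmallS v (v b) ξ₁ ξ₂ X₄ Z₄) ∨
    (BigS v (v b) ξ₁ ξ₂ X₄ Z₄ ∧ SmallS v (v b) ξ₁ ξ₂ X₃ Z₃) := by
  have hN0 : 0 < v b := zero_lt_iff.2 ((Valuation.ne_zero_iff v).2 b0)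
  have hp1 : 0 < v ξ₁ := hN0.trans h1
  have hp2 : 0 < v ξ₂ := hN0.trans h2
  have hpp : 0 < v ξ₁ * v ξ₂ := mul_pos hp1 hp2
  have hsum : v (ξ₁ + ξ₂) ≤ v ξ₂ := Valuation.map_add_le v hle le_rfl
  have hT1 : v (2 * (ξ₁ + ξ₂) * (ξ₁ * ξ₂)) < v ξ₁ * v ξ₂ := by
    refine (v2mul v _ _).trans_lt ?_
    rw [map_mul]
    exact mul_lt_of_lt_one_left hpp (hsum.trans_lt h2')
  have hT2 : v (B * (ξ₁ * ξ₂)) = v ξ₁ * v ξ₂ := by
    rw [map_mul, vB, one_mul, map_mul]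
  have hT3 : v (2 * b * (ξ₁ + ξ₂)) < v ξ₁ * v ξ₂ := by
    refine (v2mul v _ _).trans_lt ?_
    calc v b * v (ξ₁ + ξ₂) ≤ v b * v ξ₂ := by gcongr
      _ < v ξ₁ * v ξ₂ := mul_lt_mul_of_pos_right h1 hp2
  have hA1 : v (2 * (ξ₁ + ξ₂) * (ξ₁ * ξ₂) + B * (ξ₁ * ξ₂) + 2 * b * (ξ₁ + ξ₂)) =
      v ξ₁ * v ξ₂ := by
    have h12 : v (2 * (ξ₁ + ξ₂) * (ξ₁ * ξ₂) + B * (ξ₁ * ξ₂)) = v ξ₁ * v ξ₂ := by
      rw [← hT2]
      exact Valuation.map_add_eq_of_lt_right v (by rw [hT2]; exact hT1)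
    rw [← h12]
    exact Valuation.map_add_eq_of_lt_left v (by rw [h12]; exact hT3)
  set A1 := 2 * (ξ₁ + ξ₂) * (ξ₁ * ξ₂) + B * (ξ₁ * ξ₂) + 2 * b * (ξ₁ + ξ₂) with hA1def
  have ha2 : v (ξ₁ - ξ₂) ≤ v ξ₂ := Valuation.map_sub_le v hle le_rfl
  have ha0 : v (ξ₁ * ξ₂ - b) < v ξ₁ := by
    refine Valuation.map_sub_lt v ?_ h1
    rw [map_mul]
    exact mul_lt_of_lt_one_right hp1 h2'
  have hlt : v (ξ₁ * ξ₂ - b) * v (ξ₁ - ξ₂) < v A1 := by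
    rw [hA1]
    calc v (ξ₁ * ξ₂ - b) * v (ξ₁ - ξ₂) ≤ v (ξ₁ * ξ₂ - b) * v ξ₂ := by gcongr
      _ < v ξ₁ * v ξ₂ := mul_lt_mul_of_pos_right ha0 hp2
  have big : ∀ {X Z : K}, Nrm X Z → v X * v (ξ₁ - ξ₂) ^ 2 = v Z * v A1 →
      BigS v (v b) ξ₁ ξ₂ X Z := by
    intro X Z n e
    rw [hA1] at e
    rcases hle.lt_or_eq with hlt' | heq
    · left
      rw [Valuation.map_sub_eq_of_lt_right v hlt'] at e
      refine Dv_eq_mid v n ?_ ?_ e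
      · rw [sq, ← mul_assoc]
        refine mul_lt_mul_of_pos_right ?_ hp2
        exact (mul_lt_of_lt_one_right hN0 h2').trans h1
      · rw [sq]
        exact mul_lt_mul_of_pos_right hlt' hp2
    · right; right
      refine ⟨heq, Dv_eq_one v vb n hpp.ne' ?_ e⟩
      rw [sq, heq]
      gcongr
  have small : ∀ {X Z : K}, Nrm X Z → v X * v A1 = v Z * v (ξ₁ * ξ₂ - b) ^ 2 →
      SmallS v (v b) ξ₁ ξ₂ X Z := by
    intro X Z n e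
    rw [hA1] at e
    rcases lt_trichotomy (v b) (v ξ₁ * v ξ₂) with hlt' | heq | hgt
    · left
      rw [Valuation.map_sub_eq_of_lt_left v (by rw [map_mul]; exact hlt'), map_mul] at e
      refine Dv_eq_mid v n ?_ ?_ e
      · rw [sq]
        exact mul_lt_mul_of_pos_right hlt' hpp
      · rw [sq]
        refine mul_lt_of_lt_one_left hpp ?_
        exact (mul_lt_of_lt_one_right hp1 h2').trans h1'
    · right; right
      refine ⟨heq.symm, Dv_eq_N v vb n hpp.ne' ?_ e⟩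
      have : v (ξ₁ * ξ₂ - b) ≤ v b :=
        Valuation.map_sub_le v (by rw [map_mul, heq]) le_rfl
      rw [sq, ← heq]
      gcongr
    · right; left
      rw [Valuation.map_sub_eq_of_lt_right v (by rw [map_mul]; exact hgt)] at e
      refine Dv_eq_mid v n ?_ ?_ e
      · rw [sq]
        exact mul_lt_mul_of_pos_left hgt hN0
      · rw [sq]
        exact mul_lt_mul'' h1 h2 zero_le zero_le
  rcases np_lt v hc r0 r1 r2 hlt with ⟨e3, e4⟩ | ⟨e4, e3⟩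
  · exact Or.inl ⟨big n3 e3, small n4 e4⟩
  · exact Or.inr ⟨big n4 e4, small n3 e3⟩

theorem case_MM (vB : v B = 1) (vb : v b < 1) (b0 : b ≠ 0)
    {ξ₁ ξ₂ X₃ Z₃ X₄ Z₄ c : K} (n3 : Nrm X₃ Z₃) (n4 : Nrm X₄ Z₄) (hc : c ≠ 0)
    (h1 : v b < v ξ₁) (h1' : v ξ₁ < 1) (h2 : v b < v ξ₂) (h2' : v ξ₂ < 1)
    (r0 : X₃ * X₄ = c * (ξ₁ * ξ₂ - b) ^ 2)
    (r1 : X₃ * Z₄ + X₄ * Z₃ =
      c * (2 * (ξ₁ + ξ₂) * (ξ₁ * ξ₂) + B * (ξ₁ * ξ₂) + 2 * b * (ξ₁ + ξ₂)))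
    (r2 : Z₃ * Z₄ = c * (ξ₁ - ξ₂) ^ 2) :
    (BigS v (v b) ξ₁ ξ₂ X₃ Z₃ ∧ SmallS v (v b) ξ₁ ξ₂ X₄ Z₄) ∨
    (BigS v (v b) ξ₁ ξ₂ X₄ Z₄ ∧ SmallS v (v b) ξ₁ ξ₂ X₃ Z₃) := by
  rcases le_total (v ξ₁) (v ξ₂) with hle | hle
  · exact case_MM_aux v vB vb b0 n3 n4 hc h1 h1' h2 h2' hle r0 r1 r2
  · have := case_MM_aux v vB vb b0 (ξ₁ := ξ₂) (ξ₂ := ξ₁) n3 n4 hc h2 h2' h1 h1' hle
      (by rw [r0]; ring) (by rw [r1]; ring) (by rw [r2]; ring)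
    rcases this with ⟨hb, hs⟩ | ⟨hb, hs⟩
    · exact Or.inl ⟨BigS_symm v hb, SmallS_symm v hs⟩
    · exact Or.inr ⟨BigS_symm v hb, SmallS_symm v hs⟩

/-- `E0 × Mid`. -/
theorem case_EM (vB : v B = 1) (vb : v b < 1) (b0 : b ≠ 0)
    {X₁ Z₁ ξ X₃ Z₃ X₄ Z₄ c : K} (n3 : Nrm X₃ Z₃) (n4 : Nrm X₄ Z₄) (hc : c ≠ 0)
    (hz : v Z₁ ≤ v X₁) (hx0 : 0 < v X₁) (h2 : v b < v ξ) (h2' : v ξ < 1)
    (r0 : X₃ * X₄ = c * (X₁ * ξ - b * Z₁) ^ 2)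
    (r1 : X₃ * Z₄ + X₄ * Z₃ =
      c * (2 * (X₁ + ξ * Z₁) * (X₁ * ξ) + B * (X₁ * ξ) * Z₁ + 2 * b * (X₁ + ξ * Z₁) * Z₁))
    (r2 : Z₃ * Z₄ = c * (X₁ - ξ * Z₁) ^ 2) :
    Dv v (v b) X₃ Z₃ = v ξ ∧ Dv v (v b) X₄ Z₄ = v ξ := by
  have hN0 : 0 < v b := zero_lt_iff.2 ((Valuation.ne_zero_iff v).2 b0)
  have hξZ : v (ξ * Z₁) < v X₁ := by
    rw [map_mul]
    calc v ξ * v Z₁ ≤ v ξ * v X₁ := by gcongr
      _ < v X₁ := mul_lt_of_lt_one_left hx0 h2'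
  have ea2 : v (X₁ - ξ * Z₁) = v X₁ := Valuation.map_sub_eq_of_lt_left v hξZ
  have hsum : v (X₁ + ξ * Z₁) ≤ v X₁ := Valuation.map_add_le v le_rfl hξZ.le
  have hbZ : v (b * Z₁) < v (X₁ * ξ) := by
    rw [map_mul, map_mul]
    calc v b * v Z₁ ≤ v b * v X₁ := by gcongr
      _ < v ξ * v X₁ := mul_lt_mul_of_pos_right h2 hx0
      _ = v X₁ * v ξ := mul_comm _ _
  have ea0 : v (X₁ * ξ - b * Z₁) = v X₁ * v ξ := by
    rw [Valuation.map_sub_eq_of_lt_left v hbZ, map_mul]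
  have hA1 : v (2 * (X₁ + ξ * Z₁) * (X₁ * ξ) + B * (X₁ * ξ) * Z₁ +
      2 * b * (X₁ + ξ * Z₁) * Z₁) ≤ v X₁ * v ξ * v X₁ := by
    refine Valuation.map_add_le v (Valuation.map_add_le v ?_ ?_) ?_
    · refine (v2mul v _ _).trans ?_
      rw [map_mul, mul_comm]
      gcongr
    · rw [map_mul, map_mul, vB, one_mul, map_mul]
      gcongr
    · refine (v2mul3 v _ _ _).trans ?_
      calc v b * v (X₁ + ξ * Z₁) * v Z₁ ≤ v ξ * v X₁ * v X₁ := by gcongr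
        _ = _ := by ac_rfl
  obtain ⟨e3, e4⟩ := np_le v hc r0 r1 r2 (by rw [ea0, ea2]; exact hA1)
  rw [ea0, ea2] at e3 e4
  have k1 : v b * v X₁ < v X₁ * v ξ := by
    rw [mul_comm (v X₁)]; exact mul_lt_mul_of_pos_right h2 hx0
  have k2 : v X₁ * v ξ < v X₁ := mul_lt_of_lt_one_right hx0 h2'
  have f3 := Dv_eq_mid v n3 k1 k2 e3
  have f4 := Dv_eq_mid v n4 k1 k2 e4
  rw [mul_comm (v X₁)] at f3 f4
  exact ⟨mul_right_cancel₀ hx0.ne' f3, mul_right_cancel₀ hx0.ne' f4⟩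

/-- `E0 × T`. -/
theorem case_ET (vB : v B = 1) (vb : v b < 1) (b0 : b ≠ 0)
    {X₁ Z₁ ξ X₃ Z₃ X₄ Z₄ c : K} (n3 : Nrm X₃ Z₃) (n4 : Nrm X₄ Z₄) (hc : c ≠ 0)
    (hz : v Z₁ ≤ v X₁) (hx0 : 0 < v X₁) (h2 : v ξ ≤ v b)
    (r0 : X₃ * X₄ = c * (X₁ * ξ - b * Z₁) ^ 2)
    (r1 : X₃ * Z₄ + X₄ * Z₃ =
      c * (2 * (X₁ + ξ * Z₁) * (X₁ * ξ) + B * (X₁ * ξ) * Z₁ + 2 * b * (X₁ + ξ * Z₁) * Z₁))
    (r2 : Z₃ * Z₄ = c * (X₁ - ξ * Z₁) ^ 2) :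
    Dv v (v b) X₃ Z₃ = v b ∧ Dv v (v b) X₄ Z₄ = v b := by
  have hN0 : 0 < v b := zero_lt_iff.2 ((Valuation.ne_zero_iff v).2 b0)
  have h2' : v ξ < 1 := h2.trans_lt vb
  have hξZ : v (ξ * Z₁) < v X₁ := by
    rw [map_mul]
    calc v ξ * v Z₁ ≤ v ξ * v X₁ := by gcongr
      _ < v X₁ := mul_lt_of_lt_one_left hx0 h2'
  have ea2 : v (X₁ - ξ * Z₁) = v X₁ := Valuation.map_sub_eq_of_lt_left v hξZ
  have hsum : v (X₁ + ξ * Z₁) ≤ v X₁ := Valuation.map_add_le v le_rfl hξZ.le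
  have ea0 : v (X₁ * ξ - b * Z₁) ≤ v b * v X₁ := by
    refine Valuation.map_sub_le v ?_ ?_
    · rw [map_mul, mul_comm]; gcongr
    · rw [map_mul]; gcongr
  have hA1 : v (2 * (X₁ + ξ * Z₁) * (X₁ * ξ) + B * (X₁ * ξ) * Z₁ +
      2 * b * (X₁ + ξ * Z₁) * Z₁) ≤ v b * v X₁ ^ 2 := by
    rw [sq]
    refine Valuation.map_add_le v (Valuation.map_add_le v ?_ ?_) ?_
    · refine (v2mul v _ _).trans ?_
      rw [map_mul]
      calc v (X₁ + ξ * Z₁) * (v X₁ * v ξ) ≤ v X₁ * (v X₁ * v b) := by gcongr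
        _ = _ := by ac_rfl
    · rw [map_mul, map_mul, vB, one_mul, map_mul]
      calc v X₁ * v ξ * v Z₁ ≤ v X₁ * v b * v X₁ := by gcongr
        _ = _ := by ac_rfl
    · refine (v2mul3 v _ _ _).trans ?_
      calc v b * v (X₁ + ξ * Z₁) * v Z₁ ≤ v b * v X₁ * v X₁ := by gcongr
        _ = _ := by ac_rfl
  set A1 := 2 * (X₁ + ξ * Z₁) * (X₁ * ξ) + B * (X₁ * ξ) * Z₁ +
      2 * b * (X₁ + ξ * Z₁) * Z₁ with hA1def
  rcases lt_or_ge (v (X₁ * ξ - b * Z₁) * v (X₁ - ξ * Z₁)) (v A1) with hlt | hle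
  · have hA0 : v A1 ≠ 0 := (lt_of_le_of_lt zero_le hlt).ne'
    have hx2 : v (X₁ - ξ * Z₁) ^ 2 ≠ 0 := by rw [ea2]; exact pow_ne_zero _ hx0.ne'
    have hα : v A1 ≤ v b * v (X₁ - ξ * Z₁) ^ 2 := by rw [ea2]; exact hA1
    have hβ : v (X₁ * ξ - b * Z₁) ^ 2 ≤ v b * v A1 := by
      rw [ea2] at hlt
      calc v (X₁ * ξ - b * Z₁) ^ 2 = v (X₁ * ξ - b * Z₁) * v (X₁ * ξ - b * Z₁) := sq _
        _ ≤ v (X₁ * ξ - b * Z₁) * (v b * v X₁) := by gcongr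
        _ = v b * (v (X₁ * ξ - b * Z₁) * v X₁) := by ac_rfl
        _ ≤ v b * v A1 := by gcongr
    rcases np_lt v hc r0 r1 r2 hlt with ⟨e3, e4⟩ | ⟨e4, e3⟩
    · exact ⟨Dv_eq_N v vb n3 hx2 hα e3, Dv_eq_N v vb n4 hA0 hβ e4⟩
    · exact ⟨Dv_eq_N v vb n3 hA0 hβ e3, Dv_eq_N v vb n4 hx2 hα e4⟩
  · obtain ⟨e3, e4⟩ := np_le v hc r0 r1 r2 hle
    rw [ea2] at e3 e4
    exact ⟨Dv_eq_N v vb n3 hx0.ne' ea0 e3, Dv_eq_N v vb n4 hx0.ne' ea0 e4⟩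

end cases

variable {G : Type*} [AddCommGroup G]

theorem IsNod.vb_ne {S : KumSys G K} {v : Valuation K Γ₀} {b : K}
    (hS : IsNod S v b) : v b ≠ 0 := (Valuation.ne_zero_iff v).2 hS.b0

theorem kprime {S : KumSys G K} {v : Valuation K Γ₀} {b : K} (hS : IsNod S v b)
    (P Q : G) (hQ : ¬ S.E0 v Q) :
    (PMa (cls (Units.mk0 _ hS.vb_ne) (S.D v b (P + Q)))
        (cls (Units.mk0 _ hS.vb_ne) (S.D v b P) + cls (Units.mk0 _ hS.vb_ne) (S.D v b Q)) ∧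
      PMa (cls (Units.mk0 _ hS.vb_ne) (S.D v b (P - Q)))
        (cls (Units.mk0 _ hS.vb_ne) (S.D v b P) - cls (Units.mk0 _ hS.vb_ne) (S.D v b Q))) ∨
    (PMa (cls (Units.mk0 _ hS.vb_ne) (S.D v b (P + Q)))
        (cls (Units.mk0 _ hS.vb_ne) (S.D v b P) - cls (Units.mk0 _ hS.vb_ne) (S.D v b Q)) ∧
      PMa (cls (Units.mk0 _ hS.vb_ne) (S.D v b (P - Q)))
        (cls (Units.mk0 _ hS.vb_ne) (S.D v b P) + cls (Units.mk0 _ hS.vb_ne) (S.D v b Q))) := by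
  set Nu := Units.mk0 _ hS.vb_ne with hNu
  have hNuv : (Nu : Γ₀) = v b := rfl
  have hNN : cls Nu (v b) + cls Nu (v b) = 0 := cls_N_add Nu
  have hN0 : v b ≠ 0 := hS.vb_ne
  obtain ⟨c, hc, r0, r1, r2⟩ := S.rel P Q
  have hZQ : S.Z Q = 1 := Z_eq_one_of_not_E0 hQ
  have hξ : v (S.X Q) < 1 := by
    have := hQ
    rw [E0, hZQ, map_one, not_le] at this
    exact this
  rw [hS.hb₄, hS.hb₆, hS.hb₈, hZQ] at r0
  rw [hS.hb₄, hS.hb₆, hZQ] at r1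
  rw [hZQ] at r2
  have n3 := S.nrm (P + Q)
  have n4 := S.nrm (P - Q)
  have n1 := S.nrm P
  simp only [D, hZQ]
  generalize S.X (P + Q) = X₃ at *
  generalize S.Z (P + Q) = Z₃ at *
  generalize S.X (P - Q) = X₄ at *
  generalize S.Z (P - Q) = Z₄ at *
  generalize S.X P = X₁ at *
  generalize S.Z P = Z₁ at *
  generalize S.X Q = ξ at *
  have r0' : X₃ * X₄ = c * (X₁ * ξ - b * Z₁) ^ 2 := by rw [r0, F0]; ring
  have r1' : X₃ * Z₄ + X₄ * Z₃ =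
      c * (2 * (X₁ + ξ * Z₁) * (X₁ * ξ) + S.b₂ * (X₁ * ξ) * Z₁ + 2 * b * (X₁ + ξ * Z₁) * Z₁) := by
    rw [r1, F1]; ring
  have r2' : Z₃ * Z₄ = c * (X₁ - ξ * Z₁) ^ 2 := by rw [r2, F2]; ring
  clear r0 r1 r2
  rcases le_or_gt (v Z₁) (v X₁) with hz | hz
  · -- `P ∈ E0`
    have hx0 : 0 < v X₁ := by
      rcases n1 with ⟨-, hX⟩ | hZ
      · rw [hX, map_one]; exact zero_lt_one
      · rw [hZ, map_one] at hz; exact zero_lt_one.trans_le hz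
    rw [Dv_of_E0 v hS.vb n1 hz, cls_one]
    rcases lt_or_ge (v b) (v ξ) with h2 | h2
    · obtain ⟨e3, e4⟩ := case_EM v hS.hb₂ hS.vb hS.b0 n3 n4 hc hz hx0 h2 hξ r0' r1' r2'
      rw [e3, e4, Dv_of_mid v h2 hξ]
      exact Or.inl (pmE _)
    · obtain ⟨e3, e4⟩ := case_ET v hS.hb₂ hS.vb hS.b0 n3 n4 hc hz hx0 h2 r0' r1' r2'
      rw [e3, e4, Dv_of_T v hS.vb h2]
      exact Or.inl (pmE _)
  · -- `P` affine, reducing to the node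
    have hZ1 : Z₁ = 1 := by
      rcases n1 with ⟨hZ, hX⟩ | hZ
      · rw [hZ, map_zero] at hz; exact absurd hz (not_lt.2 zero_le)
      · exact hZ
    subst hZ1
    rw [map_one] at hz
    have r0 : X₃ * X₄ = c * (X₁ * ξ - b) ^ 2 := by rw [r0']; ring
    have r1 : X₃ * Z₄ + X₄ * Z₃ =
        c * (2 * (X₁ + ξ) * (X₁ * ξ) + S.b₂ * (X₁ * ξ) + 2 * b * (X₁ + ξ)) := by
      rw [r1']; ring
    have r2 : Z₃ * Z₄ = c * (X₁ - ξ) ^ 2 := by rw [r2']; ring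
    rcases lt_or_ge (v b) (v X₁) with h1 | h1 <;> rcases lt_or_ge (v b) (v ξ) with h2 | h2
    · -- Mid × Mid
      have hx1 : v X₁ ≠ 0 := (lt_of_le_of_lt zero_le h1).ne'
      have hx2 : v ξ ≠ 0 := (lt_of_le_of_lt zero_le h2).ne'
      rw [Dv_of_mid v h1 hz, Dv_of_mid v h2 hξ]
      have hD0 : ∀ X Z : K, Dv v (v b) X Z ≠ 0 := by
        intro X Z
        unfold Dv
        split_ifs
        · exact one_ne_zero
        · exact (lt_of_lt_of_le (zero_lt_iff.2 hN0) (le_max_left _ _)).ne'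
      have big : ∀ {X Z : K}, BigS v (v b) X₁ ξ X Z →
          PMa (cls Nu (Dv v (v b) X Z)) (cls Nu (v X₁) - cls Nu (v ξ)) := by
        intro X Z h
        rcases h with h | h | ⟨h, h'⟩
        · have := congrArg (cls Nu) h
          rw [cls_mul Nu (hD0 X Z) (pow_ne_zero _ hx2), cls_mul Nu hx1 hx2, sq (v ξ),
            cls_mul Nu hx2 hx2] at this
          exact pmBig1 this
        · have := congrArg (cls Nu) h
          rw [cls_mul Nu (hD0 X Z) (pow_ne_zero _ hx1), cls_mul Nu hx1 hx2, sq (v X₁),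
            cls_mul Nu hx1 hx1] at this
          exact pmBig2 this
        · rw [h', h, cls_one]
          exact pmBig3 _
      have small : ∀ {X Z : K}, SmallS v (v b) X₁ ξ X Z →
          PMa (cls Nu (Dv v (v b) X Z)) (cls Nu (v X₁) + cls Nu (v ξ)) := by
        intro X Z h
        rcases h with h | h | ⟨h, h'⟩
        · have := congrArg (cls Nu) h
          rw [cls_mul Nu (hD0 X Z) (mul_ne_zero hx1 hx2), sq (v X₁ * v ξ),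
            cls_mul Nu (mul_ne_zero hx1 hx2) (mul_ne_zero hx1 hx2), cls_mul Nu hx1 hx2] at this
          exact pmSmall1 this
        · have := congrArg (cls Nu) h
          rw [cls_mul Nu (hD0 X Z) (mul_ne_zero hx1 hx2), sq (v b),
            cls_mul Nu hN0 hN0, cls_mul Nu hx1 hx2] at this
          exact pmSmall2 hNN this
        · rw [h', ← h, cls_mul Nu hx1 hx2]
          exact Or.inl rfl
      rcases case_MM v hS.hb₂ hS.vb hS.b0 n3 n4 hc h1 hz h2 hξ r0 r1 r2 with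
        ⟨hb, hs⟩ | ⟨hb, hs⟩
      · exact Or.inr ⟨big hb, small hs⟩
      · exact Or.inl ⟨small hs, big hb⟩
    · -- Mid × T
      have hx1 : v X₁ ≠ 0 := (lt_of_le_of_lt zero_le h1).ne'
      obtain ⟨e3, e4⟩ := case_TM v hS.hb₂ hS.vb hS.b0 (ξ₁ := ξ) (ξ₂ := X₁) n3 n4 hc h2 h1 hz
        (by rw [r0]; ring) (by rw [r1]; ring) (by rw [r2]; ring)
      rw [Dv_of_mid v h1 hz, Dv_of_T v hS.vb h2]
      have hD3 : Dv v (v b) X₃ Z₃ ≠ 0 := by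
        intro h; rw [h, zero_mul] at e3; exact hN0 e3.symm
      have hD4 : Dv v (v b) X₄ Z₄ ≠ 0 := by
        intro h; rw [h, zero_mul] at e4; exact hN0 e4.symm
      have f3 := congrArg (cls Nu) e3
      have f4 := congrArg (cls Nu) e4
      rw [cls_mul Nu hD3 hx1] at f3
      rw [cls_mul Nu hD4 hx1] at f4
      exact Or.inl (pmMT hNN f3 f4)
    · -- T × Mid
      have hx2 : v ξ ≠ 0 := (lt_of_le_of_lt zero_le h2).ne'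
      obtain ⟨e3, e4⟩ := case_TM v hS.hb₂ hS.vb hS.b0 n3 n4 hc h1 h2 hξ r0 r1 r2
      rw [Dv_of_T v hS.vb h1, Dv_of_mid v h2 hξ]
      have hD3 : Dv v (v b) X₃ Z₃ ≠ 0 := by
        intro h; rw [h, zero_mul] at e3; exact hN0 e3.symm
      have hD4 : Dv v (v b) X₄ Z₄ ≠ 0 := by
        intro h; rw [h, zero_mul] at e4; exact hN0 e4.symm
      have f3 := congrArg (cls Nu) e3
      have f4 := congrArg (cls Nu) e4
      rw [cls_mul Nu hD3 hx2] at f3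
      rw [cls_mul Nu hD4 hx2] at f4
      exact Or.inl (pmTM hNN f3 f4)
    · -- T × T
      obtain ⟨e3, e4⟩ := case_TT v hS.hb₂ hS.vb hS.b0 n3 n4 hc h1 h2 r0 r1 r2
      rw [e3, e4, Dv_of_T v hS.vb h1, Dv_of_T v hS.vb h2, cls_one]
      exact Or.inl (pmTT hNN)

theorem cls_D_nsmul {S : KumSys G K} {v : Valuation K Γ₀} {b : K} (hS : IsNod S v b)
    {P : G} (hP0 : ¬ S.E0 v P) (k : ℕ) :
    PMa (cls (Units.mk0 _ hS.vb_ne) (S.D v b (k • P)))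
        (k • cls (Units.mk0 _ hS.vb_ne) (S.D v b P)) ∧
      PMa (cls (Units.mk0 _ hS.vb_ne) (S.D v b ((k + 1) • P)))
        ((k + 1) • cls (Units.mk0 _ hS.vb_ne) (S.D v b P)) := by
  induction k with
  | zero =>
    refine ⟨Or.inl ?_, Or.inl ?_⟩
    · rw [zero_smul, D_zero, cls_one]; exact (zero_nsmul _).symm
    · rw [zero_add, one_smul, one_smul]
  | succ k ih =>
    refine ⟨ih.2, ?_⟩
    have key := kprime hS ((k + 1) • P) P hP0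
    have e1 : (k + 1) • P + P = (k + 1 + 1) • P := by rw [add_smul (k + 1) 1 P, one_smul]
    have e2 : (k + 1) • P - P = k • P := by rw [add_smul k 1 P, one_smul, add_sub_cancel_right]
    rw [e1, e2] at key
    exact pm_step _ _ _ _ k ih.1 ih.2 key

/-- D1. -/
theorem IsNod.torsion_val {S : KumSys G K} {v : Valuation K Γ₀} {b : K}
    (hS : IsNod S v b) {P : G} {n : ℕ} (hn : Odd n) (hP : n • P = 0) (hP0 : ¬ S.E0 v P) :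
    v b < v (S.X P) ∧ ∃ j : ℤ, v (S.X P) ^ n = v b ^ (2 * j) := by
  have hN0 : v b ≠ 0 := hS.vb_ne
  have hZ : S.Z P = 1 := Z_eq_one_of_not_E0 hP0
  have hξ : v (S.X P) < 1 := by
    have := hP0
    rw [E0, hZ, map_one, not_le] at this
    exact this
  have hD0 : S.D v b P ≠ 0 := by
    unfold D Dv
    split_ifs
    · exact one_ne_zero
    · exact (lt_of_lt_of_le (zero_lt_iff.2 hN0) (le_max_left _ _)).ne'
  have h := (cls_D_nsmul hS hP0 n).1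
  rw [hP, D_zero, cls_one, ← cls_pow _ hD0] at h
  have h0 : cls (Units.mk0 _ hS.vb_ne) (S.D v b P ^ n) = 0 := by
    rcases h with h | h
    · exact h.symm
    · exact neg_eq_zero.1 h.symm
  obtain ⟨j, hj⟩ := exists_of_cls_eq_zero _ (pow_ne_zero _ hD0) h0
  rw [Units.val_mk0] at hj
  rcases lt_or_ge (v b) (v (S.X P)) with h1 | h1
  · refine ⟨h1, j, ?_⟩
    rw [D, hZ, Dv_of_mid v h1 hξ] at hj
    exact hj
  · exfalso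
    rw [D, hZ, Dv_of_T v hS.vb h1, ← zpow_natCast] at hj
    have := zpow_right_injective₀ (zero_lt_iff.2 hN0) hS.vb.ne hj
    obtain ⟨m, hm⟩ := hn
    omega


end FA13
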