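import Fermat.Agent.Maz.Defs
import Fermat.Agent.Maz.Two
import Fermat.Agent.Maz.AtTwo

/-!
# S13 package RATMID: a rational `p`-torsion point of the Frey curve lies in `E0` at `2`.
-/

set_option autoImplicit false

open WeierstrassCurve WeierstrassCurve.Affine WeierstrassCurve.Affine.Point

namespace FA13

open FAUnram

section ValRat

variable {L : Type*} [Field L] (A : ValuationSubring L)

theorem val_natCast_eq_pow {q : ℕ} (hq : q.Prime) (hA : A.LiesOverPrime q) (n : ℕ) (hn : n ≠ 0) :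
    ∃ k : ℕ, A.valuation (n : L) = A.valuation (q : L) ^ k := by
  obtain ⟨e, n', hn', rfl⟩ := Nat.exists_eq_pow_mul_and_not_dvd hn q hq.ne_one
  refine ⟨e, ?_⟩
  have h1 : A.valuation ((n' : ℤ) : L) = 1 :=
    valuation_intCast_eq_one A hq hA (n' : ℤ) (by exact_mod_cast hn')
  push_cast at h1 ⊢
  rw [map_mul, map_pow, h1, mul_one]

theorem val_intCast_eq_pow {q : ℕ} (hq : q.Prime) (hA : A.LiesOverPrime q) (n : ℤ) (hn : n ≠ 0) :
    ∃ k : ℕ, A.valuation (n : L) = A.valuation (q : L) ^ k := by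
  obtain ⟨k, hk⟩ := val_natCast_eq_pow A hq hA n.natAbs (Int.natAbs_ne_zero.mpr hn)
  refine ⟨k, ?_⟩
  rw [← hk]
  rcases Int.natAbs_eq n with h | h
  · conv_lhs => rw [h]
    simp
  · conv_lhs => rw [h]
    simp

theorem val_ratCast_eq_zpow [CharZero L] {q : ℕ} (hq : q.Prime) (hA : A.LiesOverPrime q) (r : ℚ)
    (hr : r ≠ 0) : ∃ k : ℤ, A.valuation (r : L) = A.valuation (q : L) ^ k := by
  obtain ⟨k₁, hk₁⟩ := val_intCast_eq_pow A hq hA r.num (Rat.num_ne_zero.mpr hr)
  obtain ⟨k₂, hk₂⟩ := val_natCast_eq_pow A hq hA r.den r.den_ne_zero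
  refine ⟨k₁ - k₂, ?_⟩
  have hq0 : A.valuation (q : L) ≠ 0 := by
    rw [Valuation.ne_zero_iff]
    exact_mod_cast hq.ne_zero
  rw [Rat.cast_def, map_div₀, hk₁, hk₂, zpow_sub₀ hq0, zpow_natCast, zpow_natCast]

end ValRat

/-- The numerical contradiction: the component group at `2` has order prime to `p`. -/
theorem mid_arith {Γ₀ : Type*} [LinearOrderedCommGroupWithZero Γ₀] (π : Γ₀) (h0 : 0 < π)
    (h1 : π < 1) (p : ℕ) (hp : p.Prime) (hp5 : 5 ≤ p) (e : ℕ) (k j : ℤ) (hlt1 : π ^ k < 1)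
    (hlt2 : π ^ ((p : ℤ) * e - 4) < π ^ k)
    (heq : (π ^ k) ^ p = (π ^ ((p : ℤ) * e - 4)) ^ (2 * j)) : False := by
  have hk0 : 0 < k := by
    rw [← zpow_zero π, zpow_lt_zpow_iff_right_of_lt_one₀ h0 h1] at hlt1
    exact hlt1
  have hkm : k < (p : ℤ) * e - 4 := by
    rwa [zpow_lt_zpow_iff_right_of_lt_one₀ h0 h1] at hlt2
  have hE : k * p = ((p : ℤ) * e - 4) * (2 * j) := by
    apply zpow_right_injective₀ h0 h1.ne
    show π ^ (k * p) = π ^ (((p : ℤ) * e - 4) * (2 * j))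
    rw [zpow_mul, zpow_mul, zpow_natCast]
    exact heq
  have hpj : (p : ℤ) ∣ j := by
    have h8 : (p : ℤ) ∣ 8 * j := ⟨e * (2 * j) - k, by linarith⟩
    have hpp : Prime (p : ℤ) := Nat.prime_iff_prime_int.mp hp
    rcases hpp.dvd_or_dvd h8 with h | h
    · exfalso
      have h' : p ∣ 8 := by exact_mod_cast h
      have h2 : p ∣ 2 := hp.dvd_of_dvd_pow (show p ∣ 2 ^ 3 by norm_num; exact h')
      have := Nat.le_of_dvd (by norm_num) h2
      omega
    · exact h
  obtain ⟨j', rfl⟩ := hpj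
  have hp0 : (p : ℤ) ≠ 0 := by exact_mod_cast hp.ne_zero
  have hk : k = ((p : ℤ) * e - 4) * (2 * j') := by
    apply mul_right_cancel₀ hp0
    rw [hE]; ring
  have hm : 0 < (p : ℤ) * e - 4 := hk0.trans hkm
  rcases le_or_gt j' 0 with h | h
  · have : ((p : ℤ) * e - 4) * (2 * j') ≤ 0 := mul_nonpos_of_nonneg_of_nonpos hm.le (by linarith)
    linarith
  · have : ((p : ℤ) * e - 4) * 2 ≤ ((p : ℤ) * e - 4) * (2 * j') :=
      mul_le_mul_of_nonneg_left (by linarith) hm.le
    linarith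

local instance isAlgebraicQbar_rm : Algebra.IsAlgebraic ℚ (AlgebraicClosure ℚ) :=
  AlgebraicClosure.isAlgebraic ℚ
local instance isAlgClosureQbar_rm : IsAlgClosure ℚ (AlgebraicClosure ℚ) :=
  ⟨inferInstance, inferInstance⟩
local instance isGaloisQbar_rm : IsGalois ℚ (AlgebraicClosure ℚ) :=
  IsAlgClosure.isGalois ℚ (AlgebraicClosure ℚ)

/-- `v(a₄) = v(2)^(p e - 4)`. -/
theorem v_WF_a₄_eq (P : FreyPackage) (A : ValuationSubring Qb) (hA : A.LiesOverPrime 2) :
    ∃ e : ℕ, A.valuation (WF P).a₄ = A.valuation (2 : Qb) ^ ((P.p : ℤ) * e - 4) := by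
  obtain ⟨e, he⟩ := val_intCast_eq_pow A Nat.prime_two hA P.b P.hb0
  refine ⟨e, ?_⟩
  have ha : A.valuation ((P.a : ℤ) : Qb) = 1 :=
    valuation_intCast_eq_one A Nat.prime_two hA P.a (by exact_mod_cast frey_a_odd P)
  have h20 : A.valuation (2 : Qb) ≠ 0 := by
    rw [Valuation.ne_zero_iff]
    exact two_ne_zero
  have h16 : A.valuation (16 : Qb) = A.valuation (2 : Qb) ^ (4 : ℤ) := by
    rw [show (16 : Qb) = 2 ^ 4 by norm_num, map_pow]
    norm_cast
  push_cast at he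
  rw [WF_a₄, map_div₀, map_mul, Valuation.map_neg, map_pow, map_pow, ha, one_pow, one_mul, he, h16,
    zpow_sub₀ h20, mul_comm (P.p : ℤ), zpow_mul, zpow_natCast, zpow_natCast]

/-- RATMID, relative to the second half of `torsion_val` (port of `Unram/Nodal.lean`). -/
theorem rat_mid_of (P : FreyPackage) (A : ValuationSubring Qb) (hA : A.LiesOverPrime 2)
    (T : (WF P).Point) (hT : P.p • T = 0) (hfix : ∀ σ : GQ, σ • T = T)
    (htv : ¬ (kumSys (WF P) 0).E0 A.valuation T →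
      ∃ j : ℤ, A.valuation ((kumSys (WF P) 0).X T) ^ P.p = A.valuation (WF P).a₄ ^ (2 * j)) :
    (kumSys (WF P) 0).E0 A.valuation T := by
  by_contra hE0
  obtain ⟨j, hj⟩ := htv hE0
  have hlt := (isNod_WF P A hA).lt_of_torsion P.hp_odd hT hE0
  cases T with
  | zero => exact hE0 (E0_zero _ _)
  | some x y h =>
    rw [kumSys_X_some, sub_zero] at hj hlt
    rw [KumSys.E0, kumSys_X_some, kumSys_Z_some, sub_zero, map_one, not_le] at hE0
    have hx : x ∈ Set.range (algebraMap ℚ Qb) := by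
      rw [InfiniteGalois.mem_range_algebraMap_iff_fixed]
      intro σ
      have h1 := hfix σ
      rw [algEquiv_smul_def, Point.map_some] at h1
      have h2 := (Point.some.injEq ..).mp h1
      exact h2.1
    obtain ⟨r, rfl⟩ := hx
    have hr : r ≠ 0 := by
      rintro rfl
      rw [_root_.map_zero, _root_.map_zero] at hlt
      exact not_lt_zero hlt
    obtain ⟨k, hk⟩ := val_ratCast_eq_zpow A Nat.prime_two hA r hr
    obtain ⟨e, he⟩ := v_WF_a₄_eq P A hA
    have hk' : A.valuation (algebraMap ℚ Qb r) = A.valuation (2 : Qb) ^ k := by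
      rw [eq_ratCast, hk]
      norm_cast
    rw [hk'] at hj hlt hE0
    rw [he] at hj hlt
    have h2lt : A.valuation (2 : Qb) < 1 := by
      have := (A.mem_nonunits_iff).mp hA
      exact_mod_cast this
    have h20 : 0 < A.valuation (2 : Qb) := by
      rw [zero_lt_iff, Valuation.ne_zero_iff]
      exact two_ne_zero
    exact mid_arith _ h20 h2lt P.p P.pp P.hp5 e k j hE0 hlt hj

end FA13
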