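import Fermat.Agent.Maz.Newton
import Fermat.Agent.Maz.RatMid
import Fermat.Agent.Maz.Nodal2
import Fermat.Agent.H5.Frobenius

/-!
# S13 package RAT: the Frey curve has no rational point of order `p`
-/

set_option autoImplicit false

namespace FA13

open FAUnram WeierstrassCurve WeierstrassCurve.Affine WeierstrassCurve.Affine.Point

section abstract

variable {K : Type*} [Field K] {Γ₀ : Type*} [LinearOrderedCommGroupWithZero Γ₀]
  {G : Type*} [AddCommGroup G]

/-- If `x(T)` and `x(2T)` are units congruent to each other then `3T` is in the kernel of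
reduction (nodal reduction, any residue characteristic with `v 4 < 1`). -/
theorem IsNod.E1_three_nsmul {S : KumSys G K} {v : Valuation K Γ₀} {b : K} (hS : IsNod S v b)
    (h4 : v (4 : K) < 1) {T : G} (hT0 : T ≠ 0) (hx : v (S.X T) = 1)
    (hcong : v (S.X (2 • T)) = 1 → v (S.X (2 • T) - S.X T) < 1) : S.E1 v (3 • T) := by
  have hZ : S.Z T = 1 := S.Z_of_ne T hT0
  set x := S.X T with hxdef
  -- doubling
  obtain ⟨c, hc, r0, r1, -⟩ := S.rel T T
  have h2 : T + T = 2 • T := (two_nsmul T).symm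
  rw [sub_self, S.X_zero, h2, mul_one, hZ, hS.hb₄, hS.hb₆, hS.hb₈] at r0
  rw [sub_self, S.X_zero, S.Z_zero, h2, mul_zero, zero_add, one_mul, hZ, hS.hb₄, hS.hb₆] at r1
  have hF0 : F0 (2 * b) 0 (-b ^ 2) x 1 x 1 = (x ^ 2 - b) ^ 2 := by simp only [F0]; ring
  have hF1 : F1 S.b₂ (2 * b) 0 x 1 x 1 = S.b₂ * x ^ 2 + 4 * (x ^ 3 + b * x) := by
    simp only [F1]; ring
  have hvx2 : v (x ^ 2) = 1 := by rw [map_pow, hx, one_pow]
  have hvF0 : v (F0 (2 * b) 0 (-b ^ 2) x 1 x 1) = 1 := by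
    rw [hF0, map_pow, Valuation.map_sub_eq_of_lt_left v (by rw [hvx2]; exact hS.vb), hvx2, one_pow]
  have hvF1 : v (F1 S.b₂ (2 * b) 0 x 1 x 1) = 1 := by
    have h1 : v (S.b₂ * x ^ 2) = 1 := by rw [map_mul, hS.hb₂, hvx2, one_mul]
    have h3 : v (x ^ 3 + b * x) ≤ 1 := by
      refine (Valuation.map_add _ _ _).trans (max_le ?_ ?_)
      · rw [map_pow, hx, one_pow]
      · rw [map_mul, hx, mul_one]; exact hS.vb.le
    have h5 : v (4 * (x ^ 3 + b * x)) < 1 := by
      rw [map_mul]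
      exact mul_lt_one_of_lt_of_le h4 h3
    rw [hF1, Valuation.map_add_eq_of_lt_left v (by rw [h1]; exact h5), h1]
  have hZ2ne : S.Z (2 • T) ≠ 0 := by
    rw [r1]
    refine mul_ne_zero hc ?_
    intro h0
    rw [h0, _root_.map_zero] at hvF1
    exact zero_ne_one hvF1
  have h2T0 : 2 • T ≠ 0 := by
    intro h0
    rw [h0, S.Z_zero] at hZ2ne
    exact hZ2ne rfl
  have hZ2 : S.Z (2 • T) = 1 := S.Z_of_ne _ h2T0
  have hvc : v c = 1 := by
    have := congrArg v r1
    rw [hZ2, map_one, map_mul, hvF1, mul_one] at this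
    exact this.symm
  have hx2 : v (S.X (2 • T)) = 1 := by rw [r0, map_mul, hvc, hvF0, one_mul]
  have hlt := hcong hx2
  set x₂ := S.X (2 • T) with hx2def
  -- tripling
  obtain ⟨c', hc', s0, -, s2⟩ := S.rel (2 • T) T
  have h3 : 2 • T + T = 3 • T := by rw [← succ_nsmul]
  have h1 : 2 • T - T = T := by rw [two_nsmul, add_sub_cancel_right]
  rw [h3, h1, hZ, hZ2, ← hxdef, ← hx2def, hS.hb₄, hS.hb₆, hS.hb₈] at s0
  rw [h3, h1, hZ, hZ2, mul_one, ← hxdef, ← hx2def] at s2
  have hG0 : F0 (2 * b) 0 (-b ^ 2) x₂ 1 x 1 = (x₂ * x - b) ^ 2 := by simp only [F0]; ring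
  have hG2 : F2 x₂ 1 x 1 = (x₂ - x) ^ 2 := by simp only [F2]; ring
  have hvG0 : v (F0 (2 * b) 0 (-b ^ 2) x₂ 1 x 1) = 1 := by
    have : v (x₂ * x) = 1 := by rw [map_mul, hx2, hx, one_mul]
    rw [hG0, map_pow, Valuation.map_sub_eq_of_lt_left v (by rw [this]; exact hS.vb), this, one_pow]
  have hvc' : 0 < v c' := zero_lt_iff.mpr ((Valuation.ne_zero_iff v).mpr hc')
  have hX3 : v (S.X (3 • T)) = v c' := by
    have := congrArg v s0
    rw [map_mul, map_mul, hx, mul_one, hvG0, mul_one] at this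
    exact this
  rw [KumSys.E1, hX3, s2, map_mul, hG2, map_pow]
  exact mul_lt_of_lt_one_right hvc' (pow_lt_one₀ zero_le hlt (by norm_num))

end abstract

section frey

theorem frey_isInt_two (P : FreyPackage) (A : ValuationSubring Qb) (hA : A.LiesOverPrime 2) :
    (kumSys (WF P) 0).IsInt A.valuation :=
  kumSys_isInt (WF P) A.valuation 0 (by simp) (by rw [WF_a₁, map_one]) (v_WF_a₂_le P A)
    (by rw [WF_a₃, _root_.map_zero]; exact zero_le_one) (v_WF_a₄_lt P A hA).le
    (by rw [WF_a₆, _root_.map_zero]; exact zero_le_one)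

/-- RAT0: a rational `p`-torsion point with non-singular reduction at `2` is zero. -/
theorem rat_zero (P : FreyPackage) (A : ValuationSubring Qb) (hA : A.LiesOverPrime 2)
    (T : (WF P).Point) (hT : P.p • T = 0) (hfix : ∀ σ : GQ, σ • T = T)
    (hE0 : (kumSys (WF P) 0).E0 A.valuation T) : T = 0 := by
  by_contra hT0
  set S := kumSys (WF P) 0 with hS
  set v := A.valuation with hv
  have hInt := frey_isInt_two P A hA
  have hNod := isNod_WF P A hA
  have hvp := v_p_two P A hA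
  have hZ : S.Z T = 1 := S.Z_of_ne T hT0
  have hnE1 : ¬ S.E1 v T := fun h => hT0 (S.eq_zero_of_E1_of_nsmul v hInt h P.p hvp hT)
  have hx : v (S.X T) = 1 := by
    rw [KumSys.E0, hZ, map_one] at hE0
    rw [KumSys.E1, hZ, map_one, not_lt] at hnE1
    exact le_antisymm hnE1 hE0
  have hrat : ∀ k : ℕ, v (S.X (k • T)) = 1 → v (S.X (k • T) - 1) < 1 := by
    intro k hk
    obtain ⟨r, hr⟩ := exists_rat_of_fixed (S.X (k • T)) (fun σ => by
      rw [← X_smul, smul_nsmul_comm, hfix σ])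
    rw [← hr] at hk ⊢
    exact val_rat_sub_one_lt A hA r hk
  have h4 : v (4 : Qb) < 1 := by
    have := valuation_intCast_lt_one A hA 4 (by norm_num)
    exact_mod_cast this
  have h3 : S.E1 v (3 • T) := by
    refine hNod.E1_three_nsmul h4 hT0 hx fun h2 => ?_
    have e1 := hrat 2 h2
    have e2 := hrat 1 (by rw [one_nsmul]; exact hx)
    rw [one_nsmul] at e2
    have : S.X (2 • T) - S.X T = (S.X (2 • T) - 1) - (S.X T - 1) := by ring
    rw [this]
    exact lt_of_le_of_lt (Valuation.map_sub _ _ _) (max_lt e1 e2)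
  have h3T : 3 • T = 0 :=
    S.eq_zero_of_E1_of_nsmul v hInt h3 P.p hvp (by rw [nsmul_left_comm, hT, nsmul_zero])
  have hd1 : addOrderOf T ∣ 3 := addOrderOf_dvd_of_nsmul_eq_zero h3T
  have hd2 : addOrderOf T ∣ P.p := addOrderOf_dvd_of_nsmul_eq_zero hT
  have hcop : Nat.Coprime 3 P.p := by
    rw [Nat.coprime_primes Nat.prime_three P.pp]
    have := P.hp5
    omega
  have := Nat.eq_one_of_dvd_coprimes hcop hd1 hd2
  exact hT0 (AddMonoid.addOrderOf_eq_one_iff.mp this)

theorem rat_mid (P : FreyPackage) (A : ValuationSubring Qb) (hA : A.LiesOverPrime 2)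
    (T : (WF P).Point) (hT : P.p • T = 0) (hfix : ∀ σ : GQ, σ • T = T) :
    (kumSys (WF P) 0).E0 A.valuation T :=
  rat_mid_of P A hA T hT hfix fun hE0 =>
    ((isNod_WF P A hA).torsion_val P.hp_odd hT hE0).2

theorem no_rational_torsion (P : FreyPackage) (T : (WF P).Point) (hT : P.p • T = 0)
    (hfix : ∀ σ : GQ, σ • T = T) : T = 0 := by
  obtain ⟨A, hA⟩ := FA_h5.exists_liesOverPrime Nat.prime_two
  exact rat_zero P A hA T hT hfix (rat_mid P A hA T hT hfix)

end frey

end FA13
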