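/-
S13: final assembly.
-/
import Fermat.Agent.S05
import Fermat.Agent.Maz.AtP
import Fermat.Agent.Maz.AtTwo
import Fermat.Agent.Maz.FreyTors
import Fermat.Agent.Maz.Mink
import Fermat.Agent.Maz.Newton
import Fermat.Agent.Maz.Rat

set_option autoImplicit false

open WeierstrassCurve WeierstrassCurve.Affine WeierstrassCurve.Affine.Point

namespace FA13

noncomputable section

variable (P : FreyPackage)

/-- The `p`-torsion of the Frey curve. -/
abbrev VV : Type := ↥(Submodule.torsionBy ℤ (WF P).Point (P.p : ℤ))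

variable {P}

theorem VV.nsmul_eq_zero (x : VV P) : P.p • (x : (WF P).Point) = 0 := by
  have := x.2
  rwa [Submodule.mem_torsionBy_iff, natCast_zsmul] at this

theorem coe_smul_VV (σ : GQ) (x : VV P) : ((σ • x : VV P) : (WF P).Point) = σ • (x : (WF P).Point) :=
  rfl

/-- additive subgroups of `V` are `ZMod p`-submodules. -/
noncomputable def subOf (S : AddSubgroup (VV P)) : Submodule (ZMod P.p) (VV P) :=
  AddSubgroup.toZModSubmodule P.p S

theorem mem_subOf (S : AddSubgroup (VV P)) (x : VV P) : x ∈ subOf S ↔ x ∈ S := Iff.rfl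

/-- The subgroup of `V` of the points fixed by `σ`. -/
def fixSub (σ : GQ) : AddSubgroup (VV P) where
  carrier := {x | σ • x = x}
  zero_mem' := smul_zero σ
  add_mem' := fun {a b} ha hb => by
    show σ • (a + b) = a + b
    rw [smul_add, ha, hb]
  neg_mem' := fun {a} ha => by
    show σ • (-a) = -a
    rw [smul_neg, ha]

/-- The subgroup of `V` of the points moved by `σ` inside `N`. -/
def movSub (N : Submodule (ZMod P.p) (VV P)) (σ : GQ) : AddSubgroup (VV P) where
  carrier := {x | σ • x - x ∈ N}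
  zero_mem' := by
    show σ • (0 : VV P) - 0 ∈ N
    rw [smul_zero, sub_zero]; exact N.zero_mem
  add_mem' := fun {a b} ha hb => by
    show σ • (a + b) - (a + b) ∈ N
    have : σ • (a + b) - (a + b) = (σ • a - a) + (σ • b - b) := by rw [smul_add]; abel
    rw [this]; exact N.add_mem ha hb
  neg_mem' := fun {a} ha => by
    show σ • (-a) - (-a) ∈ N
    have : σ • (-a) - (-a) = -(σ • a - a) := by rw [smul_neg]; abel
    rw [this]; exact N.neg_mem ha

/-- The kernel of reduction inside `V`. -/
def e1Sub (A : ValuationSubring Qb) (hA : A.LiesOverPrime P.p) : AddSubgroup (VV P) where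
  carrier := {x | InE1 P A (x : (WF P).Point)}
  zero_mem' := InE1.zero P A
  add_mem' := fun {a b} ha hb => InE1.add hA ha hb
  neg_mem' := fun {a} ha => by
    -- `-a = (p - 1) • a`
    show InE1 P A ((-a : VV P) : (WF P).Point)
    have h1 : ∀ k : ℕ, InE1 P A (k • (a : (WF P).Point)) := by
      intro k
      induction k with
      | zero => rw [zero_nsmul]; exact InE1.zero P A
      | succ k ih => rw [succ_nsmul]; exact InE1.add hA ih ha
    have h2 : ((-a : VV P) : (WF P).Point) = (P.p - 1) • (a : (WF P).Point) := by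
      have h3 : (P.p - 1) • (a : (WF P).Point) + (a : (WF P).Point) = 0 := by
        rw [← succ_nsmul, Nat.sub_add_cancel P.hppos]
        exact a.nsmul_eq_zero
      rw [Submodule.coe_neg]
      exact (eq_neg_of_add_eq_zero_left h3).symm
    rw [h2]; exact h1 _

section subgroups

variable (N : Submodule (ZMod P.p) (VV P)) (hN : IsGaloisStable ℚ N)

/-- `H₁`: the elements acting trivially on `N`. -/
def H1 : Subgroup GQ where
  carrier := {σ | ∀ x ∈ N, σ • x = x}
  one_mem' := fun x _ => one_smul _ x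
  mul_mem' := fun {a b} ha hb x hx => by
    rw [mul_smul, hb x hx, ha x hx]
  inv_mem' := fun {a} ha x hx => by
    rw [inv_smul_eq_iff, ha x hx]

/-- `H₂`: the elements acting trivially on `V / N`. -/
def H2 : Subgroup GQ where
  carrier := {σ | ∀ x : VV P, σ • x - x ∈ N}
  one_mem' := fun x => by rw [one_smul, sub_self]; exact N.zero_mem
  mul_mem' := fun {a b} ha hb x => by
    have : (a * b) • x - x = a • (b • x - x) + (a • x - x) := by
      rw [mul_smul, smul_sub]; abel
    rw [this]
    exact N.add_mem (hN a _ (hb x)) (ha x)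
  inv_mem' := fun {a} ha x => by
    have : a⁻¹ • x - x = -(a⁻¹ • (a • x - x)) := by
      rw [smul_sub, inv_smul_smul]; abel
    rw [this]
    exact N.neg_mem (hN a⁻¹ _ (ha x))

theorem mem_H1 (σ : GQ) : σ ∈ H1 N ↔ ∀ x ∈ N, σ • x = x := Iff.rfl

theorem mem_H2 (σ : GQ) : σ ∈ H2 N hN ↔ ∀ x : VV P, σ • x - x ∈ N := Iff.rfl

include hN in
theorem H1_normal : (H1 N).Normal where
  conj_mem σ hσ τ := by
    intro x hx
    rw [mul_smul, mul_smul, hσ _ (hN τ⁻¹ x hx), smul_inv_smul]

theorem H2_normal : (H2 N hN).Normal where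
  conj_mem σ hσ τ := by
    intro x
    have : (τ * σ * τ⁻¹) • x - x = τ • (σ • (τ⁻¹ • x) - τ⁻¹ • x) := by
      rw [mul_smul, mul_smul, smul_sub, smul_inv_smul]
    rw [this]
    exact hN τ _ (hσ _)

end subgroups

/-! ### the field of definition of `V` -/

/-- `x`-coordinate (junk value at `0`). -/
def xc : (WF P).Point → Qb
  | .zero => 0
  | .some x _ _ => x

/-- `y`-coordinate (junk value at `0`). -/
def yc : (WF P).Point → Qb
  | .zero => 0
  | .some _ y _ => y

theorem smul_eq_of_coord (σ : GQ) (T : (WF P).Point) (hx : σ (xc T) = xc T)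
    (hy : σ (yc T) = yc T) : σ • T = T := by
  cases T with
  | zero => rfl
  | some x y h =>
    have e := Point.map_some (W' := P.freyCurve) σ.toAlgHom h
    show Point.map (W' := P.freyCurve) σ.toAlgHom (Point.some x y h) = _
    rw [e]
    exact FAUnram.some_eq_some (WF P) h _ hx hy

variable (P)

/-- The set of the coordinates of the points of `V`. -/
def coordSet : Set Qb :=
  Set.range (fun x : VV P => xc (x : (WF P).Point)) ∪
    Set.range (fun x : VV P => yc (x : (WF P).Point))

/-- The field of definition of `V`. -/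
def EE : IntermediateField ℚ Qb := IntermediateField.adjoin ℚ (coordSet P)

theorem finiteDimensional_EE : FiniteDimensional ℚ (EE P) := by
  have hfin : Finite (VV P) := frey_finite P
  have h2 : Finite (coordSet P) :=
    (Set.Finite.union (Set.finite_range _) (Set.finite_range _)).to_subtype
  have halg : Algebra.IsAlgebraic ℚ Qb := AlgebraicClosure.isAlgebraic ℚ
  exact IntermediateField.finiteDimensional_adjoin
    (fun x _ => (Algebra.IsAlgebraic.isAlgebraic x).isIntegral)

variable {P}

theorem smul_eq_of_mem_fixing (σ : GQ) (hσ : σ ∈ (EE P).fixingSubgroup) (x : VV P) :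
    σ • x = x := by
  rw [IntermediateField.mem_fixingSubgroup_iff] at hσ
  apply Subtype.ext
  rw [coe_smul_VV]
  apply smul_eq_of_coord
  · exact hσ _ (IntermediateField.subset_adjoin ℚ _ (Or.inl ⟨x, rfl⟩))
  · exact hσ _ (IntermediateField.subset_adjoin ℚ _ (Or.inr ⟨x, rfl⟩))

/-- **S13.** -/
theorem main (P : FreyPackage)
    (hred : ¬ GaloisRepIsIrreducible (K := AlgebraicClosure ℚ) ℚ P.freyCurve P.p) :
    HasGaloisStableCofixedLine (K := AlgebraicClosure ℚ) ℚ P.freyCurve P.p := by
  have hpF : Fact P.p.Prime := ⟨P.pp⟩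
  obtain ⟨N, hN, h0, h1, hat, hco⟩ := frey_exists_line P hred
  obtain ⟨T, hTN, hT0⟩ := (Submodule.ne_bot_iff N).1 h0
  -- `N` is generated by `T`
  have hspan : N = Submodule.span (ZMod P.p) {T} := by
    rcases hat (Submodule.span (ZMod P.p) {T})
      ((Submodule.span_singleton_le_iff_mem T N).2 hTN) with h | h
    · exact absurd ((Submodule.span_singleton_eq_bot).1 h) hT0
    · exact h.symm
  have hst : ∀ σ : GQ, ∃ k : ℕ, σ • (T : (WF P).Point) = k • (T : (WF P).Point) := by
    intro σ
    have h2 : σ • T ∈ N := hN σ T hTN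
    rw [hspan, Submodule.mem_span_singleton] at h2
    obtain ⟨c, hc⟩ := h2
    refine ⟨c.val, ?_⟩
    have h3 : c • T = c.val • T := by
      conv_lhs => rw [← ZMod.natCast_zmod_val c]
      rw [Nat.cast_smul_eq_nsmul]
    rw [h3] at hc
    have := congrArg (Subtype.val) hc
    exact this.symm
  have hT0' : (T : (WF P).Point) ≠ 0 := fun h => hT0 (Subtype.ext h)
  -- places
  obtain ⟨A2, -, hA2, -⟩ := FA_exists_isFrobeniusAt 2 Nat.prime_two
  obtain ⟨Ap, -, hAp, -⟩ := FA_exists_isFrobeniusAt P.p P.pp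
  -- primes `≠ 2, p`
  have hgen : ∀ q : ℕ, q.Prime → q ≠ 2 → q ≠ P.p → ∃ A : ValuationSubring Qb,
      A.LiesOverPrime q ∧ ∀ σ ∈ A.inertiaSubgroupIn ℚ, ∀ x : VV P, σ • x = x := by
    intro q hq hq2 hqp
    obtain ⟨A, -, hA, -⟩ := FA_exists_isFrobeniusAt q hq
    exact ⟨A, hA, fun σ hσ x => Fermat.Agent.S05.result P hq hq2 hqp A hA σ hσ x⟩
  -- the prime `2`
  have huni : ∀ σ ∈ A2.inertiaSubgroupIn ℚ, ∀ x : VV P, σ • (σ • x - x) = σ • x - x := by
    intro σ hσ x
    apply Subtype.ext
    exact unipotent_at_two P A2 hA2 σ hσ x x.nsmul_eq_zero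
  have h2a : ∀ σ ∈ A2.inertiaSubgroupIn ℚ, ∀ x ∈ N, σ • x = x := by
    intro σ hσ x hx
    have hy : σ • x - x ∈ N ⊓ subOf (fixSub σ) :=
      ⟨N.sub_mem (hN σ x hx) hx, huni σ hσ x⟩
    rcases hat (N ⊓ subOf (fixSub σ)) inf_le_left with h | h
    · rw [h, Submodule.mem_bot] at hy
      exact sub_eq_zero.1 hy
    · have : x ∈ N ⊓ subOf (fixSub σ) := by rw [h]; exact hx
      exact this.2
  have h2b : ∀ σ ∈ A2.inertiaSubgroupIn ℚ, ∀ x : VV P, σ • x - x ∈ N := by
    intro σ hσ x
    have hle : N ≤ subOf (movSub N σ) := fun z hz => N.sub_mem (hN σ z hz) hz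
    rcases hco (subOf (movSub N σ)) hle with h | h
    · have hy : σ • x - x ∈ subOf (movSub N σ) := by
        show σ • (σ • x - x) - (σ • x - x) ∈ N
        rw [huni σ hσ x, sub_self]
        exact N.zero_mem
      rw [h] at hy
      exact hy
    · have : x ∈ subOf (movSub N σ) := by rw [h]; exact Submodule.mem_top
      exact this
  -- the prime `p`
  have hV1 : subOf (e1Sub Ap hAp) ≠ ⊤ := by
    intro h
    refine not_all_E1 P Ap hAp T hT0' (VV.nsmul_eq_zero T) hst (fun R hR => ?_)
    have hR' : R ∈ Submodule.torsionBy ℤ (WF P).Point (P.p : ℤ) := by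
      rw [Submodule.mem_torsionBy_iff, natCast_zsmul]; exact hR
    have : (⟨R, hR'⟩ : VV P) ∈ subOf (e1Sub Ap hAp) := by rw [h]; exact Submodule.mem_top
    exact this
  have hpa : ∀ σ ∈ Ap.inertiaSubgroupIn ℚ, ∀ x : VV P, σ • x - x ∈ subOf (e1Sub Ap hAp) :=
    fun σ hσ x => sub_E1_at_p P Ap hAp σ hσ x x.nsmul_eq_zero
  have hfd := finiteDimensional_EE P
  by_cases hNV : N ≤ subOf (e1Sub Ap hAp)
  · -- `χ₂` is unramified everywhere
    have hVN : subOf (e1Sub Ap hAp) = N := (hco _ hNV).resolve_right hV1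
    have hnorm := H2_normal N hN
    have htop : H2 N hN = ⊤ := by
      refine minkowski_exists (H2 N hN) (EE P) ?_ ?_
      · intro σ hσ x
        rw [smul_eq_of_mem_fixing σ hσ x, sub_self]
        exact N.zero_mem
      · intro q hq
        by_cases hq2 : q = 2
        · subst hq2
          exact ⟨A2, hA2, fun σ hσ => h2b σ hσ⟩
        by_cases hqp : q = P.p
        · subst hqp
          exact ⟨Ap, hAp, fun σ hσ x => hVN ▸ hpa σ hσ x⟩
        obtain ⟨A, hA, h⟩ := hgen q hq hq2 hqp
        refine ⟨A, hA, fun σ hσ x => ?_⟩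
        rw [h σ hσ x, sub_self]
        exact N.zero_mem
    refine ⟨N, hN, h0, h1, fun σ x => ?_⟩
    have : σ ∈ H2 N hN := by rw [htop]; exact Subgroup.mem_top σ
    exact this x
  · -- `χ₁` is unramified everywhere: contradiction
    exfalso
    have hinf : N ⊓ subOf (e1Sub Ap hAp) = ⊥ := by
      rcases hat _ (inf_le_left : N ⊓ subOf (e1Sub Ap hAp) ≤ N) with h | h
      · exact h
      · exact absurd (h ▸ inf_le_right) hNV
    have hnorm := H1_normal N hN
    have htop : H1 N = ⊤ := by
      refine minkowski_exists (H1 N) (EE P) ?_ ?_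
      · intro σ hσ x _
        exact smul_eq_of_mem_fixing σ hσ x
      · intro q hq
        by_cases hq2 : q = 2
        · subst hq2
          exact ⟨A2, hA2, fun σ hσ => h2a σ hσ⟩
        by_cases hqp : q = P.p
        · subst hqp
          refine ⟨Ap, hAp, fun σ hσ x hx => ?_⟩
          have : σ • x - x ∈ N ⊓ subOf (e1Sub Ap hAp) :=
            ⟨N.sub_mem (hN σ x hx) hx, hpa σ hσ x⟩
          rw [hinf, Submodule.mem_bot] at this
          exact sub_eq_zero.1 this
        obtain ⟨A, hA, h⟩ := hgen q hq hq2 hqp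
        exact ⟨A, hA, fun σ hσ x _ => h σ hσ x⟩
    apply hT0'
    refine no_rational_torsion P T (VV.nsmul_eq_zero T) (fun σ => ?_)
    have : σ ∈ H1 N := by rw [htop]; exact Subgroup.mem_top σ
    exact congrArg Subtype.val (this T hTN)

end

end FA13
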