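/-
S13 (C3): conjugacy of the places of `ℚ̄` above a prime, and independence of `N ⊂ E1(A)` of `A`.
-/
import Fermat.Agent.Maz.Defs
import Fermat.Agent.H5.Frobenius

set_option autoImplicit false
set_option linter.style.haveILetI false

open WeierstrassCurve WeierstrassCurve.Affine WeierstrassCurve.Affine.Point
open scoped Pointwise

namespace FA13

open FA_h5 FAUnram

local notation "Zbar" => integralClosure ℤ (AlgebraicClosure ℚ)

/-- An automorphism mapping the centre of `A` to the centre of `A'` maps `A` into `A'`. -/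
theorem apply_mem_of_smul_centre_eq {ℓ : ℕ} (hℓ : ℓ.Prime) (A A' : ValuationSubring Qb)
    (hA : A.LiesOverPrime ℓ) (τ : GQ) (hτ : centre A' = τ • centre A) {x : Qb} (hx : x ∈ A) :
    τ x ∈ A' := by
  obtain ⟨b, c, hb, hc, hbn, hxb⟩ := exists_integral_mul_eq hℓ A hA (isAlgebraic_int x) hx
  have hτb : IsIntegral ℤ (τ b) := hb.map τ
  have hτc : IsIntegral ℤ (τ c) := hc.map τ
  have hτbn : τ b ∉ A'.nonunits := by
    intro h
    have h1 : (⟨τ b, hτb⟩ : Zbar) ∈ centre A' := (mem_centre_iff A' _).mpr h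
    rw [hτ, Ideal.mem_pointwise_smul_iff_inv_smul_mem] at h1
    have h2 : τ⁻¹ • (⟨τ b, hτb⟩ : Zbar) = ⟨b, hb⟩ := by
      apply Subtype.ext
      show τ⁻¹ (τ b) = b
      exact τ.symm_apply_apply b
    rw [h2, mem_centre_iff] at h1
    exact hbn h1
  have hτbA : τ b ∈ A' := mem_of_isIntegral A' hτb
  have hunit : IsUnit (⟨τ b, hτbA⟩ : A') := by
    by_contra hnu
    apply hτbn
    rw [ValuationSubring.mem_nonunits_iff_exists_mem_maximalIdeal]
    exact ⟨hτbA, (IsLocalRing.mem_maximalIdeal _).mpr hnu⟩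
  obtain ⟨v, hv⟩ := hunit
  have h1 : τ b * ((↑v⁻¹ : A') : Qb) = 1 := by
    have h2 : (⟨τ b, hτbA⟩ : A') * (↑v⁻¹ : A') = 1 := by rw [← hv]; exact v.mul_inv
    exact congrArg Subtype.val h2
  have h3 : τ x * τ b = τ c := by rw [← map_mul, hxb]
  have h4 : τ x = τ c * ((↑v⁻¹ : A') : Qb) := by
    rw [← h3, mul_assoc, h1, mul_one]
  rw [h4]
  exact A'.mul_mem _ _ (mem_of_isIntegral A' hτc) (Subtype.property _)

/-- **Conjugacy of places**: `Gal(ℚ̄/ℚ)` permutes transitively the valuation subrings above `ℓ`. -/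
theorem exists_conj {ℓ : ℕ} (hℓ : ℓ.Prime) (A A' : ValuationSubring Qb)
    (hA : A.LiesOverPrime ℓ) (hA' : A'.LiesOverPrime ℓ) :
    ∃ τ : GQ, ∀ x : Qb, x ∈ A ↔ τ x ∈ A' := by
  classical
  have h1 := centre_liesOver hℓ A hA
  have h2 := centre_liesOver hℓ A' hA'
  haveI := isGalois_Qbar
  haveI := isAlgebraic_Qbar
  letI : TopologicalSpace Zbar := ⊥
  haveI : DiscreteTopology Zbar := ⟨rfl⟩
  haveI := continuousSMul_Zbar
  haveI := isInvariant_Zbar
  obtain ⟨τ, hτ⟩ := Algebra.IsInvariant.exists_smul_of_under_eq_of_profinite (A := ℤ) (G := GQ)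
    (centre A) (centre A') (h1.over.symm.trans h2.over)
  refine ⟨τ, fun x => ⟨fun hx => apply_mem_of_smul_centre_eq hℓ A A' hA τ hτ hx, fun hx => ?_⟩⟩
  have hτ' : centre A = τ⁻¹ • centre A' := by rw [hτ, inv_smul_smul]
  have := apply_mem_of_smul_centre_eq hℓ A' A hA' τ⁻¹ hτ' hx
  rwa [AlgEquiv.aut_inv, AlgEquiv.symm_apply_apply] at this

namespace Indep

theorem inE1_zero (P : FreyPackage) (A : ValuationSubring Qb) : InE1 P A 0 := by
  show A.valuation ((kumSys (WF P) 0).Z 0) < A.valuation ((kumSys (WF P) 0).X 0)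
  rw [(kumSys (WF P) 0).Z_zero, (kumSys (WF P) 0).X_zero, _root_.map_zero, map_one]
  exact zero_lt_one

theorem inE1_some_iff (P : FreyPackage) (A : ValuationSubring Qb) {x y : Qb}
    (h : (WF P).Nonsingular x y) : InE1 P A (Point.some x y h) ↔ x ∉ A := by
  show A.valuation ((kumSys (WF P) 0).Z _) < A.valuation ((kumSys (WF P) 0).X _) ↔ _
  rw [kumSys_Z_some, kumSys_X_some, sub_zero, map_one, ← not_le, ValuationSubring.valuation_le_one_iff]

theorem inE1_smul (P : FreyPackage) (A A' : ValuationSubring Qb) (τ : GQ)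
    (hτ : ∀ x : Qb, x ∈ A ↔ τ x ∈ A') {T : (WF P).Point} (hT : InE1 P A T) :
    InE1 P A' (τ • T) := by
  cases T with
  | zero => exact inE1_zero P A'
  | some x y h =>
    have h1 : τ • (Point.some x y h : (WF P).Point) = Point.some (τ x) (τ y) _ :=
      Point.map_some (W' := P.freyCurve) τ.toAlgHom h
    rw [h1, inE1_some_iff]
    rw [inE1_some_iff] at hT
    exact fun h2 => hT ((hτ x).2 h2)

/-- integrality of the Frey model at an odd place -/
theorem isInt (P : FreyPackage) (A : ValuationSubring Qb) {q : ℕ} (hq : q.Prime) (hq2 : q ≠ 2)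
    (hA : A.LiesOverPrime q) : (kumSys (WF P) 0).IsInt A.valuation := by
  set v := A.valuation with hv
  set W : WeierstrassCurve.Affine Qb := WF P with hW
  have ha₁ : W.a₁ = 1 := by simp [hW, FreyPackage.freyCurve]
  have ha₂ : W.a₂ = (((P.b : ℤ) : Qb) ^ P.p - 1 - ((P.a : ℤ) : Qb) ^ P.p) / 4 := by
    simp [hW, FreyPackage.freyCurve]
  have ha₃ : W.a₃ = 0 := by simp [hW, FreyPackage.freyCurve]
  have ha₄ : W.a₄ = -((P.a : ℤ) : Qb) ^ P.p * ((P.b : ℤ) : Qb) ^ P.p / 16 := by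
    simp [hW, FreyPackage.freyCurve]
  have ha₆ : W.a₆ = 0 := by simp [hW, FreyPackage.freyCurve]
  have hq2' : ¬ (q : ℤ) ∣ 2 := by
    intro h
    have h1 : q ∣ 2 := by exact_mod_cast h
    exact hq2 ((Nat.prime_dvd_prime_iff_eq hq Nat.prime_two).mp h1)
  have v2 : v 2 = 1 := by
    have := valuation_intCast_eq_one A hq hA 2 hq2'
    simpa using this
  have v4 : v 4 = 1 := by
    have : (4 : Qb) = 2 * 2 := by norm_num
    rw [this, map_mul, v2, one_mul]
  have v16 : v 16 = 1 := by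
    have : (16 : Qb) = 4 * 4 := by norm_num
    rw [this, map_mul, v4, one_mul]
  have vpow_le : ∀ n : ℤ, v ((n : Qb) ^ P.p) ≤ 1 := by
    intro n
    rw [map_pow]
    exact pow_le_one₀ zero_le (valuation_intCast_le_one A n)
  refine kumSys_isInt W v 0 (by rw [_root_.map_zero]; exact zero_le_one) ?_ ?_ ?_ ?_ ?_
  · rw [ha₁, map_one]
  · rw [ha₂, map_div₀, v4, div_one]
    exact v.map_sub_le (v.map_sub_le (vpow_le _) (by rw [map_one])) (vpow_le _)
  · rw [ha₃, _root_.map_zero]; exact zero_le_one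
  · rw [ha₄, map_div₀, v16, div_one, map_mul, Valuation.map_neg]
    exact mul_le_one' (vpow_le _) (vpow_le _)
  · rw [ha₆, _root_.map_zero]; exact zero_le_one

theorem inE1_nsmul (P : FreyPackage) (A : ValuationSubring Qb) {q : ℕ} (hq : q.Prime)
    (hq2 : q ≠ 2) (hA : A.LiesOverPrime q) {T : (WF P).Point} (hT : InE1 P A T) (k : ℕ) :
    InE1 P A (k • T) :=
  ((kumSys (WF P) 0).rho_nsmul A.valuation (isInt P A hq hq2 hA) hT k).1.1

end Indep

open Indep in
theorem E1_indep (P : FreyPackage) (A A' : ValuationSubring Qb) (hA : A.LiesOverPrime P.p)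
    (hA' : A'.LiesOverPrime P.p)
    (T : (WF P).Point) (hT : P.p • T = 0) (hst : ∀ σ : GQ, ∃ k : ℕ, σ • T = k • T)
    (h : InE1 P A T) : InE1 P A' T := by
  by_cases hT0 : T = 0
  · rw [hT0]; exact inE1_zero P A'
  obtain ⟨τ, hτ⟩ := exists_conj P.pp A A' hA hA'
  obtain ⟨k, hk⟩ := hst τ
  have h1 : InE1 P A' (k • T) := hk ▸ inE1_smul P A A' τ hτ h
  have hp2 : P.p ≠ 2 := by
    have := P.hp5
    omega
  have hkT : k • T ≠ 0 := by
    rw [← hk]
    intro h0
    apply hT0
    have h5 := congrArg (fun R => τ⁻¹ • R) h0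
    simp only [inv_smul_smul] at h5
    rw [h5]
    exact smul_zero (A := (WF P).Point) τ⁻¹
  have hcop : Nat.Coprime k P.p := by
    rw [Nat.coprime_comm, Nat.Prime.coprime_iff_not_dvd P.pp]
    rintro ⟨j, rfl⟩
    apply hkT
    rw [mul_comm, mul_smul, hT, nsmul_zero]
  obtain ⟨m, -, hm⟩ := Nat.exists_mul_mod_eq_one_of_coprime hcop P.pp.one_lt
  have h2 := inE1_nsmul P A' P.pp hp2 hA' h1 m
  have h3 : m • k • T = T := by
    rw [← mul_smul, mul_comm, ← Nat.div_add_mod (k * m) P.p, hm, add_smul, mul_smul, one_smul,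
      smul_comm, hT, nsmul_zero, zero_add]
  rwa [h3] at h2

end FA13
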