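import Fermat.Agent.Unram.Kummer

/-!
# S13 package TORS, part 1: Montgomery-ladder polynomials

`LA n`, `LB n` are polynomials in `t` with `x(nP) = LA n (x(P)) / LB n (x(P))`
(they are the classical `φ_n`, `ψ_n²`), defined by a doubling / differential-addition ladder which
never divides.
-/

set_option autoImplicit false

open Polynomial

namespace FA13

section forms

variable {R : Type*} [CommRing R]

/-- numerator of `x(P+Q) * x(P-Q)`. -/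
def G0 (b₄ b₆ b₈ X₁ Z₁ X₂ Z₂ : R) : R :=
  (X₁ * X₂) ^ 2 - b₄ * (X₁ * X₂) * (Z₁ * Z₂) - b₆ * (X₁ * Z₂ + X₂ * Z₁) * (Z₁ * Z₂)
    - b₈ * (Z₁ * Z₂) ^ 2

/-- numerator of `x(P+Q) + x(P-Q)`. -/
def G1 (b₂ b₄ b₆ X₁ Z₁ X₂ Z₂ : R) : R :=
  2 * (X₁ * Z₂ + X₂ * Z₁) * (X₁ * X₂) + b₂ * (X₁ * X₂) * (Z₁ * Z₂)
    + b₄ * (X₁ * Z₂ + X₂ * Z₁) * (Z₁ * Z₂) + b₆ * (Z₁ * Z₂) ^ 2

/-- common denominator. -/
def G2 (X₁ Z₁ X₂ Z₂ : R) : R := (X₁ * Z₂ - X₂ * Z₁) ^ 2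

lemma G0_eq_F0 {K : Type*} [Field K] (b₄ b₆ b₈ X₁ Z₁ X₂ Z₂ : K) :
    G0 b₄ b₆ b₈ X₁ Z₁ X₂ Z₂ = FAUnram.F0 b₄ b₆ b₈ X₁ Z₁ X₂ Z₂ := rfl

lemma G1_eq_F1 {K : Type*} [Field K] (b₂ b₄ b₆ X₁ Z₁ X₂ Z₂ : K) :
    G1 b₂ b₄ b₆ X₁ Z₁ X₂ Z₂ = FAUnram.F1 b₂ b₄ b₆ X₁ Z₁ X₂ Z₂ := rfl

lemma G2_eq_F2 {K : Type*} [Field K] (X₁ Z₁ X₂ Z₂ : K) :
    G2 X₁ Z₁ X₂ Z₂ = FAUnram.F2 X₁ Z₁ X₂ Z₂ := rfl

lemma map_G0 {S : Type*} [CommRing S] (f : R →+* S) (b₄ b₆ b₈ X₁ Z₁ X₂ Z₂ : R) :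
    f (G0 b₄ b₆ b₈ X₁ Z₁ X₂ Z₂) = G0 (f b₄) (f b₆) (f b₈) (f X₁) (f Z₁) (f X₂) (f Z₂) := by
  simp only [G0, map_sub, map_mul, map_pow, map_add]

lemma map_G1 {S : Type*} [CommRing S] (f : R →+* S) (b₂ b₄ b₆ X₁ Z₁ X₂ Z₂ : R) :
    f (G1 b₂ b₄ b₆ X₁ Z₁ X₂ Z₂) = G1 (f b₂) (f b₄) (f b₆) (f X₁) (f Z₁) (f X₂) (f Z₂) := by
  simp only [G1, map_mul, map_pow, map_add, map_ofNat]

lemma map_G2 {S : Type*} [CommRing S] (f : R →+* S) (X₁ Z₁ X₂ Z₂ : R) :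
    f (G2 X₁ Z₁ X₂ Z₂) = G2 (f X₁) (f Z₁) (f X₂) (f Z₂) := by
  simp only [G2, map_sub, map_mul, map_pow]

lemma G0_smul (b₄ b₆ b₈ c d X₁ Z₁ X₂ Z₂ : R) :
    G0 b₄ b₆ b₈ (c * X₁) (c * Z₁) (d * X₂) (d * Z₂) = c ^ 2 * d ^ 2 * G0 b₄ b₆ b₈ X₁ Z₁ X₂ Z₂ := by
  simp only [G0]; ring

lemma G1_smul (b₂ b₄ b₆ c d X₁ Z₁ X₂ Z₂ : R) :
    G1 b₂ b₄ b₆ (c * X₁) (c * Z₁) (d * X₂) (d * Z₂) = c ^ 2 * d ^ 2 * G1 b₂ b₄ b₆ X₁ Z₁ X₂ Z₂ := by
  simp only [G1]; ring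

lemma G2_smul (c d X₁ Z₁ X₂ Z₂ : R) :
    G2 (c * X₁) (c * Z₁) (d * X₂) (d * Z₂) = c ^ 2 * d ^ 2 * G2 X₁ Z₁ X₂ Z₂ := by
  simp only [G2]; ring

end forms

section ladder

variable {R : Type*} [CommRing R] (b₂ b₄ b₆ b₈ : R)

/-- doubling. -/
noncomputable def dbl (p : R[X] × R[X]) : R[X] × R[X] :=
  (G0 (C b₄) (C b₆) (C b₈) p.1 p.2 p.1 p.2, G1 (C b₂) (C b₄) (C b₆) p.1 p.2 p.1 p.2)

/-- differential addition: `p ↔ (k+1)P`, `q ↔ kP`, difference `P = (t : 1)`. -/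
noncomputable def dadd (p q : R[X] × R[X]) : R[X] × R[X] :=
  (G1 (C b₂) (C b₄) (C b₆) p.1 p.2 q.1 q.2 - X * G2 p.1 p.2 q.1 q.2, G2 p.1 p.2 q.1 q.2)

/-- the ladder polynomials `(φ_n, ψ_n²)`. -/
noncomputable def LP : ℕ → R[X] × R[X]
  | 0 => (1, 0)
  | 1 => (X, 1)
  | (n + 2) =>
    if h : n % 2 = 0 then dbl b₂ b₄ b₆ b₈ (LP (n / 2 + 1))
    else dadd b₂ b₄ b₆ (LP (n / 2 + 2)) (LP (n / 2 + 1))
  decreasing_by all_goals omega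

/-- `φ_n`. -/
noncomputable def LA (n : ℕ) : R[X] := (LP b₂ b₄ b₆ b₈ n).1

/-- `ψ_n²`. -/
noncomputable def LB (n : ℕ) : R[X] := (LP b₂ b₄ b₆ b₈ n).2

lemma LP_zero : LP b₂ b₄ b₆ b₈ 0 = (1, 0) := by rw [LP]

lemma LP_one : LP b₂ b₄ b₆ b₈ 1 = (X, 1) := by rw [LP]

lemma LP_two_mul (k : ℕ) : LP b₂ b₄ b₆ b₈ (2 * k) = dbl b₂ b₄ b₆ b₈ (LP b₂ b₄ b₆ b₈ k) := by
  rcases k with _ | k
  · simp [LP_zero, dbl, G0, G1]
  · have h1 : 2 * (k + 1) = 2 * k + 2 := by ring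
    rw [h1, LP, dif_pos (by omega)]
    congr 2
    omega

lemma LP_two_mul_add_one (k : ℕ) : LP b₂ b₄ b₆ b₈ (2 * k + 1) =
    dadd b₂ b₄ b₆ (LP b₂ b₄ b₆ b₈ (k + 1)) (LP b₂ b₄ b₆ b₈ k) := by
  rcases k with _ | k
  · simp only [mul_zero, zero_add, LP_zero, LP_one, dadd, G1, G2]
    ext1 <;> simp <;> ring
  · have h1 : 2 * (k + 1) + 1 = (2 * k + 1) + 2 := by ring
    rw [h1, LP, dif_neg (by omega)]
    have h2 : (2 * k + 1) / 2 = k := by omega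
    rw [h2]

@[simp] lemma LA_zero : LA b₂ b₄ b₆ b₈ 0 = 1 := by rw [LA, LP_zero]
@[simp] lemma LB_zero : LB b₂ b₄ b₆ b₈ 0 = 0 := by rw [LB, LP_zero]
@[simp] lemma LA_one : LA b₂ b₄ b₆ b₈ 1 = X := by rw [LA, LP_one]
@[simp] lemma LB_one : LB b₂ b₄ b₆ b₈ 1 = 1 := by rw [LB, LP_one]

lemma LA_two_mul (k : ℕ) : LA b₂ b₄ b₆ b₈ (2 * k) =
    G0 (C b₄) (C b₆) (C b₈) (LA b₂ b₄ b₆ b₈ k) (LB b₂ b₄ b₆ b₈ k) (LA b₂ b₄ b₆ b₈ k)
      (LB b₂ b₄ b₆ b₈ k) := by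
  rw [LA, LP_two_mul]; rfl

lemma LB_two_mul (k : ℕ) : LB b₂ b₄ b₆ b₈ (2 * k) =
    G1 (C b₂) (C b₄) (C b₆) (LA b₂ b₄ b₆ b₈ k) (LB b₂ b₄ b₆ b₈ k) (LA b₂ b₄ b₆ b₈ k)
      (LB b₂ b₄ b₆ b₈ k) := by
  rw [LB, LP_two_mul]; rfl

lemma LA_two_mul_add_one (k : ℕ) : LA b₂ b₄ b₆ b₈ (2 * k + 1) =
    G1 (C b₂) (C b₄) (C b₆) (LA b₂ b₄ b₆ b₈ (k + 1)) (LB b₂ b₄ b₆ b₈ (k + 1)) (LA b₂ b₄ b₆ b₈ k)
      (LB b₂ b₄ b₆ b₈ k) -
    X * G2 (LA b₂ b₄ b₆ b₈ (k + 1)) (LB b₂ b₄ b₆ b₈ (k + 1)) (LA b₂ b₄ b₆ b₈ k)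
      (LB b₂ b₄ b₆ b₈ k) := by
  rw [LA, LP_two_mul_add_one]; rfl

lemma LB_two_mul_add_one (k : ℕ) : LB b₂ b₄ b₆ b₈ (2 * k + 1) =
    G2 (LA b₂ b₄ b₆ b₈ (k + 1)) (LB b₂ b₄ b₆ b₈ (k + 1)) (LA b₂ b₄ b₆ b₈ k)
      (LB b₂ b₄ b₆ b₈ k) := by
  rw [LB, LP_two_mul_add_one]; rfl

/-- induction along the ladder. -/
lemma ladder_induction (P : ℕ → Prop) (h0 : P 0) (h1 : P 1)
    (heven : ∀ k, 1 ≤ k → P k → P (2 * k))
    (hodd : ∀ k, 1 ≤ k → P k → P (k + 1) → P (2 * k + 1)) : ∀ n, P n := by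
  intro n
  induction n using Nat.strong_induction_on with
  | _ n ih =>
    rcases Nat.even_or_odd' n with ⟨k, rfl | rfl⟩
    · rcases k with _ | k
      · exact h0
      · exact heven _ (by omega) (ih _ (by omega))
    · rcases k with _ | k
      · exact h1
      · exact hodd _ (by omega) (ih _ (by omega)) (ih _ (by omega))

/-- base change. -/
lemma map_LA_LB {S : Type*} [CommRing S] (f : R →+* S) (n : ℕ) :
    (LA b₂ b₄ b₆ b₈ n).map f = LA (f b₂) (f b₄) (f b₆) (f b₈) n ∧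
    (LB b₂ b₄ b₆ b₈ n).map f = LB (f b₂) (f b₄) (f b₆) (f b₈) n := by
  induction n using ladder_induction with
  | h0 => simp
  | h1 => simp
  | heven k _ ih =>
    rw [LA_two_mul, LB_two_mul, LA_two_mul, LB_two_mul, ← coe_mapRingHom, map_G0, map_G1]
    simp only [coe_mapRingHom, map_C, ih.1, ih.2, and_self]
  | hodd k _ ih ih' =>
    rw [LA_two_mul_add_one, LB_two_mul_add_one, LA_two_mul_add_one, LB_two_mul_add_one,
      ← coe_mapRingHom, map_sub, map_mul, map_G1, map_G2]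
    simp only [coe_mapRingHom, map_C, map_X, ih.1, ih.2, ih'.1, ih'.2, and_self]

lemma map_LA {S : Type*} [CommRing S] (f : R →+* S) (n : ℕ) :
    (LA b₂ b₄ b₆ b₈ n).map f = LA (f b₂) (f b₄) (f b₆) (f b₈) n := (map_LA_LB _ _ _ _ f n).1

lemma map_LB {S : Type*} [CommRing S] (f : R →+* S) (n : ℕ) :
    (LB b₂ b₄ b₆ b₈ n).map f = LB (f b₂) (f b₄) (f b₆) (f b₈) n := (map_LA_LB _ _ _ _ f n).2

end ladder

section top

variable {R : Type*} [CommRing R]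

/-- `p` has degree `≤ d` and its coefficient of degree `d` is `a`. -/
def TopLE (p : R[X]) (d : ℕ) (a : R) : Prop := p.natDegree ≤ d ∧ p.coeff d = a

lemma TopLE.mul {p q : R[X]} {d e : ℕ} {a b : R} (hp : TopLE p d a) (hq : TopLE q e b) :
    TopLE (p * q) (d + e) (a * b) :=
  ⟨natDegree_mul_le_of_le hp.1 hq.1, by rw [coeff_mul_add_eq_of_natDegree_le hp.1 hq.1, hp.2, hq.2]⟩

lemma TopLE.add {p q : R[X]} {d : ℕ} {a b : R} (hp : TopLE p d a) (hq : TopLE q d b) :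
    TopLE (p + q) d (a + b) :=
  ⟨natDegree_add_le_of_degree_le hp.1 hq.1, by rw [coeff_add, hp.2, hq.2]⟩

lemma TopLE.sub {p q : R[X]} {d : ℕ} {a b : R} (hp : TopLE p d a) (hq : TopLE q d b) :
    TopLE (p - q) d (a - b) :=
  ⟨(natDegree_sub_le_of_le hp.1 hq.1).trans (by simp), by rw [coeff_sub, hp.2, hq.2]⟩

lemma TopLE.sq {p : R[X]} {d : ℕ} {a : R} (hp : TopLE p d a) : TopLE (p ^ 2) (d + d) (a ^ 2) := by
  rw [pow_two, pow_two]; exact hp.mul hp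

lemma TopLE.C_mul {p : R[X]} {d : ℕ} {a : R} (c : R) (hp : TopLE p d a) :
    TopLE (C c * p) d (c * a) :=
  ⟨(natDegree_C_mul_le _ _).trans hp.1, by rw [coeff_C_mul, hp.2]⟩

lemma TopLE.two_mul {p : R[X]} {d : ℕ} {a : R} (hp : TopLE p d a) :
    TopLE (2 * p) d (2 * a) := by
  rw [_root_.two_mul, _root_.two_mul]; exact hp.add hp

lemma TopLE.of_lt {p : R[X]} {d e : ℕ} {a : R} (hp : TopLE p d a) (h : d < e) : TopLE p e 0 :=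
  ⟨hp.1.trans h.le, coeff_eq_zero_of_natDegree_lt (lt_of_le_of_lt hp.1 h)⟩

lemma TopLE.congr {p : R[X]} {d e : ℕ} {a b : R} (hp : TopLE p d a) (h : d = e) (h' : a = b) :
    TopLE p e b := by
  subst h; subst h'; exact hp

lemma topLE_X : TopLE (X : R[X]) 1 1 := ⟨natDegree_X_le, coeff_X_one⟩

lemma topLE_one : TopLE (1 : R[X]) 0 1 := ⟨by simp, by simp⟩

variable (b₂ b₄ b₆ b₈ : R)

/-- **(T2)** for `n = m + 1`: `LA n` is monic of degree `n²` and `LB n = n² t^(n²-1) + …`. -/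
theorem topLE_LA_LB (n : ℕ) (hn : 1 ≤ n) : ∃ m, n ^ 2 = m + 1 ∧
    TopLE (LA b₂ b₄ b₆ b₈ n) (m + 1) 1 ∧ TopLE (LB b₂ b₄ b₆ b₈ n) m ((n : R) ^ 2) := by
  induction n using ladder_induction with
  | h0 => omega
  | h1 => exact ⟨0, by norm_num, by simpa using topLE_X, by simpa using topLE_one⟩
  | heven k hk ih =>
    obtain ⟨m, hm, hA, hB⟩ := ih hk
    refine ⟨4 * m + 3, by rw [mul_pow, hm]; ring, ?_, ?_⟩
    · rw [LA_two_mul, G0]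
      have t1 := (hA.mul hA).sq
      have t2 := ((hA.mul hA).mul (hB.mul hB)).C_mul b₄
      have t3 := (((hA.mul hB).add (hA.mul hB)).mul (hB.mul hB)).C_mul b₆
      have t4 := ((hB.mul hB).sq).C_mul b₈
      rw [← mul_assoc] at t2 t3
      have := ((t1.sub (t2.of_lt (e := m + 1 + (m + 1) + (m + 1 + (m + 1))) (by omega))).sub
        (t3.of_lt (e := m + 1 + (m + 1) + (m + 1 + (m + 1))) (by omega))).sub
        (t4.of_lt (e := m + 1 + (m + 1) + (m + 1 + (m + 1))) (by omega))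
      exact this.congr (by ring) (by ring)
    · rw [LB_two_mul, G1]
      have t1 := (((hA.mul hB).add (hA.mul hB)).two_mul).mul (hA.mul hA)
      have t2 := ((hA.mul hA).mul (hB.mul hB)).C_mul b₂
      have t3 := (((hA.mul hB).add (hA.mul hB)).mul (hB.mul hB)).C_mul b₄
      have t4 := ((hB.mul hB).sq).C_mul b₆
      rw [← mul_assoc] at t2 t3
      have := ((t1.add (t2.of_lt (e := m + 1 + m + (m + 1 + (m + 1))) (by omega))).add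
        (t3.of_lt (e := m + 1 + m + (m + 1 + (m + 1))) (by omega))).add
        (t4.of_lt (e := m + 1 + m + (m + 1 + (m + 1))) (by omega))
      exact this.congr (by ring) (by push_cast; ring)
  | hodd k hk ih ih' =>
    obtain ⟨m, hm, hA, hB⟩ := ih hk
    obtain ⟨m', hm', hA', hB'⟩ := ih' (by omega)
    have s2 := ((hA'.mul hB).sub ((hA.mul hB').congr (by ring) rfl)).sq
    refine ⟨(m' + 1 + m) + (m' + 1 + m), by nlinarith, ?_, ?_⟩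
    · rw [LA_two_mul_add_one, G1, G2]
      have t1 := (((hA'.mul hB).add ((hA.mul hB').congr (by ring) rfl)).two_mul).mul (hA'.mul hA)
      have t2 := ((hA'.mul hA).mul (hB'.mul hB)).C_mul b₂
      have t3 := (((hA'.mul hB).add ((hA.mul hB').congr (by ring) rfl)).mul (hB'.mul hB)).C_mul b₄
      have t4 := ((hB'.mul hB).sq).C_mul b₆
      rw [← mul_assoc] at t2 t3
      have := (((t1.add (t2.of_lt (e := m' + 1 + m + (m' + 1 + (m + 1))) (by omega))).add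
        (t3.of_lt (e := m' + 1 + m + (m' + 1 + (m + 1))) (by omega))).add
        (t4.of_lt (e := m' + 1 + m + (m' + 1 + (m + 1))) (by omega))).sub
        ((topLE_X.mul s2).congr (by ring) rfl)
      exact this.congr (by ring) (by push_cast; ring)
    · rw [LB_two_mul_add_one, G2]
      exact s2.congr rfl (by push_cast; ring)

lemma natDegree_LB_le (n : ℕ) : (LB b₂ b₄ b₆ b₈ n).natDegree ≤ n ^ 2 - 1 := by
  rcases n with _ | n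
  · simp
  · obtain ⟨m, hm, -, hB⟩ := topLE_LA_LB b₂ b₄ b₆ b₈ (n + 1) (by omega)
    rw [hm]; exact hB.1

lemma coeff_LB (n : ℕ) (hn : 1 ≤ n) : (LB b₂ b₄ b₆ b₈ n).coeff (n ^ 2 - 1) = (n : R) ^ 2 := by
  obtain ⟨m, hm, -, hB⟩ := topLE_LA_LB b₂ b₄ b₆ b₈ n hn
  rw [hm]; exact hB.2

lemma natDegree_LA_le (n : ℕ) : (LA b₂ b₄ b₆ b₈ n).natDegree ≤ n ^ 2 := by
  rcases n with _ | n
  · simp
  · obtain ⟨m, hm, hA, -⟩ := topLE_LA_LB b₂ b₄ b₆ b₈ (n + 1) (by omega)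
    rw [hm]; exact hA.1

lemma coeff_LA (n : ℕ) : (LA b₂ b₄ b₆ b₈ n).coeff (n ^ 2) = 1 := by
  rcases n with _ | n
  · simp
  · obtain ⟨m, hm, hA, -⟩ := topLE_LA_LB b₂ b₄ b₆ b₈ (n + 1) (by omega)
    rw [hm]; exact hA.2

end top

section kum

open FAUnram

variable {K : Type*} [Field K] {G : Type*} [AddCommGroup G]

/-- **(T1)** the ladder computes `x(nP)`. -/
theorem ladder (S : KumSys G K) {P : G} (hP : P ≠ 0) (n : ℕ) :
    ∃ c : K, c ≠ 0 ∧ S.X (n • P) = c * (LA S.b₂ S.b₄ S.b₆ S.b₈ n).eval (S.X P) ∧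
      S.Z (n • P) = c * (LB S.b₂ S.b₄ S.b₆ S.b₈ n).eval (S.X P) := by
  have hZ : S.Z P = 1 := S.Z_of_ne P hP
  induction n using ladder_induction with
  | h0 => exact ⟨1, one_ne_zero, by simp [S.X_zero], by simp [S.Z_zero]⟩
  | h1 => exact ⟨1, one_ne_zero, by simp, by simp [hZ]⟩
  | heven k _ ih =>
    obtain ⟨c, hc, hX, hZk⟩ := ih
    obtain ⟨d, hd, r0, r1, -⟩ := S.rel (k • P) (k • P)
    have h2 : k • P + k • P = (2 * k) • P := by rw [two_mul, add_smul]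
    rw [sub_self, S.X_zero, h2, mul_one, hX, hZk, ← G0_eq_F0, G0_smul] at r0
    rw [sub_self, S.X_zero, S.Z_zero, h2, mul_zero, zero_add, one_mul, hX, hZk, ← G1_eq_F1,
      G1_smul] at r1
    refine ⟨d * (c ^ 2 * c ^ 2), mul_ne_zero hd (by positivity), ?_, ?_⟩
    · rw [r0, LA_two_mul, ← coe_evalRingHom, map_G0]
      simp only [coe_evalRingHom, eval_C]
      ring
    · rw [r1, LB_two_mul, ← coe_evalRingHom, map_G1]
      simp only [coe_evalRingHom, eval_C]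
      ring
  | hodd k _ ih ih' =>
    obtain ⟨c, hc, hX, hZk⟩ := ih
    obtain ⟨c', hc', hX', hZk'⟩ := ih'
    obtain ⟨d, hd, -, r1, r2⟩ := S.rel ((k + 1) • P) (k • P)
    have h2 : (k + 1) • P + k • P = (2 * k + 1) • P := by
      rw [← add_smul]; congr 1; ring
    have h3 : (k + 1) • P - k • P = P := by
      rw [add_smul, one_smul, add_sub_cancel_left]
    rw [h2, h3, hZ, mul_one, hX, hZk, hX', hZk', ← G1_eq_F1, G1_smul] at r1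
    rw [h2, h3, hZ, mul_one, hX, hZk, hX', hZk', ← G2_eq_F2, G2_smul] at r2
    refine ⟨d * (c' ^ 2 * c ^ 2), mul_ne_zero hd (by positivity), ?_, ?_⟩
    · rw [LA_two_mul_add_one, eval_sub, eval_mul, eval_X, ← coe_evalRingHom, map_G1, map_G2]
      simp only [coe_evalRingHom, eval_C]
      rw [r2] at r1
      linear_combination r1
    · rw [r2, LB_two_mul_add_one, ← coe_evalRingHom, map_G2]
      simp only [coe_evalRingHom]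
      ring

/-- `n • P = 0` iff `x(P)` is a root of `LB n = ψ_n²`. -/
theorem nsmul_eq_zero_iff (S : KumSys G K) {P : G} (hP : P ≠ 0) (n : ℕ) :
    n • P = 0 ↔ (LB S.b₂ S.b₄ S.b₆ S.b₈ n).eval (S.X P) = 0 := by
  obtain ⟨c, hc, -, hZ⟩ := ladder S hP n
  constructor
  · intro h
    rw [h, S.Z_zero] at hZ
    exact (mul_eq_zero.mp hZ.symm).resolve_left hc
  · intro h
    rw [h, mul_zero] at hZ
    by_contra hne
    rw [S.Z_of_ne _ hne] at hZ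
    exact one_ne_zero hZ

end kum

end FA13
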