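import Fermat.Agent.Maz.Ladder

/-!
# S13 package TORS, part 2: `ψ_n` for odd `n`, the bound `|E[p]| ≤ p²`, existence of torsion
-/

set_option autoImplicit false

open Polynomial

namespace FA13

section LS

variable {R : Type*} [CommRing R] (b₂ b₄ b₆ b₈ : R)

/-- `± ψ_{2m+1}`. -/
noncomputable def LS (m : ℕ) : R[X] :=
  LA b₂ b₄ b₆ b₈ (m + 1) * LB b₂ b₄ b₆ b₈ m - LA b₂ b₄ b₆ b₈ m * LB b₂ b₄ b₆ b₈ (m + 1)

lemma LB_eq_LS_sq (m : ℕ) : LB b₂ b₄ b₆ b₈ (2 * m + 1) = LS b₂ b₄ b₆ b₈ m ^ 2 := by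
  rw [LB_two_mul_add_one, G2, LS]

lemma map_LS {S : Type*} [CommRing S] (f : R →+* S) (m : ℕ) :
    (LS b₂ b₄ b₆ b₈ m).map f = LS (f b₂) (f b₄) (f b₆) (f b₈) m := by
  simp only [LS, Polynomial.map_sub, Polynomial.map_mul, map_LA, map_LB]

lemma topLE_LS (m : ℕ) :
    TopLE (LS b₂ b₄ b₆ b₈ m) (2 * m * (m + 1)) (-((2 * m + 1 : ℕ) : R)) := by
  rcases m with _ | m
  · simp only [LS, zero_add, LA_one, LB_zero, mul_zero, LA_zero, LB_one, mul_one, zero_sub]
    exact ⟨by simp, by simp⟩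
  · obtain ⟨k, hk, hA, hB⟩ := topLE_LA_LB b₂ b₄ b₆ b₈ (m + 1) (by omega)
    obtain ⟨k', hk', hA', hB'⟩ := topLE_LA_LB b₂ b₄ b₆ b₈ (m + 1 + 1) (by omega)
    have := (hA'.mul hB).sub ((hA.mul hB').congr (by ring) rfl)
    exact this.congr (by nlinarith) (by push_cast; ring)

lemma natDegree_LS_le (m : ℕ) : (LS b₂ b₄ b₆ b₈ m).natDegree ≤ 2 * m * (m + 1) :=
  (topLE_LS b₂ b₄ b₆ b₈ m).1

lemma coeff_LS (m : ℕ) :
    (LS b₂ b₄ b₆ b₈ m).coeff (2 * m * (m + 1)) = -((2 * m + 1 : ℕ) : R) :=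
  (topLE_LS b₂ b₄ b₆ b₈ m).2

lemma LS_ne_zero (m : ℕ) (h : ((2 * m + 1 : ℕ) : R) ≠ 0) : LS b₂ b₄ b₆ b₈ m ≠ 0 := by
  intro h0
  have := coeff_LS b₂ b₄ b₆ b₈ m
  rw [h0, coeff_zero] at this
  exact h (neg_eq_zero.mp this.symm)

lemma natDegree_LS (m : ℕ) (h : ((2 * m + 1 : ℕ) : R) ≠ 0) :
    (LS b₂ b₄ b₆ b₈ m).natDegree = 2 * m * (m + 1) := by
  refine le_antisymm (natDegree_LS_le _ _ _ _ m) (le_natDegree_of_ne_zero ?_)
  rw [coeff_LS]
  exact neg_ne_zero.mpr h

end LS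

section kum

open FAUnram

variable {K : Type*} [Field K] {G : Type*} [AddCommGroup G]

/-- `(2m+1) • P = 0` iff `x(P)` is a root of `ψ_{2m+1}`. -/
theorem odd_nsmul_eq_zero_iff (S : KumSys G K) {P : G} (hP : P ≠ 0) (m : ℕ) :
    (2 * m + 1) • P = 0 ↔ (LS S.b₂ S.b₄ S.b₆ S.b₈ m).eval (S.X P) = 0 := by
  rw [nsmul_eq_zero_iff S hP, LB_eq_LS_sq, eval_pow, sq_eq_zero_iff]

/-- the `x`-coordinate determines the point up to sign. -/
theorem eq_or_eq_neg_of_X_eq (S : KumSys G K) {P Q : G} (hP : P ≠ 0) (hQ : Q ≠ 0)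
    (h : S.X P = S.X Q) : P = Q ∨ P = -Q := by
  obtain ⟨c, -, -, -, r2⟩ := S.rel P Q
  rw [S.Z_of_ne P hP, S.Z_of_ne Q hQ, h, F2] at r2
  simp only [mul_one, sub_self, ne_eq, OfNat.ofNat_ne_zero, not_false_eq_true, zero_pow,
    mul_zero, mul_eq_zero] at r2
  rcases r2 with r | r
  · right
    by_contra hne
    rw [S.Z_of_ne (P + Q) (fun h0 => hne (eq_neg_of_add_eq_zero_left h0))] at r
    exact one_ne_zero r
  · left
    by_contra hne
    rw [S.Z_of_ne (P - Q) (fun h0 => hne (sub_eq_zero.mp h0))] at r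
    exact one_ne_zero r

open Classical in
/-- the `(2m+1)`-torsion is finite of cardinality at most `(2m+1)²`. -/
theorem torsion_finite_card_le (S : KumSys G K) (m : ℕ) (h : ((2 * m + 1 : ℕ) : K) ≠ 0) :
    {P : G | (2 * m + 1) • P = 0}.Finite ∧ {P : G | (2 * m + 1) • P = 0}.ncard ≤ (2 * m + 1) ^ 2 := by
  set f := LS S.b₂ S.b₄ S.b₆ S.b₈ m with hf
  have hf0 : f ≠ 0 := LS_ne_zero _ _ _ _ m h
  let Q : K → G := fun x => if hx : ∃ P : G, P ≠ 0 ∧ S.X P = x then hx.choose else 0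
  let F : Finset G := insert 0 (f.roots.toFinset.biUnion fun x => {Q x, -Q x})
  have hsub : {P : G | (2 * m + 1) • P = 0} ⊆ (F : Set G) := by
    intro P hP
    change (2 * m + 1) • P = 0 at hP
    by_cases hP0 : P = 0
    · simp [F, hP0]
    · have hroot := (odd_nsmul_eq_zero_iff S hP0 m).mp hP
      have hx : ∃ P' : G, P' ≠ 0 ∧ S.X P' = S.X P := ⟨P, hP0, rfl⟩
      have hQ : Q (S.X P) = hx.choose := dif_pos hx
      have := eq_or_eq_neg_of_X_eq S hP0 hx.choose_spec.1 hx.choose_spec.2.symm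
      simp only [F, Finset.coe_insert, Finset.coe_biUnion, Set.mem_insert_iff, Set.mem_iUnion]
      right
      refine ⟨S.X P, ?_, ?_⟩
      · simp only [Finset.mem_coe, Multiset.mem_toFinset, mem_roots hf0]
        exact hroot
      · rw [hQ]
        simpa using this
  have hcard : F.card ≤ (2 * m + 1) ^ 2 := by
    have h1 : (f.roots.toFinset.biUnion fun x => ({Q x, -Q x} : Finset G)).card ≤
        f.roots.toFinset.card * 2 :=
      Finset.card_biUnion_le_card_mul _ _ _ fun x _ => Finset.card_le_two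
    have h2 : f.roots.toFinset.card ≤ 2 * m * (m + 1) :=
      (Multiset.toFinset_card_le _).trans ((card_roots' f).trans (natDegree_LS_le _ _ _ _ m))
    have h3 := Finset.card_insert_le (0 : G)
      (f.roots.toFinset.biUnion fun x => ({Q x, -Q x} : Finset G))
    have : F.card ≤ 2 * m * (m + 1) * 2 + 1 := by
      refine h3.trans ?_
      have := h1.trans (Nat.mul_le_mul_right 2 h2)
      omega
    refine this.trans (le_of_eq ?_)
    ring
  refine ⟨F.finite_toSet.subset hsub, ?_⟩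
  calc _ ≤ (F : Set G).ncard := Set.ncard_le_ncard hsub F.finite_toSet
    _ = F.card := Set.ncard_coe_finset F
    _ ≤ _ := hcard

end kum

section curve

open WeierstrassCurve WeierstrassCurve.Affine FAUnram

variable {K : Type*} [Field K] [DecidableEq K] (W : WeierstrassCurve.Affine K)

@[simp] lemma kumSys_zero_b₂ : (kumSys W 0).b₂ = W.b₂ := by simp [kumSys]
@[simp] lemma kumSys_zero_b₄ : (kumSys W 0).b₄ = W.b₄ := by simp [kumSys]
@[simp] lemma kumSys_zero_b₆ : (kumSys W 0).b₆ = W.b₆ := by simp [kumSys]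
@[simp] lemma kumSys_zero_b₈ : (kumSys W 0).b₈ = W.b₈ := by simp [kumSys]

/-- `(2m+1) • (x, y) = 0` iff `ψ_{2m+1}(x) = 0`. -/
theorem odd_nsmul_some_eq_zero_iff {x y : K} (h : W.Nonsingular x y) (m : ℕ) :
    (2 * m + 1) • (Point.some x y h) = 0 ↔ (LS W.b₂ W.b₄ W.b₆ W.b₈ m).eval x = 0 := by
  have := odd_nsmul_eq_zero_iff (kumSys W 0) (P := Point.some x y h) (by simp) m
  simpa using this

lemma coe_torsionBy_eq (p : ℕ) :
    ((Submodule.torsionBy ℤ W.Point (p : ℤ) : Submodule ℤ W.Point) : Set W.Point) =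
      {P : W.Point | p • P = 0} := by
  ext P
  change P ∈ Submodule.torsionBy ℤ W.Point (p : ℤ) ↔ p • P = 0
  rw [Submodule.mem_torsionBy_iff, natCast_zsmul]

/-- **(T4)** `E[p]` is finite with at most `p²` elements. -/
theorem card_torsionBy_le (p : ℕ) (hp : Odd p) (hpK : (p : K) ≠ 0) :
    Finite (Submodule.torsionBy ℤ W.Point (p : ℤ)) ∧
      Nat.card (Submodule.torsionBy ℤ W.Point (p : ℤ)) ≤ p ^ 2 := by
  obtain ⟨m, rfl⟩ := hp
  obtain ⟨h1, h2⟩ := torsion_finite_card_le (kumSys W 0) m hpK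
  rw [← coe_torsionBy_eq] at h1 h2
  exact ⟨h1, by rw [← Nat.card_coe_set_eq] at h2; exact h2⟩

/-- **(T4)** over an algebraically closed field there is a nonzero `p`-torsion point. -/
theorem nontrivial_torsionBy [IsAlgClosed K] (hΔ : W.Δ ≠ 0) (p : ℕ) (hp : Odd p) (hp1 : 1 < p)
    (hpK : (p : K) ≠ 0) : Nontrivial (Submodule.torsionBy ℤ W.Point (p : ℤ)) := by
  obtain ⟨m, rfl⟩ := hp
  have hdeg := natDegree_LS W.b₂ W.b₄ W.b₆ W.b₈ m hpK
  have hm : 1 ≤ m := by omega
  obtain ⟨x, hx⟩ := IsAlgClosed.exists_root (LS W.b₂ W.b₄ W.b₆ W.b₈ m) (by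
    rw [degree_eq_natDegree (LS_ne_zero _ _ _ _ m hpK), hdeg]
    have : 0 < 2 * m * (m + 1) := by positivity
    exact_mod_cast this.ne')
  -- solve for `y`
  let q : K[X] := X ^ 2 + C (W.a₁ * x + W.a₃) * X - C (x ^ 3 + W.a₂ * x ^ 2 + W.a₄ * x + W.a₆)
  have hq : q.natDegree = 2 := by
    simp only [q]
    compute_degree!
  obtain ⟨y, hy⟩ := IsAlgClosed.exists_root q (by
    rw [degree_eq_natDegree (by intro h0; rw [h0] at hq; simp at hq), hq]
    norm_num)
  have heq : W.Equation x y := by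
    rw [Affine.equation_iff]
    simp only [q, IsRoot.def, eval_sub, eval_add, eval_pow, eval_X, eval_mul, eval_C] at hy
    linear_combination hy
  have hns : W.Nonsingular x y := (W.equation_iff_nonsingular_of_Δ_ne_zero hΔ).mp heq
  have hP : (2 * m + 1) • (Point.some x y hns) = 0 :=
    (odd_nsmul_some_eq_zero_iff W hns m).mpr hx
  refine ⟨⟨⟨Point.some x y hns, ?_⟩, 0, ?_⟩⟩
  · rw [Submodule.mem_torsionBy_iff, natCast_zsmul]; exact hP
  · intro h0
    have := congrArg Subtype.val h0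
    simp at this

end curve

section linalg

variable {p : ℕ} [Fact p.Prime] {V : Type*} [AddCommGroup V] [Module (ZMod p) V]

theorem finrank_le_two_of_card_le [Finite V] (h : Nat.card V ≤ p ^ 2) :
    Module.finrank (ZMod p) V ≤ 2 := by
  have := Fintype.ofFinite V
  have h1 : Fintype.card V = Fintype.card (ZMod p) ^ Module.finrank (ZMod p) V :=
    Module.card_eq_pow_finrank
  rw [ZMod.card, ← Nat.card_eq_fintype_card] at h1
  rw [h1] at h
  exact (Nat.pow_le_pow_iff_right (Fact.out : p.Prime).one_lt).mp h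

/-- In a space of dimension `≤ 2`, a proper nonzero subspace is minimal and maximal. -/
theorem line_facts [Finite V] (hV : Module.finrank (ZMod p) V ≤ 2) {N : Submodule (ZMod p) V}
    (h0 : N ≠ ⊥) (h1 : N ≠ ⊤) :
    (∀ C : Submodule (ZMod p) V, C ≤ N → C = ⊥ ∨ C = N) ∧
      (∀ C : Submodule (ZMod p) V, N ≤ C → C = N ∨ C = ⊤) := by
  have : Module.Finite (ZMod p) V := Module.Finite.of_finite
  have hN1 : 0 < Module.finrank (ZMod p) N := by
    rw [Module.finrank_pos_iff]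
    exact (Submodule.nontrivial_iff_ne_bot).mpr h0
  have hN2 : Module.finrank (ZMod p) N < Module.finrank (ZMod p) V := Submodule.finrank_lt h1
  have hN : Module.finrank (ZMod p) N = 1 := by omega
  have hV2 : Module.finrank (ZMod p) V = 2 := by omega
  constructor
  · intro C hC
    by_cases hC0 : C = ⊥
    · exact Or.inl hC0
    · right
      have hC1 : 0 < Module.finrank (ZMod p) C := by
        rw [Module.finrank_pos_iff]
        exact (Submodule.nontrivial_iff_ne_bot).mpr hC0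
      exact Submodule.eq_of_le_of_finrank_le hC (by omega)
  · intro C hC
    by_cases hC1 : C = ⊤
    · exact Or.inr hC1
    · left
      have := Submodule.finrank_lt hC1
      exact (Submodule.eq_of_le_of_finrank_le hC (by omega)).symm

end linalg

end FA13
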